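import Fermat.Agent.Cheb.Cyc

/-!
Construction of the cyclotomic crossing, second part.
-/

set_option autoImplicit false
set_option linter.style.haveILetI false
set_option linter.unusedSectionVars false

open NumberField Filter Topology
open scoped IntermediateField

namespace Fermat.Agent.Cheb

open Fermat.Agent.FrobDensity

noncomputable section

theorem exists_setup {M : Type*} [Field M] [NumberField M] [IsGalois ℚ M] {q : ℕ}
    [hq : Fact q.Prime] {ζ : M} (hζ : IsPrimitiveRoot ζ q) {G A : Type*} [Group G] [CommGroup A]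
    (E : IntermediateField ℚ M) (hE : ¬ (q : ℤ) ∣ discr E)
    (f : (M ≃ₐ[ℚ] M) →* G) (hf : Function.Surjective f) (hfE : E.fixingSubgroup ≤ f.ker)
    (θ₀ : (ZMod q)ˣ →* A) (hθ : Function.Surjective θ₀) (hθ1 : θ₀ (-1) = 1) :
    ∃ S : Setup M G A, ∀ x, (S.π x).1 = f x := by
  obtain ⟨B, hB⟩ : ∃ B : ℕ, ∀ H : Subgroup (M ≃ₐ[ℚ] M), smallBound (fixedF H) ≤ B := by
    obtain ⟨b, hb⟩ := (Set.finite_range (fun H : Subgroup (M ≃ₐ[ℚ] M) =>
      smallBound (fixedF H))).bddAbove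
    obtain ⟨B, hB⟩ := exists_nat_ge b
    exact ⟨B, fun H => (hb ⟨H, rfl⟩).trans hB⟩
  set m : ℕ := q * (discr M).natAbs * Nat.factorial B with hm
  have hm0 : m ≠ 0 := by
    refine mul_ne_zero (mul_ne_zero hq.out.ne_zero ?_) (Nat.factorial_ne_zero B)
    exact Int.natAbs_ne_zero.2 (discr_ne_zero M)
  have hqm : q ∣ m := (Dvd.intro _ rfl : q ∣ q * (discr M).natAbs).mul_right _
  let κ := hζ.autToPow ℚ
  refine ⟨{
    π := f.prod (θ₀.comp κ)
    surj := ?_
    m := m
    m_ne := hm0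
    good := ?_
    unram := ?_
    θ := θ₀.comp (ZMod.unitsMap hqm)
    θ_neg := ?_
    frob := ?_ }, fun x => rfl⟩
  · refine surj_prod f (θ₀.comp κ) E.fixingSubgroup κ.ker (sup_eq_top hζ E hE) hfE ?_ hf
      (hθ.comp (surj_autToPow hζ))
    intro x hx
    rw [MonoidHom.mem_ker] at hx ⊢
    rw [MonoidHom.comp_apply, hx, map_one]
  · intro H p hp hlt
    have h1 : p ≤ B := by
      have := hlt.le.trans (hB H)
      exact_mod_cast this
    exact (hp.dvd_factorial.2 h1).mul_left _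
  · intro p hp hpm hd
    apply hpm
    have h1 : p ∣ (discr M).natAbs := Int.natCast_dvd.1 hd
    exact (h1.mul_left q).mul_right _
  · rw [MonoidHom.comp_apply]
    have h1 : ZMod.unitsMap hqm (-1) = -1 := by
      apply Units.ext
      simp [ZMod.unitsMap]
    rw [h1, hθ1]
  · intro p hp hpm Q hQ hpQ F hF
    have hpq : ¬ p ∣ q := by
      intro h
      have h1 := Nat.Coprime.coprime_dvd_right hqm hpm
      rw [Nat.Prime.coprime_iff_not_dvd hp] at h1
      exact h1 h
    have h1 : F ζ = ζ ^ p := hF.apply_root hp hpQ hpq hζ.pow_eq_one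
    show θ₀ (κ F) = θ₀ (ZMod.unitsMap hqm (ZMod.unitOfCoprime p hpm))
    congr 1
    rw [autToPow_eq_iff hζ, h1]
    have h2 : ((ZMod.unitsMap hqm (ZMod.unitOfCoprime p hpm) : (ZMod q)ˣ) : ZMod q) = (p : ZMod q) := by
      rw [ZMod.unitsMap_val, ZMod.coe_unitOfCoprime, ZMod.cast_natCast hqm]
    rw [h2, ZMod.val_natCast]
    conv_lhs => rw [← Nat.mod_add_div p q, pow_add, pow_mul, hζ.pow_eq_one, one_pow, mul_one]

/-- Elements of a cyclic group of order `n ^ k` whose order is not divisible by `n` are rare. -/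
theorem card_bad {A : Type*} [CommGroup A] [Finite A] [IsCyclic A] {n k : ℕ} (hn : 0 < n)
    (hk : 0 < k) (hA : Nat.card A = n ^ k) :
    (Nat.card {τ : A // ¬ n ∣ orderOf τ} : ℝ) ≤ n / 2 ^ k * Nat.card A := by
  classical
  haveI : Fintype A := Fintype.ofFinite A
  have hn0 : n ≠ 0 := hn.ne'
  have hsub : (Finset.univ.filter fun τ : A => ¬ n ∣ orderOf τ) ⊆
      n.primeFactors.biUnion fun ℓ => Finset.univ.filter fun τ : A => τ ^ (n ^ k / ℓ ^ k) = 1 := by
    intro τ hτ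
    rw [Finset.mem_filter] at hτ
    have hd0 : orderOf τ ≠ 0 := (orderOf_pos τ).ne'
    have h1 : ¬ ∀ p : ℕ, p.Prime → n.factorization p ≤ (orderOf τ).factorization p := by
      rw [Nat.factorization_prime_le_iff_dvd hn0 hd0]
      exact hτ.2
    push Not at h1
    obtain ⟨ℓ, hℓ, hlt⟩ := h1
    have hℓn : ℓ ∣ n := by
      by_contra h
      rw [Nat.factorization_eq_zero_of_not_dvd h] at hlt
      omega
    have hdk : orderOf τ ∣ n ^ k := hA ▸ orderOf_dvd_natCard τ
    have h2 : orderOf τ * ℓ ^ k ∣ n ^ k := by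
      rw [← Nat.factorization_prime_le_iff_dvd (mul_ne_zero hd0 (pow_ne_zero _ hℓ.ne_zero))
        (pow_ne_zero _ hn0)]
      intro r hr
      rw [Nat.factorization_mul hd0 (pow_ne_zero _ hℓ.ne_zero), Nat.factorization_pow,
        Nat.factorization_pow, Finsupp.add_apply, Finsupp.smul_apply, Finsupp.smul_apply,
        smul_eq_mul, smul_eq_mul, hℓ.factorization]
      by_cases hrl : r = ℓ
      · subst hrl
        rw [Finsupp.single_eq_same]
        obtain ⟨j, rfl⟩ : ∃ j, k = j + 1 := ⟨k - 1, by omega⟩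
        have h3 : 1 ≤ n.factorization r := by omega
        nlinarith
      · rw [Finsupp.single_eq_of_ne hrl, mul_zero, add_zero]
        have h3 := (Nat.factorization_prime_le_iff_dvd hd0 (pow_ne_zero k hn0)).2 hdk r hr
        rw [Nat.factorization_pow, Finsupp.smul_apply, smul_eq_mul] at h3
        exact h3
    rw [Finset.mem_biUnion]
    refine ⟨ℓ, Nat.mem_primeFactors.2 ⟨hℓ, hℓn, hn0⟩, Finset.mem_filter.2 ⟨Finset.mem_univ _, ?_⟩⟩
    rw [← orderOf_dvd_iff_pow_eq_one]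
    exact Nat.dvd_div_of_mul_dvd (by rw [mul_comm]; exact h2)
  have h1 : Nat.card {τ : A // ¬ n ∣ orderOf τ} =
      (Finset.univ.filter fun τ : A => ¬ n ∣ orderOf τ).card := by
    rw [Nat.card_eq_fintype_card, Fintype.card_subtype]
  rw [h1]
  have h2 := (Finset.card_le_card hsub).trans Finset.card_biUnion_le
  have h3 : ∀ ℓ ∈ n.primeFactors,
      ((Finset.univ.filter fun τ : A => τ ^ (n ^ k / ℓ ^ k) = 1).card : ℝ) ≤
        (n : ℝ) ^ k / 2 ^ k := by
    intro ℓ hℓ
    have hℓp := (Nat.mem_primeFactors.1 hℓ).1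
    have hℓn := (Nat.mem_primeFactors.1 hℓ).2.1
    have hpos : 0 < n ^ k / ℓ ^ k :=
      Nat.div_pos (Nat.le_of_dvd (pow_pos hn k) (pow_dvd_pow_of_dvd hℓn k)) (pow_pos hℓp.pos k)
    have h4 := IsCyclic.card_pow_eq_one_le (α := A) hpos
    have h5 : ((n ^ k / ℓ ^ k : ℕ) : ℝ) ≤ (n : ℝ) ^ k / (ℓ : ℝ) ^ k := by
      refine Nat.cast_div_le.trans ?_
      push_cast
      exact le_rfl
    have h6 : (n : ℝ) ^ k / (ℓ : ℝ) ^ k ≤ (n : ℝ) ^ k / 2 ^ k := by
      apply div_le_div_of_nonneg_left (by positivity) (by positivity)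
      apply pow_le_pow_left₀ (by norm_num)
      exact_mod_cast hℓp.two_le
    exact (le_trans (by exact_mod_cast h4) h5).trans h6
  have h4 : ((Finset.univ.filter fun τ : A => ¬ n ∣ orderOf τ).card : ℝ) ≤
      ∑ ℓ ∈ n.primeFactors, ((Finset.univ.filter fun τ : A => τ ^ (n ^ k / ℓ ^ k) = 1).card : ℝ) := by
    exact_mod_cast h2
  refine h4.trans ((Finset.sum_le_sum h3).trans ?_)
  rw [Finset.sum_const, nsmul_eq_mul, hA]
  have h5 : (n.primeFactors.card : ℝ) ≤ n := by
    have h7 : n.primeFactors ⊆ Finset.Icc 1 n := fun p hp =>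
      Finset.mem_Icc.2 ⟨(Nat.prime_of_mem_primeFactors hp).pos, Nat.le_of_mem_primeFactors hp⟩
    have h8 := Finset.card_le_card h7
    rw [Nat.card_Icc, Nat.add_sub_cancel] at h8
    exact_mod_cast h8
  push_cast
  have h6 : (n : ℝ) / 2 ^ k * (n : ℝ) ^ k = n * ((n : ℝ) ^ k / 2 ^ k) := by ring
  rw [h6]
  exact mul_le_mul_of_nonneg_right h5 (by positivity)

/-- Choice of the abelian group. -/
theorem exists_quot {q n k : ℕ} [hq : Fact q.Prime] (hn : 0 < n) (hqk : q ≡ 1 [MOD (2 * n ^ k)]) :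
    ∃ (A : Subgroup (ZMod q)ˣ) (θ₀ : (ZMod q)ˣ →* A), IsCyclic A ∧ Nat.card A = n ^ k ∧
      Function.Surjective θ₀ ∧ θ₀ (-1) = 1 := by
  have hN : 0 < n ^ k := pow_pos hn k
  have hdvd : 2 * n ^ k ∣ q - 1 := (Nat.modEq_iff_dvd' hq.out.one_lt.le).1 hqk.symm
  obtain ⟨e, he⟩ := hdvd
  refine ⟨(powMonoidHom (2 * e) : (ZMod q)ˣ →* (ZMod q)ˣ).range,
    (powMonoidHom (2 * e) : (ZMod q)ˣ →* (ZMod q)ˣ).rangeRestrict, inferInstance, ?_,
    MonoidHom.rangeRestrict_surjective _, ?_⟩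
  · rw [IsCyclic.card_powMonoidHom_range, Nat.card_eq_fintype_card, ZMod.card_units]
    have h1 : q - 1 = n ^ k * (2 * e) := by rw [he]; ring
    have h2 : 0 < 2 * e := by
      rcases Nat.eq_zero_or_pos e with h | h
      · rw [h, mul_zero] at he
        have := hq.out.one_lt
        omega
      · omega
    rw [h1, Nat.gcd_eq_right (Dvd.intro_left _ rfl), Nat.mul_div_cancel _ h2]
  · apply Subtype.ext
    show (-1 : (ZMod q)ˣ) ^ (2 * e) = 1
    rw [pow_mul]
    simp

end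

end Fermat.Agent.Cheb
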