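import Fermat.Agent.FrobDensity.Qbar

/-!
Counting degree one primes with Frobenius elements.
-/

set_option autoImplicit false
set_option linter.style.haveILetI false
set_option linter.unusedSectionVars false

open NumberField Ideal MulAction
open scoped Pointwise

namespace Fermat.Agent.Cheb

open Fermat.Agent.FrobDensity

section Frob

variable {L : Type*} [Field L] [NumberField L]

/-- `F` is a Frobenius element at `Q` (above `p`). -/
def IsFrob (F : L ≃ₐ[ℚ] L) (Q : Ideal (𝓞 L)) (p : ℕ) : Prop := ∀ x : 𝓞 L, F • x - x ^ p ∈ Q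

theorem natCard_int_quot {p : ℕ} (hp : p.Prime) (Q : Ideal (𝓞 L)) [Q.IsPrime]
    (hpQ : (p : 𝓞 L) ∈ Q) : Nat.card (ℤ ⧸ Q.under ℤ) = p := by
  have h1 := liesOver_span_of_mem hp Q hpQ
  rw [← h1.over]
  rw [Nat.card_congr (Int.quotientSpanNatEquivZMod p).toEquiv, Nat.card_zmod]

theorem isFrob_iff {p : ℕ} (hp : p.Prime) (Q : Ideal (𝓞 L)) [Q.IsPrime]
    (hpQ : (p : 𝓞 L) ∈ Q) (F : L ≃ₐ[ℚ] L) : IsFrob F Q p ↔ IsArithFrobAt ℤ F Q := by
  unfold IsFrob IsArithFrobAt AlgHom.IsArithFrobAt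
  rw [natCard_int_quot hp Q hpQ]
  rfl

theorem IsFrob.mem_stabilizer {p : ℕ} (hp : p.Prime) {Q : Ideal (𝓞 L)} [Q.IsPrime]
    (hpQ : (p : 𝓞 L) ∈ Q) {F : L ≃ₐ[ℚ] L} (hF : IsFrob F Q p) :
    F ∈ stabilizer (L ≃ₐ[ℚ] L) Q :=
  ((isFrob_iff hp Q hpQ F).1 hF).mem_stabilizer

theorem IsFrob.conj {p : ℕ} {Q : Ideal (𝓞 L)} {F : L ≃ₐ[ℚ] L} (hF : IsFrob F Q p)
    (x : L ≃ₐ[ℚ] L) : IsFrob (x * F * x⁻¹) (x • Q) p := by
  intro y
  have h1 := hF (x⁻¹ • y)
  have h2 : x • (F • x⁻¹ • y - (x⁻¹ • y) ^ p) ∈ x • Q := Ideal.smul_mem_pointwise_smul _ _ _ h1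
  have h3 : x • (F • x⁻¹ • y - (x⁻¹ • y) ^ p) = (x * F * x⁻¹) • y - y ^ p := by
    rw [smul_sub, smul_pow', smul_inv_smul, mul_smul, mul_smul]
  rwa [h3] at h2

theorem exists_isFrob [IsGalois ℚ L] {p : ℕ} (hp : p.Prime) (Q : Ideal (𝓞 L)) [Q.IsPrime]
    (hpQ : (p : 𝓞 L) ∈ Q) : ∃ F : L ≃ₐ[ℚ] L, IsFrob F Q p := by
  have hQbot : Q ≠ ⊥ := by
    rintro h
    rw [h, Ideal.mem_bot] at hpQ
    exact hp.ne_zero (by exact_mod_cast hpQ)
  haveI : Finite (𝓞 L ⧸ Q) := Ideal.finiteQuotientOfFreeOfNeBot Q hQbot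
  obtain ⟨F, hF⟩ := IsArithFrobAt.exists_of_isInvariant ℤ (L ≃ₐ[ℚ] L) Q
  exact ⟨F, (isFrob_iff hp Q hpQ F).2 hF⟩

theorem stabilizer_eq_zpowers {p : ℕ} (hp : p.Prime) {Q : Ideal (𝓞 L)} [Q.IsPrime]
    (hpQ : (p : 𝓞 L) ∈ Q) (hin : inertia (L ≃ₐ[ℚ] L) Q = ⊥) {F : L ≃ₐ[ℚ] L}
    (hF : IsFrob F Q p) : stabilizer (L ≃ₐ[ℚ] L) Q = Subgroup.zpowers F := by
  have hFs := hF.mem_stabilizer hp hpQ
  apply le_antisymm
  · intro g hg
    obtain ⟨j, hj⟩ := exists_mk_smul_eq L hp Q hpQ g hg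
    have htm : ∀ y : 𝓞 L, Ideal.Quotient.mk Q (F • y) = (Ideal.Quotient.mk Q y) ^ p := by
      intro y
      rw [← map_pow, Ideal.Quotient.eq]
      exact hF y
    have hpow : ∀ m : ℕ, ∀ y : 𝓞 L, Ideal.Quotient.mk Q (F ^ m • y) =
        (Ideal.Quotient.mk Q y) ^ p ^ m := by
      intro m
      induction m with
      | zero => intro y; simp
      | succ m ih =>
        intro y
        rw [pow_succ', mul_smul, htm, ih, ← pow_mul, pow_succ]
    have h1 : (F ^ j)⁻¹ * g ∈ inertia (L ≃ₐ[ℚ] L) Q := by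
      intro x
      have h2 : g • x - F ^ j • x ∈ Q := by
        rw [← Ideal.Quotient.eq, hj, hpow]
      have h3 : (F ^ j)⁻¹ • (g • x - F ^ j • x) ∈ (F ^ j)⁻¹ • Q :=
        Ideal.smul_mem_pointwise_smul _ _ _ h2
      have h4 : (F ^ j)⁻¹ • Q = Q :=
        (stabilizer (L ≃ₐ[ℚ] L) Q).inv_mem (Subgroup.pow_mem _ hFs j)
      rw [h4, smul_sub, inv_smul_smul, ← mul_smul] at h3
      exact h3
    rw [hin, Subgroup.mem_bot] at h1
    rw [← inv_mul_eq_one.mp h1]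
    exact Subgroup.npow_mem_zpowers F j
  · rw [Subgroup.zpowers_le]
    exact hFs

/-- Counting degree one primes in the fixed field of `H` through Frobenius elements. -/
theorem card_conj_mem [IsGalois ℚ L] (H : Subgroup (L ≃ₐ[ℚ] L)) {p : ℕ} (hp : p.Prime)
    (Q₀ : Ideal (𝓞 L)) [hQ₀ : Q₀.IsPrime] (hpQ₀ : (p : 𝓞 L) ∈ Q₀)
    (hin : ∀ Q : Ideal (𝓞 L), Q.IsPrime → (p : 𝓞 L) ∈ Q → inertia (L ≃ₐ[ℚ] L) Q = ⊥)
    {F : L ≃ₐ[ℚ] L} (hF : IsFrob F Q₀ p) :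
    Nat.card {x : L ≃ₐ[ℚ] L // x * F * x⁻¹ ∈ H} = Nat.card H * numDegOne (fixedF H) p := by
  rw [← card_mul_numDegOne H hp Q₀ hpQ₀ hin]
  refine Nat.card_congr (Equiv.subtypeEquivRight fun x => ?_)
  haveI : (x • Q₀).IsPrime := hQ₀.smul x
  have hmem : (p : 𝓞 L) ∈ x • Q₀ := (mem_smul_iff_of_natCast x Q₀ p).mpr hpQ₀
  rw [stabilizer_eq_zpowers hp hmem (hin _ inferInstance hmem) (hF.conj x), Subgroup.zpowers_le]

/-- Frobenius acts on roots of unity by raising to the `p`-th power. -/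
theorem IsFrob.apply_root {p : ℕ} (hp : p.Prime) {Q : Ideal (𝓞 L)} [Q.IsPrime]
    (hpQ : (p : 𝓞 L) ∈ Q) {F : L ≃ₐ[ℚ] L} (hF : IsFrob F Q p) {m : ℕ} (hm : ¬ p ∣ m)
    {ζ : L} (hζ : ζ ^ m = 1) : F ζ = ζ ^ p := by
  have hm0 : m ≠ 0 := fun h => hm (h ▸ dvd_zero p)
  have hint : IsIntegral ℤ ζ := IsIntegral.of_pow (Nat.pos_of_ne_zero hm0) (by rw [hζ]; exact isIntegral_one)
  let z : 𝓞 L := ⟨ζ, hint⟩
  have hz : z ^ m = 1 := by
    apply RingOfIntegers.coe_injective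
    rw [map_pow, map_one]
    exact hζ
  have hmQ : (m : 𝓞 L) ∉ Q := by
    intro hmem
    have hcop : IsCoprime (p : ℤ) (m : ℤ) := by
      rw [Nat.isCoprime_iff_coprime]
      exact (Nat.Prime.coprime_iff_not_dvd hp).2 hm
    obtain ⟨a, b, hab⟩ := hcop
    apply (inferInstance : Q.IsPrime).ne_top
    rw [Ideal.eq_top_iff_one]
    have h1 : (1 : 𝓞 L) = (a : 𝓞 L) * (p : 𝓞 L) + (b : 𝓞 L) * (m : 𝓞 L) := by
      have := congrArg (Int.cast : ℤ → 𝓞 L) hab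
      push_cast at this
      exact this.symm
    rw [h1]
    exact Q.add_mem (Q.mul_mem_left _ hpQ) (Q.mul_mem_left _ hmem)
  have h1 := AlgHom.IsArithFrobAt.apply_of_pow_eq_one ((isFrob_iff hp Q hpQ F).1 hF) hz hmQ
  rw [natCard_int_quot hp Q hpQ] at h1
  have h2 := congrArg (algebraMap (𝓞 L) L) h1
  rw [map_pow] at h2
  exact h2

end Frob

section Group

variable {P G A : Type*} [Group P] [Group G] [CommGroup A] [Finite P] [Finite G] [Finite A]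
  (π : P →* G × A)

/-- number of conjugators of `f` to `σ`. -/
noncomputable def conjCount (f σ : G) : ℕ := Nat.card {y : G // y * f * y⁻¹ = σ}

theorem conj_mem_comap_iff {σ : G} {τ : A} (hd : orderOf σ ∣ orderOf τ) (x F : P)
    (hF : (π F).2 = τ) :
    x * F * x⁻¹ ∈ (Subgroup.zpowers (σ, τ)).comap π ↔ (π x).1 * (π F).1 * (π x).1⁻¹ = σ := by
  rw [Subgroup.mem_comap, Subgroup.mem_zpowers_iff]
  constructor
  · rintro ⟨k, hk⟩
    have h1 := congrArg Prod.fst hk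
    have h2 := congrArg Prod.snd hk
    simp only [map_mul, map_inv, Prod.fst_mul, Prod.fst_inv, Prod.snd_mul, Prod.snd_inv,
      Prod.pow_fst, Prod.pow_snd] at h1 h2
    rw [hF, mul_comm, inv_mul_cancel_left] at h2
    have h3 : τ ^ (k - 1) = 1 := by rw [zpow_sub, h2, zpow_one, mul_inv_cancel]
    have h4 : (orderOf τ : ℤ) ∣ k - 1 := orderOf_dvd_iff_zpow_eq_one.2 h3
    have h5 : (orderOf σ : ℤ) ∣ k - 1 := (Int.natCast_dvd_natCast.2 hd).trans h4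
    have h6 : σ ^ (k - 1) = 1 := orderOf_dvd_iff_zpow_eq_one.1 h5
    have h7 : σ ^ k = σ := by
      have : σ ^ k = σ ^ (k - 1) * σ := by rw [← zpow_add_one]; congr 1; ring
      rw [this, h6, one_mul]
    rw [← h1, h7]
  · intro h
    refine ⟨1, ?_⟩
    rw [zpow_one]
    apply Prod.ext
    · simp only [map_mul, map_inv, Prod.fst_mul, Prod.fst_inv]
      exact h.symm
    · simp only [map_mul, map_inv, Prod.snd_mul, Prod.snd_inv]
      rw [hF, mul_comm, inv_mul_cancel_left]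

theorem natCard_fiber {X Y : Type*} [Group X] [Group Y] [Finite X] (f : X →* Y)
    (hf : Function.Surjective f) (S : Set Y) :
    Nat.card {x : X // f x ∈ S} = Nat.card f.ker * Nat.card S := by
  classical
  have h1 : Nat.card {x : X // f x ∈ S} = Nat.card (Σ y : S, {x : X // f x = y}) := by
    let g : {x : X // f x ∈ S} → S := fun x => ⟨f x.1, x.2⟩
    refine Nat.card_congr ((Equiv.sigmaFiberEquiv g).symm.trans
      (Equiv.sigmaCongrRight fun y => ?_))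
    exact ⟨fun x => ⟨x.1.1, congrArg Subtype.val x.2⟩,
      fun x => ⟨⟨x.1, by rw [x.2]; exact y.2⟩, Subtype.ext x.2⟩, fun x => rfl, fun x => rfl⟩
  have h2 : ∀ y : Y, Nonempty ({x : X // f x = y} ≃ f.ker) := by
    intro y
    obtain ⟨x0, rfl⟩ := hf y
    refine ⟨⟨fun x => ⟨x0⁻¹ * x.1, by
      rw [MonoidHom.mem_ker, map_mul, map_inv, x.2, inv_mul_cancel]⟩,
      fun k => ⟨x0 * k.1, by rw [map_mul, (MonoidHom.mem_ker).1 k.2, mul_one]⟩,
      fun x => ?_, fun k => ?_⟩⟩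
    · ext; simp
    · ext; simp
  rw [h1, ← Nat.card_prod]
  exact Nat.card_congr ((Equiv.sigmaCongrRight fun y : S => Classical.choice (h2 y)).trans
    ((Equiv.sigmaEquivProd _ _).trans (Equiv.prodComm _ _)))

/-- The count of conjugators. -/
theorem card_conj_comap (hπ : Function.Surjective π) {σ : G} {τ : A}
    (hd : orderOf σ ∣ orderOf τ) (F : P) (hF : (π F).2 = τ) :
    Nat.card {x : P // x * F * x⁻¹ ∈ (Subgroup.zpowers (σ, τ)).comap π} =
      Nat.card π.ker * (conjCount (π F).1 σ * Nat.card A) := by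
  have h1 : Nat.card {x : P // x * F * x⁻¹ ∈ (Subgroup.zpowers (σ, τ)).comap π} =
      Nat.card {x : P // π x ∈ {z : G × A | z.1 * (π F).1 * z.1⁻¹ = σ}} :=
    Nat.card_congr (Equiv.subtypeEquivRight fun x => conj_mem_comap_iff π hd x F hF)
  rw [h1, natCard_fiber π hπ]
  congr 1
  unfold conjCount
  rw [← Nat.card_prod]
  exact Nat.card_congr ⟨fun z => (⟨z.1.1, z.2⟩, z.1.2), fun z => ⟨(z.1.1, z.2), z.1.2⟩,
    fun z => rfl, fun z => rfl⟩

theorem natCard_comap_zpowers (hπ : Function.Surjective π) {σ : G} {τ : A}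
    (hd : orderOf σ ∣ orderOf τ) :
    Nat.card ((Subgroup.zpowers (σ, τ)).comap π) = Nat.card π.ker * orderOf τ := by
  have h1 := natCard_fiber π hπ ((Subgroup.zpowers (σ, τ)) : Set (G × A))
  have h2 : Nat.card ((Subgroup.zpowers (σ, τ) : Set (G × A))) = orderOf τ := by
    have h3 : Nat.card (Subgroup.zpowers (σ, τ)) = orderOf (σ, τ) := Nat.card_zpowers _
    rw [Prod.orderOf_mk, Nat.lcm_eq_right hd] at h3
    exact h3
  rw [h2] at h1
  exact h1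

end Group

end Fermat.Agent.Cheb
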