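import Fermat.Agent.Cheb.Main3

/-!
Construction of the cyclotomic crossing.
-/

set_option autoImplicit false
set_option linter.style.haveILetI false
set_option linter.unusedSectionVars false

open NumberField Filter Topology
open scoped IntermediateField

namespace Fermat.Agent.Cheb

open Fermat.Agent.FrobDensity

noncomputable section

theorem surj_prod {P G A : Type*} [Group P] [Group G] [Group A] (f₁ : P →* G) (f₂ : P →* A)
    (N₁ N₂ : Subgroup P) [N₂.Normal] (h : N₁ ⊔ N₂ = ⊤) (h₁ : N₁ ≤ f₁.ker) (h₂ : N₂ ≤ f₂.ker)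
    (s₁ : Function.Surjective f₁) (s₂ : Function.Surjective f₂) :
    Function.Surjective (f₁.prod f₂) := by
  rintro ⟨g, a⟩
  obtain ⟨x₁, rfl⟩ := s₁ g
  obtain ⟨x₂, rfl⟩ := s₂ a
  have h3 : x₁⁻¹ * x₂ ∈ N₁ ⊔ N₂ := by rw [h]; exact Subgroup.mem_top _
  rw [Subgroup.mem_sup_of_normal_right] at h3
  obtain ⟨y, hy, z, hz, hyz⟩ := h3
  refine ⟨x₁ * y, Prod.ext ?_ ?_⟩
  · show f₁ (x₁ * y) = f₁ x₁
    rw [map_mul, MonoidHom.mem_ker.1 (h₁ hy), mul_one]
  · show f₂ (x₁ * y) = f₂ x₂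
    have h4 : x₁ * y = x₂ * z⁻¹ := by
      rw [eq_mul_inv_iff_mul_eq, mul_assoc, hyz, mul_inv_cancel_left]
    rw [h4, map_mul, map_inv, MonoidHom.mem_ker.1 (h₂ hz), inv_one, mul_one]

section

variable {M : Type*} [Field M] [NumberField M] {q : ℕ} [hq : Fact q.Prime] {ζ : M}
  (hζ : IsPrimitiveRoot ζ q)

theorem autToPow_eq_iff (x : M ≃ₐ[ℚ] M) (u : (ZMod q)ˣ) :
    hζ.autToPow ℚ x = u ↔ x ζ = ζ ^ (u : ZMod q).val := by
  have h1 := hζ.autToPow_spec ℚ x
  constructor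
  · intro h
    rw [← h1, h]
  · intro h
    rw [← h1] at h
    have h2 := hζ.pow_inj (ZMod.val_lt _) (ZMod.val_lt _) h
    exact Units.ext (ZMod.val_injective q h2)

theorem ker_autToPow : (hζ.autToPow ℚ).ker = (ℚ⟮ζ⟯).fixingSubgroup := by
  haveI : Fact (1 < q) := ⟨hq.out.one_lt⟩
  have h1 : ∀ x : M ≃ₐ[ℚ] M, x ∈ (hζ.autToPow ℚ).ker ↔ x ζ = ζ := by
    intro x
    rw [MonoidHom.mem_ker, autToPow_eq_iff, Units.val_one, ZMod.val_one, pow_one]
  apply le_antisymm
  · rw [← IntermediateField.le_iff_le, IntermediateField.adjoin_simple_le_iff,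
      IntermediateField.mem_fixedField_iff]
    intro x hx
    exact (h1 x).1 hx
  · intro x hx
    rw [h1]
    exact (IntermediateField.mem_fixingSubgroup_iff _ _).1 hx ζ
      (IntermediateField.mem_adjoin_simple_self ℚ ζ)

include hζ in
theorem finrank_adjoin : Module.finrank ℚ ℚ⟮ζ⟯ = Nat.totient q := by
  rw [IntermediateField.adjoin.finrank (hζ.isIntegral hq.out.pos).tower_top,
    ← Polynomial.cyclotomic_eq_minpoly_rat hζ hq.out.pos, Polynomial.natDegree_cyclotomic]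

theorem surj_autToPow [IsGalois ℚ M] : Function.Surjective (hζ.autToPow ℚ) := by
  have h1 : Nat.card (hζ.autToPow ℚ).ker = Module.finrank ℚ⟮ζ⟯ M := by
    rw [ker_autToPow]
    exact IsGalois.card_fixingSubgroup_eq_finrank _
  have h2 := Module.finrank_mul_finrank ℚ ℚ⟮ζ⟯ M
  rw [finrank_adjoin hζ, ← h1] at h2
  have h3 := Subgroup.card_mul_index (hζ.autToPow ℚ).ker
  rw [Subgroup.index_ker, IsGalois.card_aut_eq_finrank, ← h2, mul_comm] at h3
  have h4 : Nat.card (hζ.autToPow ℚ).range = Nat.totient q :=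
    Nat.eq_of_mul_eq_mul_right Nat.card_pos h3
  rw [← MonoidHom.range_eq_top]
  apply Subgroup.eq_top_of_card_eq
  rw [h4, Nat.card_eq_fintype_card, ZMod.card_units_eq_totient]

include hζ in
theorem isCoprime_discr (E : IntermediateField ℚ M) (hE : ¬ (q : ℤ) ∣ discr E) :
    IsCoprime (discr ℚ⟮ζ⟯) (discr E) := by
  haveI : IsCyclotomicExtension {q} ℚ ℚ⟮ζ⟯ :=
    hζ.intermediateField_adjoin_isCyclotomicExtension ℚ
  have h1 := IsCyclotomicExtension.Rat.discr_prime q ℚ⟮ζ⟯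
  rw [h1]
  refine IsCoprime.mul_left ?_ ?_
  · exact IsCoprime.pow_left (isCoprime_one_left.neg_left)
  · exact IsCoprime.pow_left ((Prime.coprime_iff_not_dvd (Nat.prime_iff_prime_int.1 hq.out)).2 hE)

theorem sup_eq_top [IsGalois ℚ M] (E : IntermediateField ℚ M) (hE : ¬ (q : ℤ) ∣ discr E) :
    E.fixingSubgroup ⊔ (hζ.autToPow ℚ).ker = ⊤ := by
  have hcop := isCoprime_discr hζ E hE
  have hunit : IsUnit (discr ↥(ℚ⟮ζ⟯ ⊓ E)) :=
    hcop.isUnit_of_dvd' (NumberField.discr_dvd_discr _ _) (NumberField.discr_dvd_discr _ _)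
  have hbot : ℚ⟮ζ⟯ ⊓ E = ⊥ := by
    contrapose! hunit
    have : 1 < Module.finrank ℚ ↥(ℚ⟮ζ⟯ ⊓ E) := by
      refine Nat.one_lt_iff_ne_zero_and_ne_one.mpr ⟨Module.finrank_pos.ne', ?_⟩
      rwa [ne_eq, ← IntermediateField.finrank_eq_one_iff] at hunit
    exact Int.isUnit_iff_abs_eq.not.mpr <| by linarith [abs_discr_gt_two this]
  rw [ker_autToPow]
  have h1 : IntermediateField.fixedField (E.fixingSubgroup ⊔ (ℚ⟮ζ⟯).fixingSubgroup) = ⊥ := by
    rw [eq_bot_iff, ← hbot]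
    refine le_inf ?_ ?_
    · have := IntermediateField.fixedField_antitone (F := ℚ) (E := M)
        (show (ℚ⟮ζ⟯).fixingSubgroup ≤ E.fixingSubgroup ⊔ (ℚ⟮ζ⟯).fixingSubgroup from le_sup_right)
      rwa [IsGalois.fixedField_fixingSubgroup] at this
    · have := IntermediateField.fixedField_antitone (F := ℚ) (E := M)
        (show E.fixingSubgroup ≤ E.fixingSubgroup ⊔ (ℚ⟮ζ⟯).fixingSubgroup from le_sup_left)
      rwa [IsGalois.fixedField_fixingSubgroup] at this
  rw [← IntermediateField.fixingSubgroup_fixedField (E.fixingSubgroup ⊔ (ℚ⟮ζ⟯).fixingSubgroup),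
    h1, IntermediateField.fixingSubgroup_bot]

end

end

end Fermat.Agent.Cheb
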