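import Fermat.Agent.Cheb.Euler

/-!
Boundedness of the prime sums attached to nontrivial characters.
-/

set_option autoImplicit false

open NumberField Filter Topology nonZeroDivisors

namespace Fermat.Agent.Cheb

open Fermat.Agent.ExtVanD Fermat.Agent.FrobDensity

noncomputable section

theorem exists_bound_of_exp_tendsto {U : ℝ → ℂ} (hU : ContinuousOn U (Set.Ioi 1)) {ℓ : ℂ}
    (hℓ : ℓ ≠ 0) (h : Tendsto (fun s => Complex.exp (U s)) (𝓝[>] 1) (𝓝 ℓ)) :
    ∃ C : ℝ, ∀ s, 1 < s → s ≤ 2 → ‖U s‖ ≤ C := by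
  have h1 : Tendsto (fun s => Complex.exp (U s) / ℓ) (𝓝[>] 1) (𝓝 1) := by
    have := h.div_const ℓ
    rwa [div_self hℓ] at this
  have h2 : ∀ᶠ s in 𝓝[>] (1 : ℝ), ‖Complex.exp (U s) / ℓ - 1‖ < 1 / 2 := by
    have := h1.eventually (Metric.ball_mem_nhds (1 : ℂ) (by norm_num : (0 : ℝ) < 1 / 2))
    filter_upwards [this] with s hs
    rwa [← dist_eq_norm]
  rw [eventually_nhdsWithin_iff, Metric.eventually_nhds_iff] at h2
  obtain ⟨ε, hε, h2⟩ := h2
  set s1 : ℝ := 1 + min ε 1 with hs1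
  have hmin : 0 < min ε 1 := lt_min hε one_pos
  have hs11 : 1 < s1 := by rw [hs1]; linarith
  have hs12 : s1 ≤ 2 := by rw [hs1]; linarith [min_le_right ε 1]
  have hclose : ∀ s ∈ Set.Ioo 1 s1, ‖Complex.exp (U s) / ℓ - 1‖ < 1 / 2 := by
    intro s hs
    apply @h2 s
    · rw [Real.dist_eq, abs_of_pos (by linarith [hs.1])]
      have := hs.2
      rw [hs1] at this
      linarith [min_le_left ε 1]
    · exact hs.1
  let w : ℝ → ℂ := fun s => Complex.log (Complex.exp (U s) / ℓ)
  let V : ℝ → ℂ := fun s => U s - w s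
  have hsub : Set.Ioo 1 s1 ⊆ Set.Ioi (1 : ℝ) := fun s hs => hs.1
  have hUc : ContinuousOn U (Set.Ioo 1 s1) := hU.mono hsub
  have hwc : ContinuousOn w (Set.Ioo 1 s1) := by
    refine ContinuousOn.clog ((Complex.continuous_exp.comp_continuousOn hUc).div_const ℓ) ?_
    intro s hs
    have h3 : Complex.exp (U s) / ℓ = 1 + (Complex.exp (U s) / ℓ - 1) := by ring
    rw [h3]
    exact Complex.mem_slitPlane_of_norm_lt_one ((hclose s hs).trans (by norm_num))
  have hVc : ContinuousOn V (Set.Ioo 1 s1) := hUc.sub hwc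
  have hV : ∀ s, Complex.exp (V s) = ℓ := by
    intro s
    simp only [V, w]
    rw [Complex.exp_sub, Complex.exp_log (div_ne_zero (Complex.exp_ne_zero _) hℓ)]
    have := Complex.exp_ne_zero (U s)
    field_simp
  have hw : ∀ s ∈ Set.Ioo 1 s1, ‖w s‖ ≤ 1 := by
    intro s hs
    have h3 : Complex.exp (U s) / ℓ = 1 + (Complex.exp (U s) / ℓ - 1) := by ring
    have h4 := hclose s hs
    have h5 := Complex.norm_log_one_add_half_le_self h4.le
    simp only [w]
    rw [h3]
    linarith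
  set s0 : ℝ := (1 + s1) / 2 with hs0
  have hs0mem : s0 ∈ Set.Ioo 1 s1 := ⟨by rw [hs0]; linarith, by rw [hs0]; linarith⟩
  have hint : ∀ s, ∃ n : ℤ, V s - V s0 = n * (2 * Real.pi * Complex.I) := by
    intro s
    rw [← Complex.exp_eq_one_iff, Complex.exp_sub, hV, hV, div_self hℓ]
  choose n hn using hint
  let f : ℝ → ℝ := fun s => (V s - V s0).im / (2 * Real.pi)
  have hpi : (2 * Real.pi) ≠ 0 := by positivity
  have hf : ∀ s, f s = n s := by
    intro s
    simp only [f]
    rw [hn s]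
    have : ((n s : ℂ) * (2 * Real.pi * Complex.I)).im = n s * (2 * Real.pi) := by simp
    rw [this]
    field_simp
  have hfc : ContinuousOn f (Set.Ioo 1 s1) :=
    (Complex.continuous_im.comp_continuousOn (hVc.sub continuousOn_const)).div_const _
  have hfs0 : f s0 = 0 := by simp [f]
  have hzero : ∀ s ∈ Set.Ioo 1 s1, n s = 0 := by
    intro s hs
    by_contra hne
    have hsubI : Set.uIcc s0 s ⊆ Set.Ioo 1 s1 := by
      intro x hx
      rw [Set.mem_uIcc] at hx
      rcases hx with hx | hx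
      · exact ⟨lt_of_lt_of_le hs0mem.1 hx.1, lt_of_le_of_lt hx.2 hs.2⟩
      · exact ⟨lt_of_lt_of_le hs.1 hx.1, lt_of_le_of_lt hx.2 hs0mem.2⟩
    have hivt := intermediate_value_uIcc (hfc.mono hsubI)
    rw [hfs0, hf s] at hivt
    rcases lt_or_gt_of_ne hne with hlt | hgt
    · have hle : (n s : ℝ) ≤ -1 := by exact_mod_cast Int.le_sub_one_of_lt hlt
      have hmem : (-(1 / 2) : ℝ) ∈ Set.uIcc 0 (n s : ℝ) := by
        rw [Set.mem_uIcc]; right; constructor <;> linarith
      obtain ⟨x, -, hx⟩ := hivt hmem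
      rw [hf x] at hx
      have h6 : (2 * n x : ℤ) = -1 := by
        have : (2 * (n x : ℝ)) = -1 := by rw [hx]; ring
        exact_mod_cast this
      omega
    · have hle : (1 : ℝ) ≤ n s := by exact_mod_cast hgt
      have hmem : ((1 / 2) : ℝ) ∈ Set.uIcc 0 (n s : ℝ) := by
        rw [Set.mem_uIcc]; left; constructor <;> linarith
      obtain ⟨x, -, hx⟩ := hivt hmem
      rw [hf x] at hx
      have h6 : (2 * n x : ℤ) = 1 := by
        have : (2 * (n x : ℝ)) = 1 := by rw [hx]; ring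
        exact_mod_cast this
      omega
  have hnear : ∀ s ∈ Set.Ioo 1 s1, ‖U s‖ ≤ ‖V s0‖ + 1 := by
    intro s hs
    have h3 : U s = V s0 + w s := by
      have h4 := hn s
      rw [hzero s hs, Int.cast_zero, zero_mul, sub_eq_zero] at h4
      rw [← h4]
      simp only [V]
      ring
    rw [h3]
    exact (norm_add_le _ _).trans (add_le_add le_rfl (hw s hs))
  have hcomp : IsCompact (Set.Icc s1 2) := isCompact_Icc
  obtain ⟨C, hC⟩ := hcomp.exists_bound_of_continuousOn
    (hU.mono (fun s hs => lt_of_lt_of_le hs11 hs.1))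
  refine ⟨max C (‖V s0‖ + 1), fun s hs hs2 => ?_⟩
  by_cases hlt : s < s1
  · exact (hnear s ⟨hs, hlt⟩).trans (le_max_right _ _)
  · exact (hC s ⟨not_lt.1 hlt, hs2⟩).trans (le_max_left _ _)

variable {K : Type*} [Field K] [NumberField K] {m : ℕ}

theorem dichotomy (hm0 : m ≠ 0) (hm : Good K m) (χ : DirichletCharacter ℂ m) (hχ : χ (-1) = 1)
    {δ C : ℝ} (hδ : 0 < δ)
    (hup : ∀ s : ℝ, 1 < s → s ≤ 2 → (SS K χ s).re ≤ (1 - δ) * Real.log (1 / (s - 1)) + C) :
    (∃ C₁ : ℝ, ∀ s : ℝ, 1 < s → s ≤ 2 → (SS K χ s).re ≤ C₁) ∧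
    ∀ C₂ : ℝ, (∀ s : ℝ, 1 < s → s ≤ 2 → -C₂ ≤ (SS K χ s).re) →
      ∃ C₃ : ℝ, ∀ s : ℝ, 1 < s → s ≤ 2 → ‖SS K χ s‖ ≤ C₃ := by
  obtain ⟨κ, ℓ, hlim⟩ := exists_limit_L (K := K) hm0 χ hχ
  obtain ⟨r, hr0, hr⟩ := tendsto_ZZ K
  have hre : ∀ s : ℝ, 1 < s → (UU K χ s).re ≤ (SS K χ s).re + bigLog K ∧
      (SS K χ s).re - bigLog K ≤ (UU K χ s).re := by
    intro s hs
    have h1 := norm_UU_sub_SS hm χ hs
    have h2 := (Complex.abs_re_le_norm (UU K χ s - SS K χ s)).trans h1
    rw [Complex.sub_re, abs_le] at h2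
    constructor <;> linarith [h2.1, h2.2]
  have hκ : κ = 0 := by
    by_contra hne
    have h1 : Tendsto (fun s : ℝ => (((s - 1 : ℝ)) : ℂ) * LL K χ s) (𝓝[>] 1) (𝓝 (κ * r)) := by
      have h2 : Tendsto (fun s : ℝ => ((s - 1 : ℝ) : ℂ)) (𝓝[>] 1) (𝓝 0) := by
        have h3 : Tendsto (fun s : ℝ => ((s - 1 : ℝ) : ℂ)) (𝓝 1) (𝓝 (((1 - 1 : ℝ)) : ℂ)) :=
          (Complex.continuous_ofReal.comp (continuous_id.sub continuous_const)).tendsto 1
        rw [sub_self, Complex.ofReal_zero] at h3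
        exact h3.mono_left nhdsWithin_le_nhds
      have h3 := (h2.mul hlim).add
        (((Complex.continuous_ofReal.tendsto _).comp hr).const_mul κ)
      rw [zero_mul, zero_add] at h3
      refine h3.congr fun s => ?_
      simp only [Function.comp_apply]
      push_cast
      ring
    have h4 := h1.norm
    have h5 : Tendsto (fun s : ℝ => Real.exp (δ * Real.log (s - 1) + (C + bigLog K))) (𝓝[>] 1)
        (𝓝 0) := by
      apply Real.tendsto_exp_atBot.comp
      apply tendsto_atBot_add_const_right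
      apply Tendsto.const_mul_atBot hδ
      apply Real.tendsto_log_nhdsGT_zero.comp
      have h6 : Tendsto (fun s : ℝ => s - 1) (𝓝[>] 1) (𝓝 0) := by
        have h3 : Tendsto (fun s : ℝ => s - 1) (𝓝 1) (𝓝 (1 - 1)) :=
          (continuous_id.sub continuous_const).tendsto 1
        rw [sub_self] at h3
        exact h3.mono_left nhdsWithin_le_nhds
      rw [tendsto_nhdsWithin_iff]
      refine ⟨h6, ?_⟩
      filter_upwards [self_mem_nhdsWithin] with s hs
      have hs' : (1 : ℝ) < s := hs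
      exact sub_pos.2 hs'
    have h7 : Tendsto (fun s : ℝ => ‖(((s - 1 : ℝ)) : ℂ) * LL K χ s‖) (𝓝[>] 1) (𝓝 0) := by
      refine squeeze_zero' (Eventually.of_forall fun _ => norm_nonneg _) ?_ h5
      filter_upwards [Ioc_mem] with s hs
      have hs1 : 0 < s - 1 := by linarith [hs.1]
      rw [norm_mul, Complex.norm_real, Real.norm_of_nonneg hs1.le, ← exp_UU hm χ hs.1,
        Complex.norm_exp]
      have h8 := (hre s hs.1).1
      have h9 := hup s hs.1 hs.2
      have h10 : s - 1 = Real.exp (Real.log (s - 1)) := (Real.exp_log hs1).symm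
      calc (s - 1) * Real.exp (UU K χ s).re
          = Real.exp (Real.log (s - 1) + (UU K χ s).re) := by rw [Real.exp_add, ← h10]
        _ ≤ Real.exp (δ * Real.log (s - 1) + (C + bigLog K)) := by
            apply Real.exp_le_exp.2
            rw [one_div, Real.log_inv] at h9
            linarith
    have h8 := tendsto_nhds_unique h4 h7
    have h9 : κ * (r : ℂ) = 0 := norm_eq_zero.1 h8
    rcases mul_eq_zero.1 h9 with h10 | h10
    · exact hne h10
    · exact hr0.ne' (by exact_mod_cast h10)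
  rw [hκ] at hlim
  have hL : Tendsto (fun s => Complex.exp (UU K χ s)) (𝓝[>] 1) (𝓝 ℓ) := by
    refine hlim.congr' ?_
    filter_upwards [self_mem_nhdsWithin] with s hs
    rw [exp_UU hm χ hs, zero_mul, sub_zero]
  have hUc := continuousOn_UU hm χ
  constructor
  · have h1 : ∀ᶠ s in 𝓝[>] (1 : ℝ), ‖Complex.exp (UU K χ s)‖ < ‖ℓ‖ + 1 :=
      hL.norm.eventually (gt_mem_nhds (by linarith))
    rw [eventually_nhdsWithin_iff, Metric.eventually_nhds_iff] at h1
    obtain ⟨ε, hε, h1⟩ := h1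
    set s1 : ℝ := 1 + min ε 1 with hs1
    have hmin : 0 < min ε 1 := lt_min hε one_pos
    have hs11 : 1 < s1 := by rw [hs1]; linarith
    obtain ⟨B, hB⟩ := (isCompact_Icc (a := s1) (b := 2)).exists_bound_of_continuousOn
      (hUc.mono (fun s hs => lt_of_lt_of_le hs11 hs.1))
    refine ⟨max B (Real.log (‖ℓ‖ + 1)) + bigLog K, fun s hs hs2 => ?_⟩
    have h2 := (hre s hs).2
    have h3 : (UU K χ s).re ≤ max B (Real.log (‖ℓ‖ + 1)) := by
      by_cases hlt : s < s1
      · refine le_trans ?_ (le_max_right _ _)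
        have h4 := @h1 s (by
          rw [Real.dist_eq, abs_of_pos (by linarith)]
          rw [hs1] at hlt
          linarith [min_le_left ε 1]) hs
        rw [Complex.norm_exp] at h4
        have h5 : 0 < ‖ℓ‖ + 1 := by positivity
        exact (Real.le_log_iff_exp_le h5).2 h4.le
      · refine le_trans ?_ (le_max_left _ _)
        exact (le_abs_self _).trans
          ((Complex.abs_re_le_norm _).trans (hB s ⟨not_lt.1 hlt, hs2⟩))
    linarith
  · intro C₂ hC₂
    have hℓ : ℓ ≠ 0 := by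
      intro h0
      have h1 : Real.exp (-C₂ - bigLog K) ≤ ‖ℓ‖ := by
        refine ge_of_tendsto hL.norm ?_
        filter_upwards [Ioc_mem] with s hs
        rw [Complex.norm_exp]
        apply Real.exp_le_exp.2
        linarith [(hre s hs.1).2, hC₂ s hs.1 hs.2]
      rw [h0, norm_zero] at h1
      exact absurd h1 (not_le.2 (Real.exp_pos _))
    obtain ⟨B, hB⟩ := exists_bound_of_exp_tendsto hUc hℓ hL
    refine ⟨B + bigLog K, fun s hs hs2 => ?_⟩
    have h1 := norm_UU_sub_SS hm χ hs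
    have h2 : SS K χ s = UU K χ s - (UU K χ s - SS K χ s) := by ring
    rw [h2]
    exact (norm_sub_le _ _).trans (add_le_add (hB s hs hs2) h1)

end

end Fermat.Agent.Cheb
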