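import Mathlib

/-!
Orthogonality of characters of finite abelian groups; bounded functions near `s = 1`;
prime sums.
-/

set_option autoImplicit false

open Filter Topology

namespace Fermat.Agent.Cheb

noncomputable section

section Dual

variable {A : Type*} [CommGroup A] [Finite A]

instance instFintypeChar : Fintype (A →* ℂˣ) := Fintype.ofFinite _

theorem norm_char_eq_one (ψ : A →* ℂˣ) (a : A) : ‖(ψ a : ℂ)‖ = 1 := by
  have h1 : a ^ Nat.card A = 1 := pow_card_eq_one'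
  have h2 : (ψ a : ℂ) ^ Nat.card A = 1 := by
    rw [← Units.val_pow_eq_pow_val, ← map_pow, h1, map_one, Units.val_one]
  exact Complex.norm_eq_one_of_pow_eq_one h2 Nat.card_pos.ne'

theorem sum_char (a : A) [Decidable (a = 1)] :
    ∑ ψ : A →* ℂˣ, (ψ a : ℂ) = if a = 1 then (Nat.card A : ℂ) else 0 := by
  split_ifs with h
  · subst h
    simp only [map_one, Units.val_one, Finset.sum_const, Finset.card_univ, nsmul_eq_mul, mul_one]
    rw [← Nat.card_eq_fintype_card, CommGroup.card_monoidHom_of_hasEnoughRootsOfUnity]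
  · obtain ⟨χ, hχ⟩ := CommGroup.exists_apply_ne_one_of_hasEnoughRootsOfUnity A ℂ h
    have hχ' : (χ a : ℂ) ≠ 1 := fun h0 => hχ (Units.ext h0)
    refine eq_zero_of_mul_eq_self_left hχ' ?_
    rw [Finset.mul_sum]
    refine Fintype.sum_bijective (fun ψ => χ * ψ) (Group.mulLeft_bijective χ) _ _ fun ψ => ?_
    rw [MonoidHom.mul_apply, Units.val_mul]

theorem card_trivial (τ : A) :
    Nat.card {ψ : A →* ℂˣ // ψ τ = 1} * orderOf τ = Nat.card A := by
  classical
  haveI : Fintype (Subgroup.zpowers τ) := Fintype.ofFinite _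
  have h1 : ∑ b : Subgroup.zpowers τ, ∑ ψ : A →* ℂˣ, (ψ (b : A) : ℂ) = Nat.card A := by
    simp_rw [sum_char]
    rw [Finset.sum_eq_single (1 : Subgroup.zpowers τ)]
    · simp
    · intro b _ hb
      rw [if_neg]
      intro h0
      exact hb (Subtype.ext h0)
    · intro h; exact absurd (Finset.mem_univ _) h
  rw [Finset.sum_comm] at h1
  have h2 : ∀ ψ : A →* ℂˣ, ∑ b : Subgroup.zpowers τ, (ψ (b : A) : ℂ) =
      if ψ τ = 1 then (orderOf τ : ℂ) else 0 := by
    intro ψ
    split_ifs with h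
    · have h3 : ∀ b : Subgroup.zpowers τ, (ψ (b : A) : ℂ) = 1 := by
        rintro ⟨b, hb⟩
        obtain ⟨k, rfl⟩ := Subgroup.mem_zpowers_iff.1 hb
        simp [h]
      simp_rw [h3]
      rw [Finset.sum_const, Finset.card_univ, nsmul_eq_mul, mul_one, ← Nat.card_eq_fintype_card,
        Nat.card_zpowers]
    · have hψ : (ψ τ : ℂ) ≠ 1 := fun h0 => h (Units.ext h0)
      refine eq_zero_of_mul_eq_self_left hψ ?_
      rw [Finset.mul_sum]
      refine Fintype.sum_bijective (fun b => (⟨τ, Subgroup.mem_zpowers τ⟩ : Subgroup.zpowers τ) * b)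
        (Group.mulLeft_bijective _) _ _ fun b => ?_
      rw [Subgroup.coe_mul, map_mul, Units.val_mul]
  simp_rw [h2] at h1
  rw [← Finset.sum_filter, Finset.sum_const, nsmul_eq_mul] at h1
  have h4 : (Finset.univ.filter fun ψ : A →* ℂˣ => ψ τ = 1).card =
      Nat.card {ψ : A →* ℂˣ // ψ τ = 1} := by
    rw [Nat.card_eq_fintype_card, Fintype.card_subtype]
  rw [h4] at h1
  exact_mod_cast h1

end Dual

section Bd

/-- Boundedness on `(1, 2]`. -/
def Bd (f : ℝ → ℂ) : Prop := ∃ C : ℝ, ∀ s : ℝ, 1 < s → s ≤ 2 → ‖f s‖ ≤ C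

theorem Bd.add {f g : ℝ → ℂ} (hf : Bd f) (hg : Bd g) : Bd (fun s => f s + g s) := by
  obtain ⟨C, hC⟩ := hf
  obtain ⟨D, hD⟩ := hg
  exact ⟨C + D, fun s h1 h2 => (norm_add_le _ _).trans (add_le_add (hC s h1 h2) (hD s h1 h2))⟩

theorem Bd.const_mul {f : ℝ → ℂ} (c : ℂ) (hf : Bd f) : Bd (fun s => c * f s) := by
  obtain ⟨C, hC⟩ := hf
  refine ⟨‖c‖ * C, fun s h1 h2 => ?_⟩
  rw [norm_mul]
  exact mul_le_mul_of_nonneg_left (hC s h1 h2) (norm_nonneg _)

theorem Bd.sub {f g : ℝ → ℂ} (hf : Bd f) (hg : Bd g) : Bd (fun s => f s - g s) := by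
  have := hf.add (hg.const_mul (-1))
  simpa [sub_eq_add_neg] using this

theorem Bd.sum {ι : Type*} (S : Finset ι) {f : ι → ℝ → ℂ} (hf : ∀ i ∈ S, Bd (f i)) :
    Bd (fun s => ∑ i ∈ S, f i s) := by
  classical
  induction S using Finset.induction_on with
  | empty => exact ⟨0, fun s _ _ => by simp⟩
  | insert i S hi ih =>
    simp_rw [Finset.sum_insert hi]
    exact (hf i (Finset.mem_insert_self i S)).add
      (ih fun j hj => hf j (Finset.mem_insert_of_mem hj))

theorem Bd.congr {f g : ℝ → ℂ} (hf : Bd f) (h : ∀ s : ℝ, 1 < s → s ≤ 2 → f s = g s) : Bd g := by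
  obtain ⟨C, hC⟩ := hf
  exact ⟨C, fun s h1 h2 => by rw [← h s h1 h2]; exact hC s h1 h2⟩

/-- `log (1 / (s - 1))`. -/
def lg (s : ℝ) : ℂ := (Real.log (1 / (s - 1)) : ℝ)

/-- Sums over primes. -/
def psum (c : Nat.Primes → ℂ) (s : ℝ) : ℂ := ∑' p : Nat.Primes, c p * (((p : ℕ) : ℝ) ^ (-s) : ℝ)

theorem summable_primes_rpow {s : ℝ} (hs : 1 < s) :
    Summable (fun p : Nat.Primes => ((p : ℕ) : ℝ) ^ (-s)) := by
  have h : Summable (fun n : ℕ => (n : ℝ) ^ (-s)) := Real.summable_nat_rpow.2 (by linarith)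
  exact h.comp_injective Subtype.val_injective

theorem summable_psum {c : Nat.Primes → ℂ} {B : ℝ} (hB : ∀ p, ‖c p‖ ≤ B) {s : ℝ} (hs : 1 < s) :
    Summable (fun p : Nat.Primes => c p * (((p : ℕ) : ℝ) ^ (-s) : ℝ)) := by
  refine Summable.of_norm_bounded ((summable_primes_rpow hs).mul_left B) fun p => ?_
  rw [norm_mul, Complex.norm_real, Real.norm_of_nonneg (by positivity)]
  exact mul_le_mul_of_nonneg_right (hB p) (by positivity)

theorem psum_add {c d : Nat.Primes → ℂ} {B D : ℝ} (hB : ∀ p, ‖c p‖ ≤ B) (hD : ∀ p, ‖d p‖ ≤ D)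
    {s : ℝ} (hs : 1 < s) : psum (fun p => c p + d p) s = psum c s + psum d s := by
  unfold psum
  rw [← (summable_psum hB hs).tsum_add (summable_psum hD hs)]
  exact tsum_congr fun p => by ring

theorem psum_const_mul (c : Nat.Primes → ℂ) (a : ℂ) (s : ℝ) :
    psum (fun p => a * c p) s = a * psum c s := by
  unfold psum
  rw [← tsum_mul_left]
  exact tsum_congr fun p => by ring

theorem psum_sum {ι : Type*} (S : Finset ι) {c : ι → Nat.Primes → ℂ} {B : ι → ℝ}
    (hB : ∀ i ∈ S, ∀ p, ‖c i p‖ ≤ B i) {s : ℝ} (hs : 1 < s) :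
    psum (fun p => ∑ i ∈ S, c i p) s = ∑ i ∈ S, psum (c i) s := by
  unfold psum
  rw [← Summable.tsum_finsetSum fun i hi => summable_psum (hB i hi) hs]
  exact tsum_congr fun p => by rw [Finset.sum_mul]

theorem psum_re_le {c d : Nat.Primes → ℂ} {B D : ℝ} (hB : ∀ p, ‖c p‖ ≤ B) (hD : ∀ p, ‖d p‖ ≤ D)
    {s : ℝ} (hs : 1 < s) (h : ∀ p, (c p).re ≤ (d p).re) : (psum c s).re ≤ (psum d s).re := by
  unfold psum
  rw [Complex.re_tsum (summable_psum hB hs), Complex.re_tsum (summable_psum hD hs)]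
  refine Summable.tsum_le_tsum (fun p => ?_) ?_ ?_
  · rw [Complex.re_mul_ofReal, Complex.re_mul_ofReal]
    exact mul_le_mul_of_nonneg_right (h p) (by positivity)
  · exact (Complex.hasSum_re (summable_psum hB hs).hasSum).summable
  · exact (Complex.hasSum_re (summable_psum hD hs).hasSum).summable

/-- Changing finitely many coefficients. -/
theorem Bd_psum_of_finite {c : Nat.Primes → ℂ} (S : Finset Nat.Primes) (hc : ∀ p ∉ S, c p = 0) :
    Bd (psum c) := by
  refine ⟨∑ p ∈ S, ‖c p‖, fun s hs _ => ?_⟩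
  unfold psum
  rw [tsum_eq_sum (s := S) fun p hp => by rw [hc p hp, zero_mul]]
  refine (norm_sum_le _ _).trans (Finset.sum_le_sum fun p _ => ?_)
  rw [norm_mul, Complex.norm_real, Real.norm_of_nonneg (by positivity)]
  refine mul_le_of_le_one_right (norm_nonneg _) ?_
  apply Real.rpow_le_one_of_one_le_of_nonpos
  · exact_mod_cast p.2.one_le
  · linarith

end Bd

end

end Fermat.Agent.Cheb
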