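import Fermat.Agent.Cheb.LFun

/-!
Euler product of `L(s, χ ∘ N)` and comparison with the sum over rational primes.
-/

set_option autoImplicit false

open NumberField Filter Topology nonZeroDivisors

namespace Fermat.Agent.Cheb

open Fermat.Agent.ExtVanD Fermat.Agent.FrobDensity

noncomputable section

variable (K : Type*) [Field K] [NumberField K] {m : ℕ}

/-- General term. -/
def cterm (χ : DirichletCharacter ℂ m) (s : ℝ) (n : ℕ) : ℂ := χ (n : ZMod m) * (dterm K s n : ℂ)

lemma norm_cterm_le (χ : DirichletCharacter ℂ m) (s : ℝ) (n : ℕ) :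
    ‖cterm K χ s n‖ ≤ dterm K s n := by
  unfold cterm
  rw [norm_mul, Complex.norm_real, Real.norm_of_nonneg (dterm_nonneg K s n)]
  exact mul_le_of_le_one_left (dterm_nonneg K s n) (χ.norm_le_one _)

lemma summable_norm_cterm (χ : DirichletCharacter ℂ m) {s : ℝ} (hs : 1 < s) :
    Summable (fun n => ‖cterm K χ s n‖) :=
  Summable.of_nonneg_of_le (fun _ => norm_nonneg _) (norm_cterm_le K χ s) (summable_dterm K hs)

lemma LL_eq (χ : DirichletCharacter ℂ m) {s : ℝ} (hs : 1 < s) :
    LL K χ s = ∑' n : ℕ, cterm K χ s n := by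
  classical
  set F : ℕ → ℂ := fun n => χ (n : ZMod m) * (((n : ℝ) ^ (-s) : ℝ) : ℂ) with hF
  have hF0 : F 0 = 0 := by
    simp only [hF, Nat.cast_zero]
    rw [Real.zero_rpow (by linarith)]
    simp
  have hnorm : ∀ n, ‖F n‖ ≤ (n : ℝ) ^ (-s) := by
    intro n
    simp only [hF]
    rw [norm_mul, Complex.norm_real, Real.norm_of_nonneg (by positivity)]
    exact mul_le_of_le_one_left (by positivity) (χ.norm_le_one _)
  have hsI : Summable (fun I : Ideal (𝓞 K) => F (Ideal.absNorm I)) :=
    Summable.of_norm_bounded (all_ideals hs).1 fun I => hnorm _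
  have h1 : LL K χ s = ∑' I : Ideal (𝓞 K), F (Ideal.absNorm I) := by
    unfold LL
    have h2 := tsum_subtype ((Ideal (𝓞 K))⁰ : Set (Ideal (𝓞 K)))
      (fun I : Ideal (𝓞 K) => F (Ideal.absNorm I))
    refine Eq.trans ?_ (h2.trans ?_)
    · rfl
    · refine tsum_congr fun I => ?_
      by_cases hI : I ∈ (((Ideal (𝓞 K))⁰ : Submonoid (Ideal (𝓞 K))) : Set (Ideal (𝓞 K)))
      · rw [Set.indicator_of_mem hI]
      · rw [Set.indicator_of_notMem hI]
        have hI0 : I = 0 := by
          by_contra hne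
          exact hI (mem_nonZeroDivisors_of_ne_zero hne)
        rw [hI0]
        simp only [Submodule.zero_eq_bot, Ideal.absNorm_bot]
        exact hF0.symm
  rw [h1, ← (Equiv.sigmaFiberEquiv (fun I : Ideal (𝓞 K) => Ideal.absNorm I)).tsum_eq]
  have hs2 : Summable fun y : Σ n : ℕ, {I : Ideal (𝓞 K) // Ideal.absNorm I = n} =>
      F (Ideal.absNorm y.2.1) := by
    have := (Equiv.sigmaFiberEquiv (fun I : Ideal (𝓞 K) => Ideal.absNorm I)).summable_iff.mpr hsI
    exact this
  have h3 : ∑' y : Σ n : ℕ, {I : Ideal (𝓞 K) // Ideal.absNorm I = n},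
      F (Ideal.absNorm (Equiv.sigmaFiberEquiv (fun I : Ideal (𝓞 K) => Ideal.absNorm I) y)) =
      ∑' n : ℕ, ∑' I : {I : Ideal (𝓞 K) // Ideal.absNorm I = n}, F (Ideal.absNorm I.1) :=
    hs2.tsum_sigma
  rw [h3]
  refine tsum_congr fun n => ?_
  haveI : Finite {I : Ideal (𝓞 K) // Ideal.absNorm I = n} :=
    (Ideal.finite_setOfPred_absNorm_eq n).to_subtype
  haveI := Fintype.ofFinite {I : Ideal (𝓞 K) // Ideal.absNorm I = n}
  rw [tsum_fintype]
  have h4 : ∀ I : {I : Ideal (𝓞 K) // Ideal.absNorm I = n}, F (Ideal.absNorm I.1) = F n :=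
    fun I => by rw [I.2]
  simp_rw [h4]
  rw [Finset.sum_const, nsmul_eq_mul]
  unfold cterm dterm idealCount
  rw [Nat.card_eq_fintype_card, Finset.card_univ]
  simp only [hF]
  push_cast
  ring

/-- The bound for small primes. -/
def smallBound : ℝ := 2 * (2 ^ Module.finrank ℚ K + tailConst K)

/-- All small primes divide the modulus. -/
def Good (m : ℕ) : Prop := ∀ p : ℕ, p.Prime → (p : ℝ) < smallBound K → p ∣ m

/-- local factor -/
def cfac (χ : DirichletCharacter ℂ m) (s : ℝ) (p : ℕ) : ℂ := ∑' e : ℕ, cterm K χ s (p ^ e)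

variable {K}

lemma hasProd_cfac (χ : DirichletCharacter ℂ m) {s : ℝ} (hs : 1 < s) :
    HasProd (fun p : Nat.Primes => cfac K χ s p) (LL K χ s) := by
  rw [LL_eq K χ hs]
  refine EulerProduct.eulerProduct_hasProd (f := cterm K χ s) ?_ ?_
    (summable_norm_cterm K χ hs) ?_
  · unfold cterm
    rw [dterm_one]
    simp
  · intro a b hab
    unfold cterm
    rw [dterm_mul K (by linarith) hab, Nat.cast_mul, map_mul]
    push_cast
    ring
  · unfold cterm
    rw [dterm_zero K (by linarith)]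
    simp

lemma cfac_bound (hm : Good K m) (χ : DirichletCharacter ℂ m) {s : ℝ} (hs : 1 < s) {p : ℕ}
    (hp : p.Prime) :
    ‖cfac K χ s p - 1‖ ≤ 1 / 2 ∧
    ‖cfac K χ s p - 1 - cterm K χ s p‖ ≤ tailConst K * ((p : ℝ)⁻¹) ^ 2 ∧
    ‖cfac K χ s p - 1‖ ≤ (2 ^ Module.finrank ℚ K + tailConst K) * (p : ℝ)⁻¹ := by
  have hT := tailConst_nonneg K
  have hp0 : (0 : ℝ) < p := by exact_mod_cast hp.pos
  have hp1 : (1 : ℝ) ≤ p := by exact_mod_cast hp.one_le
  have hpinv : (p : ℝ)⁻¹ ≤ 1 := inv_le_one_of_one_le₀ hp1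
  have hpinv0 : 0 ≤ (p : ℝ)⁻¹ := by positivity
  have hsl : Summable (fun e : ℕ => cterm K χ s (p ^ e)) :=
    Summable.of_norm_bounded (summable_local K hs hp) fun e => norm_cterm_le K χ s _
  have heq : cfac K χ s p = 1 + cterm K χ s p + ∑' e : ℕ, cterm K χ s (p ^ (e + 2)) := by
    unfold cfac
    rw [← hsl.sum_add_tsum_nat_add 2]
    simp only [Finset.sum_range_succ, Finset.range_zero, Finset.sum_empty, zero_add, pow_zero,
      pow_one]
    congr 2
    unfold cterm
    rw [dterm_one]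
    simp
  by_cases hpm : p ∣ m
  · have hchi : ∀ e : ℕ, e ≠ 0 → cterm K χ s (p ^ e) = 0 := by
      intro e he
      unfold cterm
      have : χ ((p ^ e : ℕ) : ZMod m) = 0 := by
        apply MulChar.map_nonunit
        rw [ZMod.isUnit_iff_coprime]
        intro hcop
        have h1 : p ∣ Nat.gcd (p ^ e) m := Nat.dvd_gcd (dvd_pow_self p he) hpm
        rw [Nat.Coprime] at hcop
        rw [hcop] at h1
        exact hp.one_lt.ne' (Nat.dvd_one.1 h1)
      rw [this, zero_mul]
    have h1 : cterm K χ s p = 0 := by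
      have := hchi 1 one_ne_zero
      rwa [pow_one] at this
    have h2 : ∑' e : ℕ, cterm K χ s (p ^ (e + 2)) = 0 := by
      rw [tsum_congr fun e => hchi (e + 2) (by omega)]
      exact tsum_zero
    rw [heq, h1, h2]
    simp only [add_zero, sub_self, norm_zero]
    refine ⟨by norm_num, by positivity, by positivity⟩
  · have htail : ‖∑' e : ℕ, cterm K χ s (p ^ (e + 2))‖ ≤ tailConst K * ((p : ℝ)⁻¹) ^ 2 := by
      refine le_trans ?_ (tail_le K hs hp)
      have hsum : Summable fun e : ℕ => dterm K s (p ^ (e + 2)) :=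
        (summable_nat_add_iff 2).mpr (summable_local K hs hp)
      exact tsum_of_norm_bounded hsum.hasSum fun e => norm_cterm_le K χ s _
    have hlin : ‖cterm K χ s p‖ ≤ 2 ^ Module.finrank ℚ K * (p : ℝ)⁻¹ :=
      (norm_cterm_le K χ s p).trans (dterm_prime_le K hs hp)
    have htail' : tailConst K * ((p : ℝ)⁻¹) ^ 2 ≤ tailConst K * (p : ℝ)⁻¹ := by
      refine mul_le_mul_of_nonneg_left ?_ hT
      rw [sq]
      exact mul_le_of_le_one_left hpinv0 hpinv
    have hall : ‖cfac K χ s p - 1‖ ≤ (2 ^ Module.finrank ℚ K + tailConst K) * (p : ℝ)⁻¹ := by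
      rw [heq]
      have : (1 : ℂ) + cterm K χ s p + ∑' e : ℕ, cterm K χ s (p ^ (e + 2)) - 1 =
          cterm K χ s p + ∑' e : ℕ, cterm K χ s (p ^ (e + 2)) := by ring
      rw [this, add_mul]
      exact (norm_add_le _ _).trans (add_le_add hlin (htail.trans htail'))
    refine ⟨?_, ?_, hall⟩
    · refine hall.trans ?_
      have hpb : smallBound K ≤ p := by
        by_contra hlt
        exact hpm (hm p hp (not_le.1 hlt))
      unfold smallBound at hpb
      rw [mul_inv_le_iff₀ hp0]
      linarith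
    · rw [heq]
      have : (1 : ℂ) + cterm K χ s p + ∑' e : ℕ, cterm K χ s (p ^ (e + 2)) - 1 -
          cterm K χ s p = ∑' e : ℕ, cterm K χ s (p ^ (e + 2)) := by ring
      rw [this]
      exact htail

lemma norm_log_cfac_sub (hm : Good K m) (χ : DirichletCharacter ℂ m) {s : ℝ} (hs : 1 < s)
    {p : ℕ} (hp : p.Prime) :
    ‖Complex.log (cfac K χ s p) - cterm K χ s p‖ ≤ logConst K * ((p : ℝ) ^ 2)⁻¹ := by
  obtain ⟨h1, h2, h3⟩ := cfac_bound hm χ hs hp
  set z := cfac K χ s p - 1 with hz
  have hcf : cfac K χ s p = 1 + z := by rw [hz]; ring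
  have hlt : ‖z‖ < 1 := lt_of_le_of_lt h1 (by norm_num)
  have h4 := Complex.norm_log_one_add_sub_self_le hlt
  have h5 : ‖Complex.log (1 + z) - z‖ ≤ ‖z‖ ^ 2 := by
    refine h4.trans ?_
    have h6 : (1 - ‖z‖)⁻¹ ≤ 2 := by
      rw [inv_le_comm₀ (by linarith) (by norm_num)]
      linarith
    have h7 : 0 ≤ ‖z‖ ^ 2 := by positivity
    nlinarith
  have hp0 : (0 : ℝ) < p := by exact_mod_cast hp.pos
  have h8 : ‖z‖ ^ 2 ≤ (2 ^ Module.finrank ℚ K + tailConst K) ^ 2 * ((p : ℝ) ^ 2)⁻¹ := by
    have := pow_le_pow_left₀ (norm_nonneg z) h3 2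
    rwa [mul_pow, inv_pow] at this
  rw [hcf]
  have h9 : Complex.log (1 + z) - cterm K χ s p =
      (Complex.log (1 + z) - z) + (z - cterm K χ s p) := by ring
  rw [h9, logConst, add_mul]
  rw [inv_pow] at h2
  refine (norm_add_le _ _).trans ?_
  linarith

lemma summable_cterm_primes (χ : DirichletCharacter ℂ m) {s : ℝ} (hs : 1 < s) :
    Summable (fun p : Nat.Primes => cterm K χ s p) :=
  Summable.of_norm_bounded (summable_primes_dterm K hs) fun p => norm_cterm_le K χ s p

lemma cfac_ne_zero (hm : Good K m) (χ : DirichletCharacter ℂ m) {s : ℝ} (hs : 1 < s)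
    {p : ℕ} (hp : p.Prime) : cfac K χ s p ≠ 0 := by
  intro h
  have h1 := (cfac_bound hm χ hs hp).1
  rw [h, zero_sub, norm_neg, norm_one] at h1
  norm_num at h1

/-- the logarithm of the `L`-function -/
def UU (K : Type*) [Field K] [NumberField K] {m : ℕ} (χ : DirichletCharacter ℂ m) (s : ℝ) : ℂ :=
  ∑' p : Nat.Primes, Complex.log (cfac K χ s p)

/-- the sum over rational primes -/
def SS (K : Type*) [Field K] [NumberField K] {m : ℕ} (χ : DirichletCharacter ℂ m) (s : ℝ) : ℂ :=
  ∑' p : Nat.Primes, cterm K χ s p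

lemma summable_log_cfac (hm : Good K m) (χ : DirichletCharacter ℂ m) {s : ℝ} (hs : 1 < s) :
    Summable (fun p : Nat.Primes => Complex.log (cfac K χ s p)) := by
  have h1 : Summable (fun p : Nat.Primes => Complex.log (cfac K χ s p) - cterm K χ s p) :=
    Summable.of_norm_bounded (summable_primes_inv_sq.mul_left (logConst K)) fun p =>
      norm_log_cfac_sub hm χ hs p.2
  refine (h1.add (summable_cterm_primes (K := K) χ hs)).congr fun p => ?_
  ring

lemma exp_UU (hm : Good K m) (χ : DirichletCharacter ℂ m) {s : ℝ} (hs : 1 < s) :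
    Complex.exp (UU K χ s) = LL K χ s := by
  have h := Complex.hasProd_of_hasSum_log (fun p : Nat.Primes => cfac_ne_zero hm χ hs p.2)
    (summable_log_cfac hm χ hs).hasSum
  exact h.unique (hasProd_cfac χ hs)

/-- The constant. -/
def bigLog (K : Type*) [Field K] [NumberField K] : ℝ :=
  logConst K * ∑' p : Nat.Primes, (((p : ℕ) : ℝ) ^ 2)⁻¹

lemma norm_UU_sub_SS (hm : Good K m) (χ : DirichletCharacter ℂ m) {s : ℝ} (hs : 1 < s) :
    ‖UU K χ s - SS K χ s‖ ≤ bigLog K := by
  unfold UU SS bigLog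
  rw [← (summable_log_cfac hm χ hs).tsum_sub (summable_cterm_primes χ hs)]
  exact tsum_of_norm_bounded (g := fun p : Nat.Primes => logConst K * (((p : ℕ) : ℝ) ^ 2)⁻¹)
    (summable_primes_inv_sq.hasSum.mul_left (logConst K))
    fun p => norm_log_cfac_sub hm χ hs p.2

/-! ### continuity -/

lemma dterm_antitone' (K : Type*) [Field K] [NumberField K] {s t : ℝ} (hs : 1 < s) (hst : s ≤ t) (n : ℕ) : dterm K t n ≤ dterm K s n := by
  rcases eq_or_ne n 0 with rfl | hn
  · rw [dterm_zero K (by linarith), dterm_zero K (by linarith)]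
  unfold dterm
  refine mul_le_mul_of_nonneg_left ?_ (Nat.cast_nonneg _)
  apply Real.rpow_le_rpow_of_exponent_le
  · exact_mod_cast Nat.one_le_iff_ne_zero.mpr hn
  · linarith

lemma continuousOn_cterm (χ : DirichletCharacter ℂ m) (n : ℕ) :
    ContinuousOn (fun s : ℝ => cterm K χ s n) (Set.Ioi 1) := by
  rcases eq_or_ne n 0 with rfl | hn
  · have : Set.EqOn (fun s : ℝ => cterm K χ s 0) (fun _ => 0) (Set.Ioi 1) := by
      intro s hs
      have hs' : (1 : ℝ) < s := hs
      simp only [cterm]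
      rw [dterm_zero K (by linarith)]
      simp
    exact continuousOn_const.congr this
  · have h1 : Continuous (fun s : ℝ => cterm K χ s n) := by
      unfold cterm dterm
      have hn' : ((n : ℝ)) ≠ 0 := by exact_mod_cast hn
      have h2 : Continuous fun s : ℝ => (n : ℝ) ^ (-s) :=
        (Real.continuous_const_rpow hn').comp continuous_neg
      exact continuous_const.mul (Complex.continuous_ofReal.comp (continuous_const.mul h2))
    exact h1.continuousOn

lemma continuousOn_cfac (χ : DirichletCharacter ℂ m) {p : ℕ} (hp : p.Prime) :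
    ContinuousOn (fun s : ℝ => cfac K χ s p) (Set.Ioi 1) := by
  intro s hs
  have hs' : (1 : ℝ) < s := hs
  obtain ⟨a, ha1, has⟩ := exists_between hs'
  have h1 : ContinuousOn (fun s : ℝ => cfac K χ s p) (Set.Ioi a) := by
    unfold cfac
    refine continuousOn_tsum (u := fun e => dterm K a (p ^ e)) (fun e => ?_)
      (summable_local K ha1 hp) ?_
    · exact (continuousOn_cterm χ _).mono (Set.Ioi_subset_Ioi ha1.le)
    · intro e t ht
      exact (norm_cterm_le K χ t _).trans (dterm_antitone' K ha1 (le_of_lt ht) _)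
  exact (h1.continuousAt (Ioi_mem_nhds has)).continuousWithinAt

lemma continuousOn_UU (hm : Good K m) (χ : DirichletCharacter ℂ m) :
    ContinuousOn (UU K χ) (Set.Ioi 1) := by
  intro s hs
  have hs' : (1 : ℝ) < s := hs
  obtain ⟨a, ha1, has⟩ := exists_between hs'
  have h1 : ContinuousOn (UU K χ) (Set.Ioi a) := by
    unfold UU
    refine continuousOn_tsum
      (u := fun p : Nat.Primes => dterm K a p + logConst K * (((p : ℕ) : ℝ) ^ 2)⁻¹) (fun p => ?_)
      ((summable_primes_dterm K ha1).add (summable_primes_inv_sq.mul_left _)) ?_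
    · refine ContinuousOn.clog ((continuousOn_cfac χ p.2).mono (Set.Ioi_subset_Ioi ha1.le)) ?_
      intro t ht
      have ht' : (1 : ℝ) < t := lt_trans ha1 ht
      have h2 := (cfac_bound hm χ ht' p.2).1
      have h3 : cfac K χ t p = 1 + (cfac K χ t p - 1) := by ring
      rw [h3]
      exact Complex.mem_slitPlane_of_norm_lt_one (lt_of_le_of_lt h2 (by norm_num))
    · intro p t ht
      have ht' : (1 : ℝ) < t := lt_trans ha1 ht
      have h2 := norm_log_cfac_sub hm χ ht' p.2
      have h3 := (norm_cterm_le K χ t p).trans (dterm_antitone' K ha1 (le_of_lt ht) _)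
      have h4 : Complex.log (cfac K χ t p) =
          cterm K χ t p + (Complex.log (cfac K χ t p) - cterm K χ t p) := by ring
      rw [h4]
      exact (norm_add_le _ _).trans (add_le_add h3 h2)
  exact (h1.continuousAt (Ioi_mem_nhds has)).continuousWithinAt

end

end Fermat.Agent.Cheb
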