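import Fermat.Agent.Cheb.Final
import Fermat.Agent.TWP.Val

/-!
**Chebotarev's density theorem**: existence form.
-/

set_option autoImplicit false
set_option linter.style.haveILetI false
set_option linter.unusedSectionVars false

open NumberField Filter Topology MulAction
open scoped Pointwise

namespace Fermat.Agent.Cheb

open Fermat.Agent.FrobDensity Fermat.Agent.Frob

noncomputable section

/-- There are infinitely many primes whose Frobenius elements lie in a given nonempty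
conjugation-stable set. -/
theorem exists_prime_of_surjective {G : Type*} [Group G] [Finite G]
    (ρ : (AlgebraicClosure ℚ ≃ₐ[ℚ] AlgebraicClosure ℚ) →* G) (hρ : Function.Surjective ρ)
    (E : IntermediateField ℚ (AlgebraicClosure ℚ)) (hfin : FiniteDimensional ℚ E)
    (hE : ∀ σ ∈ E.fixingSubgroup, ρ σ = 1) (C : Set G) (hC : ∀ g ∈ C, ∀ y, y * g * y⁻¹ ∈ C)
    (hne : C.Nonempty) (S : Finset ℕ) :
    ∃ p : ℕ, p.Prime ∧ p ∉ S ∧ ∀ A : ValuationSubring (AlgebraicClosure ℚ),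
        A.LiesOverPrime p →
        (∀ σ ∈ A.inertiaSubgroupIn ℚ, ρ σ = 1) ∧ ∀ σ, A.IsFrobeniusAt σ p → ρ σ ∈ C := by
  classical
  by_contra hcon
  push Not at hcon
  haveI : Nonempty C := hne.to_subtype
  have hC0 : (0 : ℝ) < Nat.card C := by exact_mod_cast Nat.card_pos
  have hG0 : (0 : ℝ) < Nat.card G := by exact_mod_cast Nat.card_pos
  set x : ℝ := (Nat.card C : ℝ) / Nat.card G with hx
  have hx0 : 0 < x := by positivity
  obtain ⟨s₀, hs₀, h⟩ := chebotarev_lower' ρ hρ E hfin hE C hC (show 0 < x / 2 by linarith)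
  set B : ℝ := (S.card : ℝ) with hB
  -- choose `s`
  set ε : ℝ := min ((s₀ - 1) / 2) (Real.exp (-((B + 1) * (2 / x)))) with hε
  have hε0 : 0 < ε := lt_min (by linarith) (Real.exp_pos _)
  have hs1 : 1 < 1 + ε := by linarith
  have hs2 : 1 + ε < s₀ := by
    have := min_le_left ((s₀ - 1) / 2) (Real.exp (-((B + 1) * (2 / x))))
    rw [← hε] at this
    linarith
  have h1 := h (1 + ε) hs1 hs2
  have hlog : (B + 1) * (2 / x) ≤ Real.log (1 / (1 + ε - 1)) := by
    rw [add_sub_cancel_left, one_div, Real.log_inv]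
    have h2 : Real.log ε ≤ -((B + 1) * (2 / x)) := by
      rw [Real.log_le_iff_le_exp hε0]
      exact min_le_right _ _
    linarith
  have h3 : B + 1 ≤ (x - x / 2) * Real.log (1 / (1 + ε - 1)) := by
    have h4 := mul_le_mul_of_nonneg_left hlog (show 0 ≤ x - x / 2 by linarith)
    have h5 : (x - x / 2) * ((B + 1) * (2 / x)) = B + 1 := by field_simp; ring
    linarith
  let T : Finset Nat.Primes := S.preimage (fun p : Nat.Primes => (p : ℕ))
    (Subtype.val_injective.injOn)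
  have hT : ∀ p : Nat.Primes, p ∉ T → (p : ℕ) ∉ S := fun p hp h => hp (Finset.mem_preimage.2 h)
  have hTc : (T.card : ℝ) ≤ B := by
    rw [hB]
    have h6 : T.card ≤ S.card := by
      refine Finset.card_le_card_of_injOn (fun p : Nat.Primes => (p : ℕ))
        (fun p hp => Finset.mem_preimage.1 hp) (Subtype.val_injective.injOn)
    exact_mod_cast h6
  have h7 : ∀ p ∉ T, (if (∀ A : ValuationSubring (AlgebraicClosure ℚ),
        A.LiesOverPrime (p : ℕ) →
        (∀ σ ∈ A.inertiaSubgroupIn ℚ, ρ σ = 1) ∧ ∀ σ, A.IsFrobeniusAt σ (p : ℕ) → ρ σ ∈ C) then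
        (((p : ℕ) : ℝ)) ^ (-(1 + ε)) else 0) = 0 := by
    intro p hp
    rw [if_neg]
    intro h8
    obtain ⟨A, hA, h9⟩ := hcon p p.2 (hT p hp)
    obtain ⟨σ, hσ, hσ'⟩ := h9 (h8 A hA).1
    exact hσ' ((h8 A hA).2 σ hσ)
  rw [tsum_eq_sum h7] at h1
  have h8 : ∑ p ∈ T, (if (∀ A : ValuationSubring (AlgebraicClosure ℚ),
        A.LiesOverPrime (p : ℕ) →
        (∀ σ ∈ A.inertiaSubgroupIn ℚ, ρ σ = 1) ∧ ∀ σ, A.IsFrobeniusAt σ (p : ℕ) → ρ σ ∈ C) then
        (((p : ℕ) : ℝ)) ^ (-(1 + ε)) else 0) ≤ ∑ p ∈ T, (1 : ℝ) := by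
    refine Finset.sum_le_sum fun p _ => ?_
    split_ifs
    · apply Real.rpow_le_one_of_one_le_of_nonpos
      · exact_mod_cast p.2.one_le
      · linarith
    · exact zero_le_one
  rw [Finset.sum_const, nsmul_eq_mul, mul_one] at h8
  linarith

theorem liesOver_smul {A : ValuationSubring (AlgebraicClosure ℚ)} {p : ℕ}
    (g : AlgebraicClosure ℚ ≃ₐ[ℚ] AlgebraicClosure ℚ) (hA : A.LiesOverPrime p) :
    (g • A).LiesOverPrime p := by
  have h1 : (p : AlgebraicClosure ℚ) ∈ A.nonunits := hA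
  show (p : AlgebraicClosure ℚ) ∈ (g • A).nonunits
  rw [← TWP.smul_mem_nonunits_iff g, map_natCast] at h1
  exact h1

/-- **Chebotarev**: every element of a finite quotient of the Galois group is the image of a
Frobenius element at infinitely many primes, unramified in the quotient. -/
theorem exists_frobenius_rho {G : Type*} [Group G]
    (ρ : (AlgebraicClosure ℚ ≃ₐ[ℚ] AlgebraicClosure ℚ) →* G) [Finite ρ.range]
    (E : IntermediateField ℚ (AlgebraicClosure ℚ)) (hfin : FiniteDimensional ℚ E)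
    (hE : ∀ σ ∈ E.fixingSubgroup, ρ σ = 1)
    (σ : AlgebraicClosure ℚ ≃ₐ[ℚ] AlgebraicClosure ℚ) (S : Finset ℕ) :
    ∃ p : ℕ, p.Prime ∧ p ∉ S ∧ (∀ A : ValuationSubring (AlgebraicClosure ℚ),
      A.LiesOverPrime p → ∀ i ∈ A.inertiaSubgroupIn ℚ, ρ i = 1) ∧
      ∃ A : ValuationSubring (AlgebraicClosure ℚ), A.LiesOverPrime p ∧
        ∃ τ, A.IsFrobeniusAt τ p ∧ ρ τ = ρ σ := by
  have hconj : ∀ g ∈ {g : ρ.range | IsConj (ρ.rangeRestrict σ) g}, ∀ y,
      y * g * y⁻¹ ∈ {g : ρ.range | IsConj (ρ.rangeRestrict σ) g} := fun g hg y =>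
    IsConj.trans hg (isConj_iff.2 ⟨y, rfl⟩)
  obtain ⟨p, hp, hpS, h⟩ := exists_prime_of_surjective ρ.rangeRestrict
    ρ.rangeRestrict_surjective E hfin (fun τ hτ => Subtype.ext (hE τ hτ))
    {g | IsConj (ρ.rangeRestrict σ) g} hconj ⟨_, IsConj.refl _⟩ S
  refine ⟨p, hp, hpS, fun A hA i hi => congrArg Subtype.val ((h A hA).1 i hi), ?_⟩
  obtain ⟨A, hA⟩ := exists_liesOverPrime (AlgebraicClosure ℚ) hp
  obtain ⟨τ, hτ⟩ := exists_isFrobeniusAt hp hA
  have h1 : IsConj (ρ.rangeRestrict σ) (ρ.rangeRestrict τ) := (h A hA).2 τ hτ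
  obtain ⟨y, hy⟩ := isConj_iff.1 h1
  obtain ⟨g, rfl⟩ := ρ.rangeRestrict_surjective y
  have h2 : ρ g * ρ σ * (ρ g)⁻¹ = ρ τ := congrArg Subtype.val hy
  have h3 : (g⁻¹ • A).IsFrobeniusAt (g⁻¹ * τ * g) p := by
    have h4 : (g • (g⁻¹ • A)).IsFrobeniusAt τ p := by rwa [smul_inv_smul]
    exact TWP.isFrobeniusAt_conj h4
  refine ⟨g⁻¹ • A, ?_, g⁻¹ * τ * g, h3, ?_⟩
  · exact liesOver_smul g⁻¹ hA
  · rw [map_mul, map_mul, map_inv, ← h2]
    group

/-- **Chebotarev**: every automorphism agrees on a given finite extension with a Frobenius element,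
at infinitely many primes unramified in that extension. -/
theorem exists_frobenius_eq (E : IntermediateField ℚ (AlgebraicClosure ℚ))
    (hfin : FiniteDimensional ℚ E)
    (σ : AlgebraicClosure ℚ ≃ₐ[ℚ] AlgebraicClosure ℚ) (S : Finset ℕ) :
    ∃ p : ℕ, p.Prime ∧ p ∉ S ∧ (∀ A : ValuationSubring (AlgebraicClosure ℚ),
      A.LiesOverPrime p → ∀ i ∈ A.inertiaSubgroupIn ℚ, ∀ x ∈ E, i x = x) ∧
      ∃ A : ValuationSubring (AlgebraicClosure ℚ), A.LiesOverPrime p ∧
        ∃ τ : AlgebraicClosure ℚ ≃ₐ[ℚ] AlgebraicClosure ℚ, A.IsFrobeniusAt τ p ∧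
          ∀ x ∈ E, τ x = σ x := by
  obtain ⟨M, hEM, hMfin, hMnorm⟩ := exists_normal_finite E
  haveI : FiniteDimensional ℚ M := hMfin
  haveI : Normal ℚ M := hMnorm
  have key : ∀ (τ : AlgebraicClosure ℚ ≃ₐ[ℚ] AlgebraicClosure ℚ) (x : M),
      ((τ.restrictNormal M x : M) : AlgebraicClosure ℚ) = τ x := fun τ x =>
    τ.restrictNormal_commutes M x
  have hfix : ∀ τ ∈ M.fixingSubgroup,
      AlgEquiv.restrictNormalHom (F := ℚ) (K₁ := AlgebraicClosure ℚ) M τ = 1 := by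
    intro τ hτ
    apply AlgEquiv.ext
    intro x
    apply Subtype.ext
    have h1 := (IntermediateField.mem_fixingSubgroup_iff _ _).1 hτ x x.2
    rw [AlgEquiv.one_apply]
    exact (key τ x).trans h1
  obtain ⟨p, hp, hpS, hI, A, hA, τ, hτ, h⟩ := exists_frobenius_rho
    (AlgEquiv.restrictNormalHom (F := ℚ) (K₁ := AlgebraicClosure ℚ) M) M hMfin hfix σ S
  refine ⟨p, hp, hpS, fun A hA i hi x hx => ?_, A, hA, τ, hτ, fun x hx => ?_⟩
  · have h1 := hI A hA i hi
    have h2 : i.restrictNormal M = 1 := h1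
    have h3 := key i ⟨x, hEM hx⟩
    rw [h2] at h3
    exact h3.symm
  · have h1 : τ.restrictNormal M = σ.restrictNormal M := h
    have h2 := key τ ⟨x, hEM hx⟩
    have h3 := key σ ⟨x, hEM hx⟩
    rw [h1] at h2
    exact h2.symm.trans h3

end

end Fermat.Agent.Cheb
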