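import Fermat.Agent.Cheb.Cons
import Fermat.Agent.FrobDensity.Final

/-!
**Chebotarev's density theorem**: the lower bound, for finite quotients of the absolute Galois
group of `ℚ`.
-/

set_option autoImplicit false
set_option linter.style.haveILetI false
set_option linter.unusedSectionVars false

open NumberField Filter Topology MulAction
open scoped IntermediateField Pointwise

namespace Fermat.Agent.Cheb

open Fermat.Agent.FrobDensity Fermat.Agent.Frob

noncomputable section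

theorem IsFrob.unique {L : Type*} [Field L] [NumberField L] {p : ℕ} (hp : p.Prime)
    {Q : Ideal (𝓞 L)} [Q.IsPrime] (hpQ : (p : 𝓞 L) ∈ Q)
    (hin : Q.inertia (L ≃ₐ[ℚ] L) = ⊥) {F F' : L ≃ₐ[ℚ] L} (hF : IsFrob F Q p)
    (hF' : IsFrob F' Q p) : F = F' := by
  have hFs := hF.mem_stabilizer hp hpQ
  have h1 : F⁻¹ * F' ∈ Q.inertia (L ≃ₐ[ℚ] L) := by
    intro x
    have h2 : F' • x - F • x ∈ Q := by
      have h3 := Q.sub_mem (hF' x) (hF x)
      have h4 : F' • x - x ^ p - (F • x - x ^ p) = F' • x - F • x := by ring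
      rwa [h4] at h3
    have h3 : F⁻¹ • (F' • x - F • x) ∈ F⁻¹ • Q := Ideal.smul_mem_pointwise_smul _ _ _ h2
    have h4 : F⁻¹ • Q = Q := (stabilizer (L ≃ₐ[ℚ] L) Q).inv_mem hFs
    rw [h4, smul_sub, inv_smul_smul, ← mul_smul] at h3
    exact h3
  rw [hin, Subgroup.mem_bot] at h1
  exact inv_mul_eq_one.mp h1

section

variable {Ω : Type*} [Field Ω] [Algebra ℚ Ω] [IsGalois ℚ Ω]
  (M : Type*) [Field M] [NumberField M] [IsGalois ℚ M] [Algebra M Ω] [IsScalarTower ℚ M Ω]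

theorem good_of_Fr {p : Nat.Primes} (hd : ¬ ((p : ℕ) : ℤ) ∣ discr M) (A : ValuationSubring Ω)
    (hA : A.LiesOverPrime (p : ℕ)) :
    (∀ i ∈ A.inertiaSubgroupIn ℚ, i.restrictNormal M = 1) ∧
    ∀ σ : Ω ≃ₐ[ℚ] Ω, A.IsFrobeniusAt σ (p : ℕ) → ∃ x : M ≃ₐ[ℚ] M,
      σ.restrictNormal M = x * Fr M p * x⁻¹ := by
  have hQ₀ := (natCast_mem_centerInt_iff M A (p : ℕ)).mpr hA
  have hin := inertia_eq_bot_of_not_dvd_discr M p.2 hd (centerInt M A) inferInstance hQ₀
  refine ⟨fun i hi => ?_, fun σ hσ => ?_⟩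
  · have : i.restrictNormal M ∈ (centerInt M A).inertia (M ≃ₐ[ℚ] M) :=
      fun x => inertia_smul_sub_mem M hi x
    rw [hin] at this
    exact Subgroup.mem_bot.mp this
  · obtain ⟨Q, hQ, hpQ, hF⟩ := (exists_Fr M p).choose_spec
    have h1 : Q.under ℤ = (centerInt M A).under ℤ := by
      rw [← (liesOver_span_of_mem p.2 (centerInt M A) hQ₀).over,
        ← (liesOver_span_of_mem p.2 Q hpQ).over]
    obtain ⟨x, hx⟩ := Algebra.IsInvariant.exists_smul_of_under_eq ℤ (𝓞 M) (M ≃ₐ[ℚ] M)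
      Q (centerInt M A) h1
    refine ⟨x, ?_⟩
    have h2 : IsFrob (x * Fr M p * x⁻¹) (centerInt M A) p := by
      rw [hx]
      exact hF.conj x
    have h3 : IsFrob (σ.restrictNormal M) (centerInt M A) p := fun y =>
      frobenius_smul_sub_mem M hσ y
    exact IsFrob.unique p.2 hQ₀ hin h3 h2

end

theorem card_subtype_compl {A : Type*} [Fintype A] (P : A → Prop) [DecidablePred P] :
    (Finset.univ.filter P).card + Nat.card {a : A // ¬ P a} = Nat.card A := by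
  rw [Nat.card_eq_fintype_card, Nat.card_eq_fintype_card, Fintype.card_subtype,
    ← Finset.card_univ]
  exact Finset.card_filter_add_card_filter_not P

/-- Auxiliary form: number field level. -/
theorem cheb_number_field {M : Type*} [Field M] [NumberField M] [IsGalois ℚ M] {q n k : ℕ}
    [hq : Fact q.Prime] (hqk : q ≡ 1 [MOD (2 * n ^ k)]) (hk : 0 < k)
    {ζ : M} (hζ : IsPrimitiveRoot ζ q) {G : Type*} [Group G] [Finite G] (hn : Nat.card G = n)
    (E : IntermediateField ℚ M) (hE : ¬ (q : ℤ) ∣ discr E)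
    (f : (M ≃ₐ[ℚ] M) →* G) (hf : Function.Surjective f) (hfE : E.fixingSubgroup ≤ f.ker)
    (C : Set G) (hC : ∀ g ∈ C, ∀ y, y * g * y⁻¹ ∈ C) :
    open Classical in
    ∃ (m : ℕ) (D : ℝ), (∀ p : ℕ, p.Prime → ¬ p ∣ m → ¬ (p : ℤ) ∣ discr M) ∧
      ∀ s : ℝ, 1 < s → s ≤ 2 →
      ((Nat.card C : ℝ) / Nat.card G - n / 2 ^ k) * Real.log (1 / (s - 1)) - D ≤
      ∑' p : Nat.Primes, if ¬ (p : ℕ) ∣ m ∧ f (Fr M p) ∈ C then
        (((p : ℕ) : ℝ)) ^ (-s) else 0 := by
  classical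
  have hn0 : 0 < n := hn ▸ Nat.card_pos
  obtain ⟨A, θ₀, hAc, hA, hθ, hθ1⟩ := exists_quot hn0 hqk
  obtain ⟨S, hS⟩ := exists_setup hζ E hE f hf hfE θ₀ hθ hθ1
  haveI : Fintype G := Fintype.ofFinite G
  haveI : Fintype A := Fintype.ofFinite A
  obtain ⟨D, hD⟩ := S.lower_bound C.toFinset (fun g hg y => by
    rw [Set.mem_toFinset] at hg ⊢
    exact hC g hg y) (Finset.univ.filter fun τ : A => n ∣ orderOf τ) (fun τ hτ => by
    rw [hn]
    exact (Finset.mem_filter.1 hτ).2)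
  refine ⟨S.m, D, S.unram, fun s hs hs2 => ?_⟩
  have h1 := hD s hs hs2
  simp_rw [Set.mem_toFinset, hS] at h1
  refine le_trans (sub_le_sub_right ?_ D) h1
  apply mul_le_mul_of_nonneg_right _ (Setup.log_nonneg' hs hs2)
  have hbad := card_bad hn0 hk hA
  have hsum := card_subtype_compl (fun τ : A => n ∣ orderOf τ)
  have hA0 : (0 : ℝ) < Nat.card A := by exact_mod_cast Nat.card_pos
  have hG0 : (0 : ℝ) < Nat.card G := by exact_mod_cast Nat.card_pos
  have hCc : C.toFinset.card = Nat.card C := by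
    rw [Nat.card_eq_fintype_card, Set.toFinset_card]
  have hCG : (Nat.card C : ℝ) ≤ Nat.card G := by
    exact_mod_cast Nat.card_le_card_of_injective _ Subtype.val_injective
  set x : ℝ := (Nat.card C : ℝ) / Nat.card G with hx
  have hx0 : 0 ≤ x := by positivity
  have hx1 : x ≤ 1 := by rw [hx, div_le_one hG0]; exact hCG
  set t : ℝ := ((Finset.univ.filter fun τ : A => n ∣ orderOf τ).card : ℝ) / Nat.card A with ht
  have ht1 : 1 - t ≤ n / 2 ^ k := by
    have h2 : (Nat.card A : ℝ) = ((Finset.univ.filter fun τ : A => n ∣ orderOf τ).card : ℝ) +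
        Nat.card {τ : A // ¬ n ∣ orderOf τ} := by exact_mod_cast hsum.symm
    have h3 : 1 - t = (Nat.card {τ : A // ¬ n ∣ orderOf τ} : ℝ) / Nat.card A := by
      rw [ht, eq_div_iff hA0.ne', sub_mul, div_mul_cancel₀ _ hA0.ne', one_mul]
      linarith
    rw [h3, div_le_iff₀ hA0]
    exact hbad
  have ht0 : 0 ≤ 1 - t := by
    have h2 : ((Finset.univ.filter fun τ : A => n ∣ orderOf τ).card : ℝ) ≤ Nat.card A := by
      exact_mod_cast (Nat.le_add_right _ _).trans hsum.le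
    rw [ht, sub_nonneg, div_le_one hA0]
    exact h2
  have h5 : ((Finset.univ.filter fun τ : A => n ∣ orderOf τ).card * C.toFinset.card /
      (Nat.card A * Nat.card G) : ℝ) = t * x := by
    rw [hCc, ht, hx]
    field_simp
  rw [h5]
  nlinarith

/-- Auxiliary form with an abstract ambient field. -/
theorem cheb_aux {Ω : Type*} [Field Ω] [Algebra ℚ Ω] [IsGalois ℚ Ω] [IsAlgClosed Ω]
    {G : Type*} [Group G] [Finite G] (ρ : (Ω ≃ₐ[ℚ] Ω) →* G) (hρ : Function.Surjective ρ)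
    (E : IntermediateField ℚ Ω) (hfin : FiniteDimensional ℚ E)
    (hE : ∀ σ ∈ E.fixingSubgroup, ρ σ = 1) (C : Set G) (hC : ∀ g ∈ C, ∀ y, y * g * y⁻¹ ∈ C)
    {δ : ℝ} (hδ : 0 < δ) :
    open Classical in
    ∃ s₀ : ℝ, 1 < s₀ ∧ ∀ s : ℝ, 1 < s → s < s₀ →
      ((Nat.card C : ℝ) / Nat.card G - δ) * Real.log (1 / (s - 1)) ≤
      ∑' p : Nat.Primes, if (∀ A : ValuationSubring Ω, A.LiesOverPrime (p : ℕ) →
        (∀ σ ∈ A.inertiaSubgroupIn ℚ, ρ σ = 1) ∧ ∀ σ, A.IsFrobeniusAt σ (p : ℕ) → ρ σ ∈ C) then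
        (((p : ℕ) : ℝ)) ^ (-s) else 0 := by
  classical
  haveI : CharZero Ω := charZero_of_injective_algebraMap (algebraMap ℚ Ω).injective
  haveI : CharZero E := charZero_of_injective_algebraMap (algebraMap ℚ E).injective
  haveI : NumberField E := numberField_of_algebra E E.algebra' hfin
  set n := Nat.card G with hn
  have hn0 : 0 < n := Nat.card_pos
  -- choice of `k`
  obtain ⟨k, hk⟩ : ∃ k : ℕ, (n : ℝ) / 2 ^ (k + 1) ≤ δ / 2 := by
    obtain ⟨k, hk⟩ := exists_pow_lt_of_lt_one (show 0 < δ / 2 / n by positivity)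
      (show (1 / 2 : ℝ) < 1 by norm_num)
    refine ⟨k, ?_⟩
    rw [div_le_iff₀ (by positivity)]
    rw [one_div, inv_pow, lt_div_iff₀ (by positivity)] at hk
    have h2 : (0 : ℝ) < 2 ^ k := by positivity
    have h3 : (n : ℝ) = ((2 : ℝ) ^ k)⁻¹ * n * 2 ^ k := by field_simp
    have h4 : ((2 : ℝ) ^ k)⁻¹ * n * 2 ^ k ≤ δ / 2 * 2 ^ k :=
      mul_le_mul_of_nonneg_right hk.le h2.le
    rw [pow_succ]
    nlinarith
  -- choice of `q`
  obtain ⟨q, hqp, hqlt, hqk⟩ := Nat.exists_prime_gt_modEq_one (k := 2 * n ^ (k + 1))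
    (discr E).natAbs (by positivity)
  haveI : Fact q.Prime := ⟨hqp⟩
  have hqd : ¬ (q : ℤ) ∣ discr E := by
    intro h
    have h1 : q ∣ (discr E).natAbs := Int.natCast_dvd.1 h
    have h2 := Nat.le_of_dvd (Int.natAbs_pos.2 (discr_ne_zero E)) h1
    omega
  haveI : NeZero (q : Ω) := ⟨by exact_mod_cast hqp.ne_zero⟩
  obtain ⟨z, hz⟩ := HasEnoughRootsOfUnity.exists_primitiveRoot Ω q
  haveI : FiniteDimensional ℚ ℚ⟮z⟯ :=
    IntermediateField.adjoin.finiteDimensional ((hz.isIntegral hqp.pos).tower_top)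
  obtain ⟨M, hLM, hMfin, hMnorm⟩ := exists_normal_finite (E ⊔ ℚ⟮z⟯)
  haveI : CharZero M := charZero_of_injective_algebraMap (algebraMap ℚ M).injective
  haveI : NumberField M := numberField_of_algebra M M.algebra' hMfin
  haveI : IsGalois ℚ M := isGalois_of_algebra M M.algebra' hMnorm
  haveI : IsScalarTower ℚ M Ω := .of_algebraMap_eq' (Subsingleton.elim _ _)
  have hEM : E ≤ M := le_sup_left.trans hLM
  have hzM : z ∈ M := hLM ((le_sup_right : ℚ⟮z⟯ ≤ E ⊔ ℚ⟮z⟯)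
    (IntermediateField.mem_adjoin_simple_self ℚ z))
  have hinj : Function.Injective (algebraMap M Ω) := (algebraMap M Ω).injective
  let ζ : M := ⟨z, hzM⟩
  have hζ : IsPrimitiveRoot ζ q := by
    apply IsPrimitiveRoot.of_map_of_injective (f := algebraMap M Ω) _ hinj
    exact hz
  let E₁ : IntermediateField ℚ M := IntermediateField.comap (IsScalarTower.toAlgHom ℚ M Ω) E
  have hE₁ : ∀ x : M, x ∈ E₁ ↔ algebraMap M Ω x ∈ E := fun x => Iff.rfl
  have hdE : discr E₁ = discr E := by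
    let g : E₁ →+* E :=
      { toFun := fun x => ⟨algebraMap M Ω x.1, (hE₁ x.1).1 x.2⟩
        map_one' := Subtype.ext (by simp)
        map_mul' := fun x y => Subtype.ext (by simp)
        map_zero' := Subtype.ext (by simp)
        map_add' := fun x y => Subtype.ext (by simp) }
    have hg : Function.Bijective g := by
      refine ⟨g.injective, fun y => ?_⟩
      refine ⟨⟨⟨y.1, hEM y.2⟩, (hE₁ _).2 y.2⟩, Subtype.ext rfl⟩
    exact discr_eq_discr_of_ringEquiv _ (RingEquiv.ofBijective g hg)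
  -- the map on the Galois group of `M`
  let r : (Ω ≃ₐ[ℚ] Ω) →* (M ≃ₐ[ℚ] M) := AlgEquiv.restrictNormalHom (F := ℚ) (K₁ := Ω) M
  have hr : Function.Surjective r := AlgEquiv.restrictNormalHom_surjective (F := ℚ) (K₁ := M) Ω
  have key : ∀ (σ : Ω ≃ₐ[ℚ] Ω) (x : M), algebraMap M Ω (r σ x) = σ (algebraMap M Ω x) :=
    fun σ x => σ.restrictNormal_commutes M x
  have hfix : ∀ σ : Ω ≃ₐ[ℚ] Ω, (∀ x ∈ E₁, r σ x = x) → ρ σ = 1 := by
    intro σ hσ
    apply hE
    rw [IntermediateField.mem_fixingSubgroup_iff]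
    intro y hy
    have h1 := key σ ⟨y, hEM hy⟩
    rw [hσ _ ((hE₁ _).2 hy)] at h1
    exact h1.symm
  have hker : r.ker ≤ ρ.ker := by
    intro σ hσ
    rw [MonoidHom.mem_ker] at hσ ⊢
    apply hfix
    intro x _
    rw [hσ]
    rfl
  let f : (M ≃ₐ[ℚ] M) →* G := r.liftOfSurjective hr ⟨ρ, hker⟩
  have hfr : ∀ σ, f (r σ) = ρ σ := fun σ =>
    MonoidHom.liftOfRightInverse_comp_apply _ _ _ _ _
  have hf : Function.Surjective f := by
    intro g
    obtain ⟨σ, rfl⟩ := hρ g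
    exact ⟨r σ, hfr σ⟩
  have hfE : E₁.fixingSubgroup ≤ f.ker := by
    intro x hx
    obtain ⟨σ, rfl⟩ := hr x
    rw [MonoidHom.mem_ker, hfr]
    exact hfix σ fun y hy => (IntermediateField.mem_fixingSubgroup_iff _ _).1 hx y hy
  obtain ⟨m, D, hunram, hD⟩ := cheb_number_field hqk (Nat.succ_pos k) hζ hn.symm E₁
    (by rw [hdE]; exact hqd) f hf hfE C hC
  -- choice of `s₀`
  refine ⟨1 + Real.exp (-(|D| * (2 / δ))), by linarith [Real.exp_pos (-(|D| * (2 / δ)))],
    fun s hs hs0 => ?_⟩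
  have hexp : Real.exp (-(|D| * (2 / δ))) ≤ 1 := by
    rw [Real.exp_le_one_iff]
    have : 0 ≤ |D| * (2 / δ) := by positivity
    linarith
  have hs2 : s ≤ 2 := by linarith
  have hlog : |D| * (2 / δ) ≤ Real.log (1 / (s - 1)) := by
    rw [one_div, Real.log_inv]
    have h1 : Real.log (s - 1) ≤ -(|D| * (2 / δ)) := by
      rw [Real.log_le_iff_le_exp (by linarith)]
      linarith
    linarith
  have hmain : ((Nat.card C : ℝ) / Nat.card G - δ) * Real.log (1 / (s - 1)) ≤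
      ((Nat.card C : ℝ) / Nat.card G - n / 2 ^ (k + 1)) * Real.log (1 / (s - 1)) - D := by
    have h1 : |D| ≤ δ / 2 * Real.log (1 / (s - 1)) := by
      have h2 := mul_le_mul_of_nonneg_left hlog (show 0 ≤ δ / 2 by positivity)
      have h3 : δ / 2 * (|D| * (2 / δ)) = |D| := by field_simp
      linarith
    have h4 := le_abs_self D
    have h5 := Setup.log_nonneg' hs hs2
    have h6 := mul_le_mul_of_nonneg_right hk h5
    nlinarith
  refine hmain.trans ((hD s hs hs2).trans ?_)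
  have hsum := summable_primes_rpow hs
  have hle : ∀ (P : Nat.Primes → Prop) [DecidablePred P],
      Summable fun p : Nat.Primes => if P p then (((p : ℕ) : ℝ)) ^ (-s) else 0 := by
    intro P _
    refine Summable.of_nonneg_of_le (fun p => ?_) (fun p => ?_) hsum
    · split_ifs <;> positivity
    · split_ifs
      · exact le_rfl
      · positivity
  refine Summable.tsum_le_tsum (fun p => ?_) (hle _) (hle _)
  split_ifs with h1 h2 h2
  · exact le_rfl
  · exfalso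
    apply h2
    intro A hA
    obtain ⟨h3, h4⟩ := good_of_Fr M (hunram p p.2 h1.1) A hA
    refine ⟨fun σ hσ => ?_, fun σ hσ => ?_⟩
    · have h5 : r σ = 1 := h3 σ hσ
      rw [← hfr, h5, map_one]
    · obtain ⟨x, hx⟩ := h4 σ hσ
      have h5 : r σ = x * Fr M p * x⁻¹ := hx
      rw [← hfr, h5, map_mul, map_mul, map_inv]
      exact hC _ h1.2 _
  · positivity
  · exact le_rfl

/-- **Chebotarev's density theorem** (lower bound). -/
theorem chebotarev_lower' {G : Type*} [Group G] [Finite G]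
    (ρ : (AlgebraicClosure ℚ ≃ₐ[ℚ] AlgebraicClosure ℚ) →* G) (hρ : Function.Surjective ρ)
    (E : IntermediateField ℚ (AlgebraicClosure ℚ)) (hfin : FiniteDimensional ℚ E)
    (hE : ∀ σ ∈ E.fixingSubgroup, ρ σ = 1) (C : Set G) (hC : ∀ g ∈ C, ∀ y, y * g * y⁻¹ ∈ C)
    {δ : ℝ} (hδ : 0 < δ) :
    open Classical in
    ∃ s₀ : ℝ, 1 < s₀ ∧ ∀ s : ℝ, 1 < s → s < s₀ →
      ((Nat.card C : ℝ) / Nat.card G - δ) * Real.log (1 / (s - 1)) ≤
      ∑' p : Nat.Primes, if (∀ A : ValuationSubring (AlgebraicClosure ℚ),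
        A.LiesOverPrime (p : ℕ) →
        (∀ σ ∈ A.inertiaSubgroupIn ℚ, ρ σ = 1) ∧ ∀ σ, A.IsFrobeniusAt σ (p : ℕ) → ρ σ ∈ C) then
        (((p : ℕ) : ℝ)) ^ (-s) else 0 :=
  cheb_aux ρ hρ E hfin hE C hC hδ

/-- **Chebotarev's density theorem** (lower bound), existential form. -/
theorem chebotarev_lower {G : Type*} [Group G] [Finite G]
    (ρ : (AlgebraicClosure ℚ ≃ₐ[ℚ] AlgebraicClosure ℚ) →* G) (hρ : Function.Surjective ρ)
    (E : IntermediateField ℚ (AlgebraicClosure ℚ)) (hfin : FiniteDimensional ℚ E)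
    (hE : ∀ σ ∈ E.fixingSubgroup, ρ σ = 1) (C : Set G) (hC : ∀ g ∈ C, ∀ y, y * g * y⁻¹ ∈ C)
    {δ : ℝ} (hδ : 0 < δ) :
    open Classical in
    ∃ s₀ : ℝ, 1 < s₀ ∧ ∀ s : ℝ, 1 < s → s < s₀ →
      ((Nat.card C : ℝ) / Nat.card G - δ) * Real.log (1 / (s - 1)) ≤
      ∑' p : Nat.Primes, if (∃ A : ValuationSubring (AlgebraicClosure ℚ),
        A.LiesOverPrime (p : ℕ) ∧ (∀ σ ∈ A.inertiaSubgroupIn ℚ, ρ σ = 1) ∧
        ∃ σ, A.IsFrobeniusAt σ (p : ℕ) ∧ ρ σ ∈ C) then
        (((p : ℕ) : ℝ)) ^ (-s) else 0 := by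
  classical
  obtain ⟨s₀, hs₀, h⟩ := chebotarev_lower' ρ hρ E hfin hE C hC hδ
  refine ⟨s₀, hs₀, fun s hs hss => (h s hs hss).trans ?_⟩
  have hsum := summable_primes_rpow hs
  have hle : ∀ (P : Nat.Primes → Prop) [DecidablePred P],
      Summable fun p : Nat.Primes => if P p then (((p : ℕ) : ℝ)) ^ (-s) else 0 := by
    intro P _
    refine Summable.of_nonneg_of_le (fun p => ?_) (fun p => ?_) hsum
    · split_ifs <;> positivity
    · split_ifs
      · exact le_rfl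
      · positivity
  refine Summable.tsum_le_tsum (fun p => ?_) (hle _) (hle _)
  split_ifs with h1 h2 h2
  · exact le_rfl
  · exfalso
    apply h2
    obtain ⟨A, hA⟩ := exists_liesOverPrime (AlgebraicClosure ℚ) p.2
    obtain ⟨σ, hσ⟩ := exists_isFrobeniusAt p.2 hA
    exact ⟨A, hA, (h1 A hA).1, σ, hσ, (h1 A hA).2 σ hσ⟩
  · positivity
  · exact le_rfl

end

end Fermat.Agent.Cheb
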