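import Fermat.Agent.Cheb.Lattice

/-!
`L`-functions `L(s, χ ∘ N)` of number fields for even Dirichlet characters `χ`: behaviour as
`s → 1+`.
-/

set_option autoImplicit false

open NumberField NumberField.InfinitePlace NumberField.Units Filter Topology nonZeroDivisors

namespace Fermat.Agent.Cheb

open Fermat.Agent.ExtVanD

noncomputable section

variable {K : Type*} [Field K] [NumberField K]

section NormCongr

lemma norm_add_mul (x z : 𝓞 K) (M : ℕ) : ∃ w : ℤ,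
    Algebra.norm ℤ (x + (M : 𝓞 K) * z) = Algebra.norm ℤ x + M * w := by
  classical
  have h1 : ((Algebra.norm ℤ (x + (M : 𝓞 K) * z) : ℤ) : ZMod M) =
      ((Algebra.norm ℤ x : ℤ) : ZMod M) := by
    let b := Module.Free.chooseBasis ℤ (𝓞 K)
    rw [Algebra.norm_eq_matrix_det b, Algebra.norm_eq_matrix_det b]
    have h2 : ∀ A : Matrix (Module.Free.ChooseBasisIndex ℤ (𝓞 K))
        (Module.Free.ChooseBasisIndex ℤ (𝓞 K)) ℤ,
        ((A.det : ℤ) : ZMod M) = ((Int.castRingHom (ZMod M)).mapMatrix A).det := fun A =>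
      RingHom.map_det (Int.castRingHom (ZMod M)) A
    rw [h2, h2, map_add, map_mul, map_natCast, map_add, map_mul, map_natCast]
    have h3 : ((M : ℕ) : Matrix (Module.Free.ChooseBasisIndex ℤ (𝓞 K))
        (Module.Free.ChooseBasisIndex ℤ (𝓞 K)) (ZMod M)) = 0 := by
      ext i j
      rw [Matrix.natCast_apply]
      simp
    rw [h3, zero_mul, add_zero]
  rw [ZMod.intCast_eq_intCast_iff_dvd_sub] at h1
  obtain ⟨w, hw⟩ := h1
  exact ⟨-w, by linear_combination -hw⟩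

end NormCongr

/-- The periodic function attached to an ideal and a character. -/
def hJ {m : ℕ} (χ : DirichletCharacter ℂ m) (J : Ideal (𝓞 K)) (a : 𝓞 K) : ℂ :=
  open Classical in
  if a ∈ J then χ (((Algebra.norm ℤ a / (Ideal.absNorm J : ℤ) : ℤ)) : ZMod m) else 0

lemma absNorm_dvd_norm {J : Ideal (𝓞 K)} {a : 𝓞 K} (ha : a ∈ J) :
    (Ideal.absNorm J : ℤ) ∣ Algebra.norm ℤ a := Ideal.absNorm_dvd_norm_of_mem ha

lemma hJ_periodic {m : ℕ} (χ : DirichletCharacter ℂ m) {J : Ideal (𝓞 K)} (hJ0 : J ≠ ⊥)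
    (x : 𝓞 K) (y : 𝓞 K) (hy : y ∈ Ideal.span {((m * Ideal.absNorm J : ℕ) : 𝓞 K)}) :
    hJ χ J (x + y) = hJ χ J x := by
  rw [Ideal.mem_span_singleton'] at hy
  obtain ⟨z, rfl⟩ := hy
  have hN : (Ideal.absNorm J : ℤ) ≠ 0 := by
    rw [Nat.cast_ne_zero]
    exact fun h => hJ0 (Ideal.absNorm_eq_zero_iff.1 h)
  have hmem : z * ((m * Ideal.absNorm J : ℕ) : 𝓞 K) ∈ J := by
    rw [Nat.cast_mul, ← mul_assoc]
    exact Ideal.mul_mem_left _ _ (Ideal.absNorm_mem J)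
  unfold hJ
  by_cases hx : x ∈ J
  · rw [if_pos hx, if_pos (J.add_mem hx hmem)]
    obtain ⟨w, hw⟩ := norm_add_mul x z (m * Ideal.absNorm J)
    rw [mul_comm z, hw]
    obtain ⟨c, hc⟩ := absNorm_dvd_norm hx
    rw [hc]
    have h1 : (Ideal.absNorm J : ℤ) * c + ((m * Ideal.absNorm J : ℕ) : ℤ) * w =
        (Ideal.absNorm J : ℤ) * (c + m * w) := by push_cast; ring
    rw [h1, Int.mul_ediv_cancel_left _ hN, Int.mul_ediv_cancel_left _ hN]
    push_cast
    simp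
  · rw [if_neg hx, if_neg]
    intro h
    apply hx
    have := J.sub_mem h hmem
    rwa [add_sub_cancel_right] at this

lemma norm_hJ_le {m : ℕ} (χ : DirichletCharacter ℂ m) (J : Ideal (𝓞 K)) (a : 𝓞 K) :
    ‖hJ χ J a‖ ≤ 1 := by
  unfold hJ
  split_ifs
  · exact χ.norm_le_one _
  · simp

/-- The term of the Dirichlet series. -/
def lterm {m : ℕ} (χ : DirichletCharacter ℂ m) (s : ℝ) (I : (Ideal (𝓞 K))⁰) : ℂ :=
  χ ((Ideal.absNorm (I : Ideal (𝓞 K)) : ℕ) : ZMod m) * (nrm s I : ℂ)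

lemma norm_lterm_le {m : ℕ} (χ : DirichletCharacter ℂ m) (s : ℝ) (I : (Ideal (𝓞 K))⁰) :
    ‖lterm χ s I‖ ≤ nrm s I := by
  unfold lterm
  rw [norm_mul, Complex.norm_real, Real.norm_of_nonneg (nrm_pos s I).le]
  exact mul_le_of_le_one_left (nrm_pos s I).le (χ.norm_le_one _)

/-- The `L`-function. -/
def LL (K : Type*) [Field K] [NumberField K] {m : ℕ} (χ : DirichletCharacter ℂ m) (s : ℝ) : ℂ :=
  ∑' I : (Ideal (𝓞 K))⁰, lterm χ s I

lemma summable_lterm {m : ℕ} (χ : DirichletCharacter ℂ m) {s : ℝ} (hs : 1 < s) :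
    Summable (fun I : (Ideal (𝓞 K))⁰ => lterm χ s I) :=
  Summable.of_norm_bounded (summable_nrm hs) (norm_lterm_le χ s)

theorem unfold_char {m : ℕ} (χ : DirichletCharacter ℂ m) (hχ : χ (-1) = 1)
    (J : (Ideal (𝓞 K))⁰) {s : ℝ} (hs : 1 < s) :
    ∑' a : 𝓞 K, hJ χ (J : Ideal (𝓞 K)) a * (ff s (a : K) : ℂ) =
      (nrm s J : ℂ) * ∑' I : InClass (ClassGroup.mk0 J)⁻¹, lterm χ s I.1 := by
  classical
  choose g hg0 hg using exists_gen J
  let X : Set (𝓞 K) := {a | a ∈ (J : Ideal (𝓞 K)) ∧ a ≠ 0}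
  let e : InClass (ClassGroup.mk0 J)⁻¹ × (𝓞 K)ˣ → X := fun x =>
    ⟨(x.2 : 𝓞 K) * g x.1, by
      constructor
      · exact Ideal.mul_mem_left _ _ (gen_mem (hg x.1))
      · exact mul_ne_zero (Units.ne_zero x.2) (hg0 x.1)⟩
  have hspan : ∀ (ε : (𝓞 K)ˣ) (a : 𝓞 K), Ideal.span {(ε : 𝓞 K) * a} = Ideal.span {a} := by
    intro ε a
    rw [Ideal.span_singleton_eq_span_singleton]
    exact (associated_unit_mul_left a _ ε.isUnit)
  have he : Function.Bijective e := by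
    constructor
    · rintro ⟨I, ε⟩ ⟨I', ε'⟩ h
      have h' : (ε : 𝓞 K) * g I = (ε' : 𝓞 K) * g I' := congrArg Subtype.val h
      have h1 : Ideal.span {g I} = Ideal.span {g I'} := by
        rw [← hspan ε (g I), ← hspan ε' (g I'), h']
      rw [hg, hg] at h1
      have hJ0 : (J : Ideal (𝓞 K)) ≠ 0 := nonZeroDivisors.coe_ne_zero J
      have h2 : (I.1 : Ideal (𝓞 K)) = I'.1 := mul_right_cancel₀ hJ0 h1
      have h3 : I = I' := Subtype.ext (Subtype.ext h2)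
      subst h3
      have h4 : (ε : 𝓞 K) = ε' := mul_right_cancel₀ (hg0 I) h'
      exact Prod.ext rfl (Units.ext h4)
    · rintro ⟨a, haJ, ha0⟩
      have hdvd : (J : Ideal (𝓞 K)) ∣ Ideal.span {a} := by
        rw [Ideal.dvd_iff_le, Ideal.span_singleton_le_iff_mem]
        exact haJ
      obtain ⟨I, hI⟩ := hdvd
      have hI0 : I ≠ 0 := by
        rintro rfl
        rw [mul_zero] at hI
        exact ha0 (Ideal.span_singleton_eq_bot.mp hI)
      let I₁ : (Ideal (𝓞 K))⁰ := ⟨I, mem_nonZeroDivisors_of_ne_zero hI0⟩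
      have hcl : ClassGroup.mk0 I₁ = (ClassGroup.mk0 J)⁻¹ := by
        rw [eq_inv_iff_mul_eq_one, ← map_mul, ClassGroup.mk0_eq_one_iff]
        refine ⟨a, ?_⟩
        rw [Submonoid.coe_mul, mul_comm]
        exact hI.symm
      have h1 : Ideal.span {a} = Ideal.span {g ⟨I₁, hcl⟩} := by
        rw [hg, hI, mul_comm]
      rw [Ideal.span_singleton_eq_span_singleton] at h1
      obtain ⟨u, hu⟩ := h1.symm
      refine ⟨(⟨I₁, hcl⟩, u), Subtype.ext ?_⟩
      show (u : 𝓞 K) * g _ = a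
      rw [mul_comm]
      exact hu
  have hN : (Ideal.absNorm (J : Ideal (𝓞 K)) : ℤ) ≠ 0 := by
    rw [Nat.cast_ne_zero]
    exact fun h => nonZeroDivisors.coe_ne_zero J (Ideal.absNorm_eq_zero_iff.1 h)
  -- value of `hJ` on the orbit
  have hval : ∀ (I : InClass (ClassGroup.mk0 J)⁻¹) (ε : (𝓞 K)ˣ),
      hJ χ (J : Ideal (𝓞 K)) ((e (I, ε) : X) : 𝓞 K) =
        χ ((Ideal.absNorm (I.1 : Ideal (𝓞 K)) : ℕ) : ZMod m) := by
    intro I ε
    have hmem : ((e (I, ε) : X) : 𝓞 K) ∈ (J : Ideal (𝓞 K)) := (e (I, ε)).2.1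
    unfold hJ
    rw [if_pos hmem]
    have h1 : (Algebra.norm ℤ ((e (I, ε) : X) : 𝓞 K)).natAbs =
        Ideal.absNorm (I.1 : Ideal (𝓞 K)) * Ideal.absNorm (J : Ideal (𝓞 K)) := by
      rw [← Ideal.absNorm_span_singleton]
      change Ideal.absNorm (Ideal.span {(ε : 𝓞 K) * g I}) = _
      rw [hspan, hg, map_mul]
    rcases Int.natAbs_eq (Algebra.norm ℤ ((e (I, ε) : X) : 𝓞 K)) with h2 | h2
    · rw [h2, h1, Nat.cast_mul, Int.mul_ediv_cancel _ hN]
      simp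
    · rw [h2, h1, Nat.cast_mul, ← neg_mul, Int.mul_ediv_cancel _ hN]
      push_cast
      rw [neg_eq_neg_one_mul, map_mul, hχ, one_mul]
  have hsf := summable_ff (K := K) hs
  have hsu : Summable fun a : 𝓞 K => hJ χ (J : Ideal (𝓞 K)) a * (ff s (a : K) : ℂ) := by
    refine Summable.of_norm_bounded hsf fun a => ?_
    rw [norm_mul, Complex.norm_real, Real.norm_of_nonneg (ff_nonneg s _)]
    exact mul_le_of_le_one_left (ff_nonneg s _) (norm_hJ_le χ _ a)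
  have hse : Summable fun x : InClass (ClassGroup.mk0 J)⁻¹ × (𝓞 K)ˣ =>
      hJ χ (J : Ideal (𝓞 K)) ((e x : X) : 𝓞 K) * (ff s (((e x : X) : 𝓞 K) : K) : ℂ) :=
    (hsu.comp_injective (Subtype.val_injective (p := fun a => a ∈ X))).comp_injective he.1
  have hinner : ∀ I : InClass (ClassGroup.mk0 J)⁻¹,
      ∑' ε : (𝓞 K)ˣ, hJ χ (J : Ideal (𝓞 K)) ((e (I, ε) : X) : 𝓞 K) *
        (ff s (((e (I, ε) : X) : 𝓞 K) : K) : ℂ) = (nrm s J : ℂ) * lterm χ s I.1 := by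
    intro I
    have hgI : (g I : K) ≠ 0 := by simpa using hg0 I
    have h1 := (hasSum_ff (s := s) hgI).tsum_eq
    have h2 : (fun ε : (𝓞 K)ˣ => ff s (((e (I, ε) : X) : 𝓞 K) : K)) =
        fun ε : (𝓞 K)ˣ => ff s ((ε : K) * (g I : K)) := by
      funext ε
      exact congrArg (ff s) (map_mul (algebraMap (𝓞 K) K) _ _)
    have h3 : (Algebra.norm ℚ (g I : K)) = ((Algebra.norm ℤ (g I) : ℤ) : ℚ) :=
      (Algebra.coe_norm_int (g I)).symm
    have h4 : nn (g I : K) = (Ideal.absNorm ((I.1 * J : (Ideal (𝓞 K))⁰) : Ideal (𝓞 K)) : ℝ) := by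
      unfold nn
      rw [h3, Submonoid.coe_mul, ← hg I, Ideal.absNorm_span_singleton, Nat.cast_natAbs,
        Rat.cast_intCast, Int.cast_abs]
    have h5 : ∑' ε : (𝓞 K)ˣ, ff s (((e (I, ε) : X) : 𝓞 K) : K) = nrm s J * nrm s I.1 := by
      rw [h2, h1, ← nrm_mul, mul_comm, h4]
      rfl
    simp_rw [hval I]
    rw [tsum_mul_left, ← Complex.ofReal_tsum, h5]
    unfold lterm
    push_cast
    ring
  have h1 : ∑' a : 𝓞 K, hJ χ (J : Ideal (𝓞 K)) a * (ff s (a : K) : ℂ) =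
      ∑' a : X, hJ χ (J : Ideal (𝓞 K)) a * (ff s ((a : 𝓞 K) : K) : ℂ) := by
    have hB := tsum_subtype X (fun a : 𝓞 K => hJ χ (J : Ideal (𝓞 K)) a * (ff s (a : K) : ℂ))
    refine Eq.trans ?_ hB.symm
    refine tsum_congr fun a => ?_
    by_cases ha : a ∈ X
    · rw [Set.indicator_of_mem ha]
    · rw [Set.indicator_of_notMem ha]
      by_cases haJ : a ∈ (J : Ideal (𝓞 K))
      · have ha0 : a = 0 := by
          by_contra h
          exact ha ⟨haJ, h⟩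
        have h0 : ff s (a : K) = 0 := by
          rw [ha0]
          have h0 : ((0 : 𝓞 K) : K) = 0 := by simp
          rw [h0]
          exact ff_zero (by linarith)
        rw [h0]
        simp
      · unfold hJ
        rw [if_neg haJ, zero_mul]
  rw [h1, ← (Equiv.ofBijective e he).tsum_eq (fun a : X => hJ χ (J : Ideal (𝓞 K)) a *
    (ff s ((a : 𝓞 K) : K) : ℂ))]
  have h2 : ∑' x : InClass (ClassGroup.mk0 J)⁻¹ × (𝓞 K)ˣ,
      hJ χ (J : Ideal (𝓞 K)) ((Equiv.ofBijective e he x : X) : 𝓞 K) *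
        (ff s (((Equiv.ofBijective e he x : X) : 𝓞 K) : K) : ℂ) =
      ∑' I, ∑' ε : (𝓞 K)ˣ, hJ χ (J : Ideal (𝓞 K)) ((e (I, ε) : X) : 𝓞 K) *
        (ff s (((e (I, ε) : X) : 𝓞 K) : K) : ℂ) := hse.tsum_prod
  rw [h2]
  simp_rw [hinner]
  rw [tsum_mul_left]

/-- The zeta sum of the principal class. -/
def ZZ (K : Type*) [Field K] [NumberField K] (s : ℝ) : ℝ := ∑' a : 𝓞 K, ff s (a : K)

lemma ZZ_eq {s : ℝ} (hs : 1 < s) : ZZ K s = clz s (1 : ClassGroup (𝓞 K)) := by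
  have h4 := (unfold_sum (1 : (Ideal (𝓞 K))⁰) hs).2
  rw [map_one, inv_one, nrm_one, one_mul] at h4
  rw [← h4]
  have h5 := tsum_univ (fun a : 𝓞 K => ff s (a : K))
  have h6 : (((1 : (Ideal (𝓞 K))⁰) : Ideal (𝓞 K)) : Set (𝓞 K)) = Set.univ := by simp
  unfold ZZ
  rw [← h5, ← h6]
  rfl

lemma tendsto_ZZ (K : Type*) [Field K] [NumberField K] : ∃ r : ℝ, 0 < r ∧
    Tendsto (fun s : ℝ => (s - 1) * ZZ K s) (𝓝[>] 1) (𝓝 r) := by
  classical
  obtain ⟨B, hB0, hB⟩ := clz_diff K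
  set h : ℝ := (Fintype.card (ClassGroup (𝓞 K)) : ℝ) with hh
  have hh0 : 0 < h := by
    rw [hh]
    exact_mod_cast Fintype.card_pos
  have hsum : ∀ s : ℝ, 1 < s → FrobDensity.realZeta K s = ∑ C : ClassGroup (𝓞 K), clz s C := by
    intro s hs
    have h1 : ∑' I : Ideal (𝓞 K), (Ideal.absNorm I : ℝ) ^ (-s) =
        ∑' I : (Ideal (𝓞 K))⁰, nrm s I := by
      have h2 := tsum_subtype ((Ideal (𝓞 K))⁰ : Set (Ideal (𝓞 K)))
        (fun I : Ideal (𝓞 K) => (Ideal.absNorm I : ℝ) ^ (-s))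
      refine Eq.trans ?_ h2.symm
      refine tsum_congr fun I => ?_
      by_cases hI : I ∈ (((Ideal (𝓞 K))⁰ : Submonoid (Ideal (𝓞 K))) : Set (Ideal (𝓞 K)))
      · rw [Set.indicator_of_mem hI]
      · rw [Set.indicator_of_notMem hI]
        have hI0 : I = 0 := by
          by_contra hne
          exact hI (mem_nonZeroDivisors_of_ne_zero hne)
        rw [hI0]
        simp only [Submodule.zero_eq_bot, Ideal.absNorm_bot, Nat.cast_zero]
        exact Real.zero_rpow (by linarith)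
    rw [← (all_ideals hs).2, h1]
    rw [← (Equiv.sigmaFiberEquiv (fun I : (Ideal (𝓞 K))⁰ => ClassGroup.mk0 I)).tsum_eq]
    have hs2 : Summable fun y : Σ C, {I : (Ideal (𝓞 K))⁰ // ClassGroup.mk0 I = C} =>
        nrm s y.2.1 := by
      have := (Equiv.sigmaFiberEquiv (fun I : (Ideal (𝓞 K))⁰ => ClassGroup.mk0 I)).summable_iff.mpr
        (summable_nrm hs)
      exact this
    have h3 : ∑' y : Σ C, {I : (Ideal (𝓞 K))⁰ // ClassGroup.mk0 I = C},
        nrm s (Equiv.sigmaFiberEquiv (fun I : (Ideal (𝓞 K))⁰ => ClassGroup.mk0 I) y) =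
        ∑' C, ∑' I : InClass C, nrm s I.1 := hs2.tsum_sigma
    rw [h3, tsum_fintype]
    rfl
  refine ⟨dedekindZeta_residue K / h, div_pos (dedekindZeta_residue_pos K) hh0, ?_⟩
  have h1 := FrobDensity.tendsto_realZeta K
  have h2 : Tendsto (fun s : ℝ => (s - 1) *
      ∑ C : ClassGroup (𝓞 K), (clz s C - clz s (1 : ClassGroup (𝓞 K)))) (𝓝[>] 1) (𝓝 0) := by
    have h3 : Tendsto (fun s : ℝ => (s - 1) * (h * B)) (𝓝[>] 1) (𝓝 0) := by
      have h4 : Tendsto (fun s : ℝ => (s - 1) * (h * B)) (𝓝 1) (𝓝 ((1 - 1) * (h * B))) :=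
        ((continuous_id.sub continuous_const).mul continuous_const).tendsto 1
      rw [sub_self, zero_mul] at h4
      exact h4.mono_left nhdsWithin_le_nhds
    refine squeeze_zero_norm' ?_ h3
    filter_upwards [Ioc_mem] with s hs
    rw [Real.norm_eq_abs, abs_mul, abs_of_pos (by linarith [hs.1] : 0 < s - 1)]
    refine mul_le_mul_of_nonneg_left ?_ (by linarith [hs.1])
    refine (Finset.abs_sum_le_sum_abs _ _).trans ?_
    calc ∑ C : ClassGroup (𝓞 K), |clz s C - clz s (1 : ClassGroup (𝓞 K))|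
        ≤ ∑ _C : ClassGroup (𝓞 K), B := Finset.sum_le_sum fun C _ => hB s hs.1 hs.2 C
      _ = h * B := by rw [Finset.sum_const, Finset.card_univ, nsmul_eq_mul]
  have h5 := (h1.sub h2).div_const h
  rw [sub_zero] at h5
  refine h5.congr' ?_
  filter_upwards [self_mem_nhdsWithin] with s hs
  have hs' : (1 : ℝ) < s := hs
  rw [hsum s hs', ZZ_eq hs', ← mul_sub, ← Finset.sum_sub_distrib]
  simp only [sub_sub_cancel]
  rw [Finset.sum_const, Finset.card_univ, nsmul_eq_mul, ← hh]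
  field_simp

lemma tendsto_rpow_div (n : ℝ) (hn : 0 < n) : ∃ d : ℝ,
    Tendsto (fun s : ℝ => (n ^ s - n) / (s - 1)) (𝓝[>] 1) (𝓝 d) := by
  have h1 : HasDerivAt (fun s : ℝ => n ^ s) (n ^ (1 : ℝ) * Real.log n) 1 := by
    have := (Real.hasStrictDerivAt_const_rpow hn 1).hasDerivAt
    exact this
  refine ⟨n ^ (1 : ℝ) * Real.log n, ?_⟩
  have h2 := h1.hasDerivWithinAt (s := Set.Ioi 1)
  rw [hasDerivWithinAt_iff_tendsto_slope' (by simp)] at h2
  refine h2.congr fun s => ?_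
  rw [slope_def_field, Real.rpow_one]

/-- Behaviour of `L(s, χ ∘ N)` as `s → 1+`. -/
theorem exists_limit_L {m : ℕ} (hm : m ≠ 0) (χ : DirichletCharacter ℂ m) (hχ : χ (-1) = 1) :
    ∃ κ ℓ : ℂ, Tendsto (fun s : ℝ => LL K χ s - κ * (ZZ K s : ℂ)) (𝓝[>] 1) (𝓝 ℓ) := by
  classical
  have hrep : ∀ C : ClassGroup (𝓞 K), ∃ J : (Ideal (𝓞 K))⁰, ClassGroup.mk0 J = C⁻¹ := fun C =>
    ClassGroup.mk0_surjective C⁻¹
  choose J hJC using hrep
  have hNpos : ∀ C, (0 : ℝ) < Ideal.absNorm (J C : Ideal (𝓞 K)) := fun C => absNorm_pos' (J C)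
  have hper : ∀ C, ∃ κ ℓ : ℂ, Tendsto (fun s : ℝ =>
      ∑' a : 𝓞 K, hJ χ (J C : Ideal (𝓞 K)) a * (ff s (a : K) : ℂ) - κ * (ZZ K s : ℂ))
      (𝓝[>] 1) (𝓝 ℓ) := by
    intro C
    refine exists_limit_periodic (Ideal.span
      {((m * Ideal.absNorm (J C : Ideal (𝓞 K)) : ℕ) : 𝓞 K)}) ?_ _
      (fun x y hy => hJ_periodic χ (nonZeroDivisors.coe_ne_zero (J C)) x y hy)
    rw [Ne, Ideal.span_singleton_eq_bot, Nat.cast_eq_zero]
    have : Ideal.absNorm (J C : Ideal (𝓞 K)) ≠ 0 := by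
      have := hNpos C
      exact_mod_cast this.ne'
    exact mul_ne_zero hm this
  choose κ ℓ hκ using hper
  obtain ⟨r, hr0, hr⟩ := tendsto_ZZ K
  choose d hd using fun C => tendsto_rpow_div (Ideal.absNorm (J C : Ideal (𝓞 K)) : ℝ) (hNpos C)
  set n : ClassGroup (𝓞 K) → ℝ := fun C => (Ideal.absNorm (J C : Ideal (𝓞 K)) : ℝ) with hn
  have hLL : ∀ s : ℝ, 1 < s → LL K χ s = ∑ C : ClassGroup (𝓞 K), ((n C ^ s : ℝ) : ℂ) *
      ∑' a : 𝓞 K, hJ χ (J C : Ideal (𝓞 K)) a * (ff s (a : K) : ℂ) := by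
    intro s hs
    unfold LL
    rw [← (Equiv.sigmaFiberEquiv (fun I : (Ideal (𝓞 K))⁰ => ClassGroup.mk0 I)).tsum_eq]
    have hs2 : Summable fun y : Σ C, {I : (Ideal (𝓞 K))⁰ // ClassGroup.mk0 I = C} =>
        lterm χ s y.2.1 := by
      have := (Equiv.sigmaFiberEquiv (fun I : (Ideal (𝓞 K))⁰ => ClassGroup.mk0 I)).summable_iff.mpr
        (summable_lterm χ hs)
      exact this
    have h3 : ∑' y : Σ C, {I : (Ideal (𝓞 K))⁰ // ClassGroup.mk0 I = C},
        lterm χ s (Equiv.sigmaFiberEquiv (fun I : (Ideal (𝓞 K))⁰ => ClassGroup.mk0 I) y) =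
        ∑' C, ∑' I : InClass C, lterm χ s I.1 := hs2.tsum_sigma
    rw [h3, tsum_fintype]
    refine Finset.sum_congr rfl fun C _ => ?_
    have h4 := unfold_char χ hχ (J C) hs
    rw [hJC, inv_inv] at h4
    rw [h4, ← mul_assoc]
    have h5 : ((n C ^ s : ℝ) : ℂ) * (nrm s (J C) : ℂ) = 1 := by
      rw [← Complex.ofReal_mul]
      have : n C ^ s * nrm s (J C) = 1 := by
        unfold nrm
        rw [← Real.rpow_add (hNpos C), add_neg_cancel, Real.rpow_zero]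
      rw [this, Complex.ofReal_one]
    rw [h5, one_mul]
  refine ⟨∑ C, (n C : ℂ) * κ C, ∑ C, ((n C : ℂ) * ℓ C + κ C * ((d C : ℂ) * (r : ℂ))), ?_⟩
  have hmain : Tendsto (fun s : ℝ => ∑ C : ClassGroup (𝓞 K), (((n C ^ s : ℝ) : ℂ) *
      (∑' a : 𝓞 K, hJ χ (J C : Ideal (𝓞 K)) a * (ff s (a : K) : ℂ) - κ C * (ZZ K s : ℂ)) +
      κ C * ((((n C ^ s - n C) / (s - 1) : ℝ) : ℂ) * (((s - 1) * ZZ K s : ℝ) : ℂ))))
      (𝓝[>] 1) (𝓝 (∑ C, ((n C : ℂ) * ℓ C + κ C * ((d C : ℂ) * (r : ℂ))))) := by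
    refine tendsto_finsetSum _ fun C _ => ?_
    refine Tendsto.add ?_ ?_
    · refine Tendsto.mul ?_ (hκ C)
      have h1 : Tendsto (fun s : ℝ => n C ^ s) (𝓝[>] 1) (𝓝 (n C ^ (1 : ℝ))) :=
        (Real.continuousAt_const_rpow (hNpos C).ne').tendsto.mono_left nhdsWithin_le_nhds
      rw [Real.rpow_one] at h1
      exact (Complex.continuous_ofReal.tendsto _).comp h1
    · refine Tendsto.const_mul _ (Tendsto.mul ?_ ?_)
      · exact (Complex.continuous_ofReal.tendsto _).comp (hd C)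
      · exact (Complex.continuous_ofReal.tendsto _).comp hr
  refine hmain.congr' ?_
  filter_upwards [self_mem_nhdsWithin] with s hs
  have hs' : (1 : ℝ) < s := hs
  rw [hLL s hs', Finset.sum_mul, ← Finset.sum_sub_distrib]
  refine Finset.sum_congr rfl fun C _ => ?_
  have hs1 : ((s : ℂ) - 1) ≠ 0 := by
    have : (s - 1 : ℝ) ≠ 0 := by linarith
    exact_mod_cast this
  push_cast
  field_simp
  ring

end

end Fermat.Agent.Cheb
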