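import Fermat.Agent.ExtVan.DensD

/-!
Lattice sums of periodic functions against the weight `ff s`: behaviour as `s → 1+`.
-/

set_option autoImplicit false

open NumberField NumberField.InfinitePlace NumberField.Units Filter Topology nonZeroDivisors

namespace Fermat.Agent.Cheb

open Fermat.Agent.ExtVanD

noncomputable section

variable {K : Type*} [Field K] [NumberField K]

lemma tendsto_ff (a : K) : Tendsto (fun s : ℝ => ff s a) (𝓝[>] 1) (𝓝 (ff 1 a)) := by
  rcases eq_or_ne a 0 with rfl | ha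
  · refine tendsto_const_nhds.congr' ?_
    filter_upwards [self_mem_nhdsWithin] with s hs
    rw [ff_zero one_pos, ff_zero (lt_trans one_pos hs)]
  · have hn : 0 < nn a := nn_pos ha
    have h1 : ContinuousAt (fun s : ℝ => nn a ^ (-s)) 1 :=
      (Real.continuousAt_const_rpow hn.ne').comp continuousAt_neg
    have h2 : ContinuousAt (fun s : ℝ => ff s a) 1 := continuousAt_const.mul h1
    exact h2.tendsto.mono_left nhdsWithin_le_nhds

lemma Ioc_mem : Set.Ioc (1 : ℝ) 2 ∈ 𝓝[>] (1 : ℝ) := Ioc_mem_nhdsGT one_lt_two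

/-- Shifted sums differ by a convergent quantity. -/
lemma tendsto_shift (J : Ideal (𝓞 K)) (c : 𝓞 K) : ∃ ℓ : ℝ,
    Tendsto (fun s : ℝ => ∑' a : J, ff s ((c + (a : 𝓞 K) : 𝓞 K) : K) -
      ∑' a : J, ff s ((a : 𝓞 K) : K)) (𝓝[>] 1) (𝓝 ℓ) := by
  obtain ⟨g, hg, hgb⟩ := shift_bound (K := K) c
  have hgJ : Summable fun a : J => g a := hg.comp_injective Subtype.val_injective
  refine ⟨∑' a : J, (ff 1 ((c + (a : 𝓞 K) : 𝓞 K) : K) - ff 1 ((a : 𝓞 K) : K)), ?_⟩
  have h1 := tendsto_tsum_of_dominated_convergence (𝓕 := 𝓝[>] (1 : ℝ))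
    (f := fun (s : ℝ) (a : J) => ff s ((c + (a : 𝓞 K) : 𝓞 K) : K) - ff s ((a : 𝓞 K) : K))
    (g := fun a : J => ff 1 ((c + (a : 𝓞 K) : 𝓞 K) : K) - ff 1 ((a : 𝓞 K) : K))
    (bound := fun a : J => g a) hgJ
    (fun a => (tendsto_ff _).sub (tendsto_ff _)) (by
      filter_upwards [Ioc_mem] with s hs a
      exact hgb s hs.1 hs.2 a)
  refine h1.congr' ?_
  filter_upwards [self_mem_nhdsWithin] with s hs
  have hsf := summable_ff (K := K) hs
  have hsJ : Summable fun a : J => ff s ((a : 𝓞 K) : K) :=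
    hsf.comp_injective Subtype.val_injective
  have hsc : Summable fun a : J => ff s ((c + (a : 𝓞 K) : 𝓞 K) : K) :=
    hsf.comp_injective (i := fun a : J => c + (a : 𝓞 K)) fun a b h => by
      have : c + (a : 𝓞 K) = c + (b : 𝓞 K) := h
      exact Subtype.ext (add_left_cancel this)
  exact hsc.tsum_sub hsJ

/-- Sums of periodic functions: up to a multiple of the full lattice sum they converge. -/
theorem exists_limit_periodic (J : Ideal (𝓞 K)) (hJ : J ≠ ⊥) (h : 𝓞 K → ℂ)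
    (hper : ∀ x, ∀ y ∈ J, h (x + y) = h x) :
    ∃ κ ℓ : ℂ, Tendsto (fun s : ℝ => ∑' a : 𝓞 K, h a * (ff s (a : K) : ℂ) -
      κ * ((∑' a : 𝓞 K, ff s (a : K) : ℝ) : ℂ)) (𝓝[>] 1) (𝓝 ℓ) := by
  classical
  haveI : Finite (𝓞 K ⧸ J) := Ideal.finiteQuotientOfFreeOfNeBot J hJ
  haveI : Fintype (𝓞 K ⧸ J) := Fintype.ofFinite _
  let out : 𝓞 K ⧸ J → 𝓞 K := fun q => (Ideal.Quotient.mk_surjective q).choose
  have hout : ∀ q, Ideal.Quotient.mk J (out q) = q := fun q =>
    (Ideal.Quotient.mk_surjective q).choose_spec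
  let e : (𝓞 K ⧸ J) × J → 𝓞 K := fun x => out x.1 + x.2
  have he : Function.Bijective e := by
    constructor
    · rintro ⟨q, a⟩ ⟨q', a'⟩ h
      have h' : out q + (a : 𝓞 K) = out q' + (a' : 𝓞 K) := h
      have h1 : q = q' := by
        have h2 := congrArg (Ideal.Quotient.mk J) h'
        rwa [map_add, map_add, hout, hout, Ideal.Quotient.eq_zero_iff_mem.mpr a.2,
          Ideal.Quotient.eq_zero_iff_mem.mpr a'.2, add_zero, add_zero] at h2
      subst h1
      rw [add_right_inj] at h'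
      exact Prod.ext rfl (Subtype.ext h')
    · intro x
      refine ⟨⟨Ideal.Quotient.mk J x, ⟨x - out (Ideal.Quotient.mk J x), ?_⟩⟩, ?_⟩
      · rw [← Ideal.Quotient.eq, hout]
      · show out _ + (x - out _) = x
        ring
  choose ℓ hℓ using fun q : 𝓞 K ⧸ J => tendsto_shift J (out q)
  -- general decomposition
  have key : ∀ u : 𝓞 K → ℂ, (∀ x, ∀ y ∈ J, u (x + y) = u x) → ∃ B : ℝ, (∀ x, ‖u x‖ ≤ B) ∧
      ∀ s : ℝ, 1 < s → ∑' a : 𝓞 K, u a * (ff s (a : K) : ℂ) =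
        ∑ q, u (out q) * ((∑' a : J, ff s ((out q + (a : 𝓞 K) : 𝓞 K) : K) : ℝ) : ℂ) := by
    intro u hu
    have hval : ∀ x, ∃ q, u x = u (out q) := by
      intro x
      obtain ⟨⟨q, a⟩, hqa⟩ := he.2 x
      refine ⟨q, ?_⟩
      rw [← hqa]
      exact hu (out q) a a.2
    have hB : ∀ x, ‖u x‖ ≤ ∑ q, ‖u (out q)‖ := by
      intro x
      obtain ⟨q, hq⟩ := hval x
      rw [hq]
      exact Finset.single_le_sum (f := fun q => ‖u (out q)‖) (fun _ _ => norm_nonneg _)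
        (Finset.mem_univ q)
    refine ⟨_, hB, fun s hs => ?_⟩
    have hsf := summable_ff (K := K) hs
    have hsu : Summable fun a : 𝓞 K => u a * (ff s (a : K) : ℂ) := by
      refine Summable.of_norm_bounded (hsf.mul_left (∑ q, ‖u (out q)‖)) fun a => ?_
      rw [norm_mul, Complex.norm_real, Real.norm_of_nonneg (ff_nonneg s _)]
      exact mul_le_mul_of_nonneg_right (hB a) (ff_nonneg s _)
    have hse : Summable fun x : (𝓞 K ⧸ J) × J => u (e x) * (ff s ((e x : 𝓞 K) : K) : ℂ) :=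
      hsu.comp_injective he.1
    rw [← (Equiv.ofBijective e he).tsum_eq (fun a : 𝓞 K => u a * (ff s (a : K) : ℂ))]
    have h2 : ∑' x : (𝓞 K ⧸ J) × J, u (Equiv.ofBijective e he x) *
        (ff s ((Equiv.ofBijective e he x : 𝓞 K) : K) : ℂ) =
      ∑' q, ∑' a : J, u (e (q, a)) * (ff s ((e (q, a) : 𝓞 K) : K) : ℂ) := hse.tsum_prod
    rw [h2, tsum_fintype]
    refine Finset.sum_congr rfl fun q _ => ?_
    rw [Complex.ofReal_tsum, ← tsum_mul_left]
    refine tsum_congr fun a => ?_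
    have h3 : u (e (q, a)) = u (out q) := hu (out q) a a.2
    rw [h3]
  -- limits
  have hlim : ∀ u : 𝓞 K → ℂ, (∀ x, ∀ y ∈ J, u (x + y) = u x) →
      Tendsto (fun s : ℝ => ∑' a : 𝓞 K, u a * (ff s (a : K) : ℂ) -
        (∑ q, u (out q)) * ((∑' a : J, ff s ((a : 𝓞 K) : K) : ℝ) : ℂ)) (𝓝[>] 1)
        (𝓝 (∑ q, u (out q) * (ℓ q : ℂ))) := by
    intro u hu
    obtain ⟨B, -, hB⟩ := key u hu
    have h1 : Tendsto (fun s : ℝ => ∑ q, u (out q) *
        ((∑' a : J, ff s ((out q + (a : 𝓞 K) : 𝓞 K) : K) -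
          ∑' a : J, ff s ((a : 𝓞 K) : K) : ℝ) : ℂ)) (𝓝[>] 1)
        (𝓝 (∑ q, u (out q) * (ℓ q : ℂ))) := by
      refine tendsto_finsetSum _ fun q _ => ?_
      exact ((Complex.continuous_ofReal.tendsto _).comp (hℓ q)).const_mul _
    refine h1.congr' ?_
    filter_upwards [self_mem_nhdsWithin] with s hs
    rw [hB s hs, Finset.sum_mul, ← Finset.sum_sub_distrib]
    refine Finset.sum_congr rfl fun q _ => ?_
    push_cast
    ring
  set n : ℂ := ((Fintype.card (𝓞 K ⧸ J) : ℕ) : ℂ) with hn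
  have hn0 : n ≠ 0 := by
    rw [hn]
    exact Nat.cast_ne_zero.2 Fintype.card_ne_zero
  have hone := hlim (fun _ => 1) (fun _ _ _ => rfl)
  have hmain := hlim h hper
  set H : ℂ := ∑ q, h (out q) with hH
  refine ⟨H / n, (∑ q, h (out q) * (ℓ q : ℂ)) - H / n * (∑ q, 1 * (ℓ q : ℂ)), ?_⟩
  refine (hmain.sub (hone.const_mul (H / n))).congr fun s => ?_
  have h1 : (∑ q : 𝓞 K ⧸ J, (1 : ℂ)) = n := by simp [hn]
  have h2 : ∑' a : 𝓞 K, (1 : ℂ) * (ff s (a : K) : ℂ) = ((∑' a : 𝓞 K, ff s (a : K) : ℝ) : ℂ) := by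
    rw [Complex.ofReal_tsum]
    simp only [one_mul]
  rw [h1, h2]
  field_simp
  ring

end

end Fermat.Agent.Cheb
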