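import Fermat.Agent.Cheb.Dich
import Fermat.Agent.Cheb.Count
import Fermat.Agent.Cheb.Dual

/-!
The abstract form of the density theorem.
-/

set_option autoImplicit false
set_option linter.style.haveILetI false
set_option linter.unusedSectionVars false

open NumberField Filter Topology

namespace Fermat.Agent.Cheb

open Fermat.Agent.FrobDensity

noncomputable section

/-- The data needed for the crossing argument. -/
structure Setup (L : Type*) [Field L] [NumberField L] (G A : Type*) [Group G] [CommGroup A] where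
  π : (L ≃ₐ[ℚ] L) →* G × A
  surj : Function.Surjective π
  m : ℕ
  m_ne : m ≠ 0
  good : ∀ H : Subgroup (L ≃ₐ[ℚ] L), Good (fixedF H) m
  unram : ∀ p : ℕ, p.Prime → ¬ p ∣ m → ¬ (p : ℤ) ∣ discr L
  θ : (ZMod m)ˣ →* A
  θ_neg : θ (-1) = 1
  frob : ∀ (p : ℕ) (_ : p.Prime) (hpm : p.Coprime m) (Q : Ideal (𝓞 L)), Q.IsPrime →
    (p : 𝓞 L) ∈ Q → ∀ F : L ≃ₐ[ℚ] L, IsFrob F Q p → (π F).2 = θ (ZMod.unitOfCoprime p hpm)

section

variable (L : Type*) [Field L] [NumberField L]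

theorem exists_prime_over (p : Nat.Primes) :
    ∃ Q : Ideal (𝓞 L), Q.IsPrime ∧ ((p : ℕ) : 𝓞 L) ∈ Q := by
  haveI : Fact (p : ℕ).Prime := ⟨p.2⟩
  haveI hmax : (Ideal.span {((p : ℕ) : ℤ)}).IsMaximal := Int.ideal_span_isMaximal_of_prime (p : ℕ)
  obtain ⟨Q, hQ, hQ'⟩ := Ideal.exists_maximal_ideal_liesOver_of_isIntegral (S := 𝓞 L)
    (Ideal.span {((p : ℕ) : ℤ)})
  refine ⟨Q, hQ.isPrime, ?_⟩
  have h1 : ((p : ℕ) : ℤ) ∈ Q.under ℤ := by
    rw [← hQ'.over]
    exact Ideal.subset_span (Set.mem_singleton _)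
  rw [Ideal.mem_comap] at h1
  simpa using h1

theorem exists_Fr [IsGalois ℚ L] (p : Nat.Primes) : ∃ F : L ≃ₐ[ℚ] L, ∃ Q : Ideal (𝓞 L), Q.IsPrime ∧
    ((p : ℕ) : 𝓞 L) ∈ Q ∧ IsFrob F Q p := by
  obtain ⟨Q, hQ, hpQ⟩ := exists_prime_over L p
  obtain ⟨F, hF⟩ := exists_isFrob p.2 Q hpQ
  exact ⟨F, Q, hQ, hpQ, hF⟩

/-- A Frobenius element over `p`. -/
def Fr [IsGalois ℚ L] (p : Nat.Primes) : L ≃ₐ[ℚ] L := (exists_Fr L p).choose

end

namespace Setup

variable {L : Type*} [Field L] [NumberField L] [IsGalois ℚ L] {G A : Type*} [Group G] [CommGroup A]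
  [Finite G] [Finite A] (S : Setup L G A)

/-- The abelian component of Frobenius. -/
def t (p : Nat.Primes) : A := (S.π (Fr L p)).2

/-- Number of degree one primes over good `p`. -/
def aa (H : Subgroup (L ≃ₐ[ℚ] L)) (p : Nat.Primes) : ℂ :=
  if (p : ℕ) ∣ S.m then 0 else (numDegOne (fixedF H) p : ℂ)

theorem card_mul_aa (H : Subgroup (L ≃ₐ[ℚ] L)) {p : Nat.Primes} (hp : ¬ (p : ℕ) ∣ S.m) :
    (Nat.card H : ℂ) * S.aa H p = Nat.card {x : L ≃ₐ[ℚ] L // x * Fr L p * x⁻¹ ∈ H} := by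
  obtain ⟨Q, hQ, hpQ, hF⟩ := (exists_Fr L p).choose_spec
  have h1 := card_conj_mem H p.2 Q hpQ (fun Q' hQ' hpQ' =>
    inertia_eq_bot_of_not_dvd_discr L p.2 (S.unram p p.2 hp) Q' hQ' hpQ') hF
  unfold aa
  rw [if_neg hp]
  unfold Fr
  rw [h1]
  push_cast
  rfl

theorem card_ne (H : Subgroup (L ≃ₐ[ℚ] L)) : (Nat.card H : ℂ) ≠ 0 := by
  have : Nat.card H ≠ 0 := Nat.card_pos.ne'
  exact_mod_cast this

theorem norm_aa_le (H : Subgroup (L ≃ₐ[ℚ] L)) (p : Nat.Primes) :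
    ‖S.aa H p‖ ≤ Nat.card (L ≃ₐ[ℚ] L) := by
  by_cases hp : (p : ℕ) ∣ S.m
  · unfold aa
    rw [if_pos hp, norm_zero]
    positivity
  · have h1 := S.card_mul_aa H hp
    have h2 := congrArg norm h1
    rw [norm_mul, Complex.norm_natCast, Complex.norm_natCast] at h2
    have h3 : (Nat.card {x : L ≃ₐ[ℚ] L // x * Fr L p * x⁻¹ ∈ H} : ℝ) ≤ Nat.card (L ≃ₐ[ℚ] L) := by
      exact_mod_cast Nat.card_le_card_of_injective _ Subtype.val_injective
    have h4 : (1 : ℝ) ≤ Nat.card H := by exact_mod_cast Nat.card_pos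
    nlinarith [norm_nonneg (S.aa H p)]

theorem finite_bad : {p : Nat.Primes | (p : ℕ) ∣ S.m}.Finite := by
  have h1 : ((fun p : Nat.Primes => (p : ℕ)) '' {p : Nat.Primes | (p : ℕ) ∣ S.m}).Finite := by
    refine (Finset.range (S.m + 1)).finite_toSet.subset ?_
    rintro _ ⟨p, hp, rfl⟩
    rw [Finset.mem_coe, Finset.mem_range]
    have := Nat.le_of_dvd (Nat.pos_of_ne_zero S.m_ne) hp
    show (p : ℕ) < S.m + 1
    omega
  exact Set.Finite.of_finite_image h1 Subtype.val_injective.injOn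

theorem numDegOne_norm_summable (K : Type*) [Field K] [NumberField K] {s : ℝ} (hs : 1 < s) :
    Summable (fun p : Nat.Primes => (numDegOne K p : ℂ) * (((p : ℕ) : ℝ) ^ (-s) : ℝ)) := by
  have h1 : Summable (fun p : Nat.Primes => (numDegOne K p : ℝ) * ((p : ℕ) : ℝ) ^ (-s)) :=
    summable_primes_dterm K hs
  have h2 := Complex.ofRealCLM.summable h1
  refine h2.congr fun p => ?_
  rw [Complex.ofRealCLM_apply, Complex.ofReal_mul, Complex.ofReal_natCast]

theorem Bd_aa (H : Subgroup (L ≃ₐ[ℚ] L)) : Bd (fun s => psum (S.aa H) s - lg s) := by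
  classical
  obtain ⟨C, hC⟩ := exists_bound_log (fixedF H)
  let d : Nat.Primes → ℂ := fun p => if (p : ℕ) ∣ S.m then (numDegOne (fixedF H) p : ℂ) else 0
  have hd : Bd (psum d) := by
    refine Bd_psum_of_finite S.finite_bad.toFinset fun p hp => ?_
    rw [Set.Finite.mem_toFinset, Set.mem_ofPred_eq] at hp
    simp only [d]
    rw [if_neg hp]
  have h1 : Bd (fun s => psum (fun p => (numDegOne (fixedF H) p : ℂ)) s - lg s) := by
    refine ⟨C, fun s hs hs2 => ?_⟩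
    have h2 := (hC s hs hs2).2
    have h3 : psum (fun p => (numDegOne (fixedF H) p : ℂ)) s - lg s =
        ((∑' p : Nat.Primes, (Nat.card {I : Ideal (𝓞 (fixedF H)) // Ideal.absNorm I = (p : ℕ)} : ℝ) *
          ((p : ℕ) : ℝ) ^ (-s) - Real.log (1 / (s - 1)) : ℝ) : ℂ) := by
      unfold psum lg
      rw [Complex.ofReal_sub, Complex.ofReal_tsum]
      congr 1
      refine tsum_congr fun p => ?_
      rw [Complex.ofReal_mul, Complex.ofReal_natCast]
      rfl
    beta_reduce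
    rw [h3, Complex.norm_real, Real.norm_eq_abs]
    exact h2
  refine (h1.sub hd).congr fun s hs hs2 => ?_
  have h4 : psum (S.aa H) s = psum (fun p => (numDegOne (fixedF H) p : ℂ)) s - psum d s := by
    unfold psum
    have hsd : Summable (fun p : Nat.Primes => d p * (((p : ℕ) : ℝ) ^ (-s) : ℝ)) := by
      refine summable_of_ne_finset_zero (s := S.finite_bad.toFinset) fun p hp => ?_
      rw [Set.Finite.mem_toFinset, Set.mem_ofPred_eq] at hp
      simp only [d]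
      rw [if_neg hp, zero_mul]
    rw [← (numDegOne_norm_summable (fixedF H) hs).tsum_sub hsd]
    refine tsum_congr fun p => ?_
    simp only [aa, d]
    split_ifs <;> ring
  rw [h4]
  ring

/-- The Dirichlet character attached to a character of `A`. -/
def chi (ψ : A →* ℂˣ) : DirichletCharacter ℂ S.m := MulChar.ofUnitHom (ψ.comp S.θ)

theorem chi_neg (ψ : A →* ℂˣ) : S.chi ψ (-1) = 1 := by
  have h1 : ((-1 : (ZMod S.m)ˣ) : ZMod S.m) = -1 := by simp
  unfold chi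
  rw [← h1, MulChar.ofUnitHom_coe, MonoidHom.comp_apply, S.θ_neg, map_one, Units.val_one]

theorem chi_prime (ψ : A →* ℂˣ) {p : Nat.Primes} (hp : ¬ (p : ℕ) ∣ S.m) :
    S.chi ψ (((p : ℕ) : ZMod S.m)) = (ψ (S.t p) : ℂ) := by
  have hcop : (p : ℕ).Coprime S.m := (Nat.Prime.coprime_iff_not_dvd p.2).2 hp
  obtain ⟨Q, hQ, hpQ, hF⟩ := (exists_Fr L p).choose_spec
  have h1 := S.frob p p.2 hcop Q hQ hpQ _ hF
  have h2 : S.t p = S.θ (ZMod.unitOfCoprime p hcop) := h1
  unfold chi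
  rw [h2, ← ZMod.coe_unitOfCoprime (p : ℕ) hcop, MulChar.ofUnitHom_coe, MonoidHom.comp_apply]

theorem chi_bad (ψ : A →* ℂˣ) {p : Nat.Primes} (hp : (p : ℕ) ∣ S.m) :
    S.chi ψ (((p : ℕ) : ZMod S.m)) = 0 := by
  apply MulChar.map_nonunit
  rw [ZMod.isUnit_iff_coprime]
  intro h
  have h1 := (Nat.Prime.coprime_iff_not_dvd p.2).1 h
  exact h1 hp

theorem SS_eq (H : Subgroup (L ≃ₐ[ℚ] L)) (ψ : A →* ℂˣ) (s : ℝ) :
    SS (fixedF H) (S.chi ψ) s = psum (fun p => S.aa H p * (ψ (S.t p) : ℂ)) s := by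
  unfold SS psum
  refine tsum_congr fun p => ?_
  unfold cterm dterm
  by_cases hp : (p : ℕ) ∣ S.m
  · rw [S.chi_bad ψ hp, zero_mul]
    simp only [aa]
    rw [if_pos hp, zero_mul, zero_mul]
  · rw [S.chi_prime ψ hp]
    simp only [aa]
    rw [if_neg hp, Complex.ofReal_mul, Complex.ofReal_natCast]
    unfold idealCount numDegOne
    ring

end Setup

end

end Fermat.Agent.Cheb
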