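import Fermat.Agent.Cheb.Main

/-!
The abstract form of the density theorem, second part.
-/

set_option autoImplicit false
set_option linter.style.haveILetI false
set_option linter.unusedSectionVars false

open NumberField Filter Topology

namespace Fermat.Agent.Cheb

open Fermat.Agent.FrobDensity

noncomputable section

namespace Setup

variable {L : Type*} [Field L] [NumberField L] [IsGalois ℚ L] {G A : Type*} [Group G] [CommGroup A]
  [Finite G] [Finite A] (S : Setup L G A)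

/-- Elements of `H` with abelian component in `N`. -/
def restr (H : Subgroup (L ≃ₐ[ℚ] L)) (N : Subgroup A) : Subgroup (L ≃ₐ[ℚ] L) :=
  H ⊓ N.comap ((MonoidHom.snd G A).comp S.π)

theorem mem_restr {H : Subgroup (L ≃ₐ[ℚ] L)} {N : Subgroup A} {x : L ≃ₐ[ℚ] L} :
    x ∈ S.restr H N ↔ x ∈ H ∧ (S.π x).2 ∈ N := Iff.rfl

theorem snd_conj (x F : L ≃ₐ[ℚ] L) : (S.π (x * F * x⁻¹)).2 = (S.π F).2 := by
  simp only [map_mul, map_inv, Prod.snd_mul, Prod.snd_inv]
  rw [mul_comm, inv_mul_cancel_left]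

theorem card_restr (H : Subgroup (L ≃ₐ[ℚ] L)) (N : Subgroup A) [DecidablePred (· ∈ N)]
    (p : Nat.Primes) :
    (Nat.card (S.restr H N) : ℂ) * S.aa (S.restr H N) p =
      (Nat.card H : ℂ) * (if S.t p ∈ N then S.aa H p else 0) := by
  by_cases hp : (p : ℕ) ∣ S.m
  · simp [aa, hp]
  · rw [S.card_mul_aa _ hp]
    split_ifs with h
    · rw [S.card_mul_aa _ hp]
      congr 1
      refine Nat.card_congr (Equiv.subtypeEquivRight fun x => ?_)
      rw [mem_restr, snd_conj]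
      exact ⟨fun h' => h'.1, fun h' => ⟨h', h⟩⟩
    · rw [mul_zero]
      have : IsEmpty {x : L ≃ₐ[ℚ] L // x * Fr L p * x⁻¹ ∈ S.restr H N} := by
        refine ⟨fun x => h ?_⟩
        have h1 := (S.mem_restr.1 x.2).2
        rw [snd_conj] at h1
        exact h1
      simp

theorem psum_restr (H : Subgroup (L ≃ₐ[ℚ] L)) (N : Subgroup A) [DecidablePred (· ∈ N)] (s : ℝ) :
    psum (fun p => if S.t p ∈ N then S.aa H p else 0) s =
      ((Nat.card (S.restr H N) : ℂ) / Nat.card H) * psum (S.aa (S.restr H N)) s := by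
  rw [← psum_const_mul]
  congr 1
  funext p
  rw [div_mul_eq_mul_div, card_restr, mul_div_cancel_left₀ _ (card_ne H)]

theorem exists_re_le (ψ : A →* ℂˣ) : ∃ c : ℝ, 0 ≤ c ∧ c < 1 ∧
    ∀ a, ψ a ≠ 1 → (ψ a : ℂ).re ≤ c := by
  classical
  haveI : Fintype A := Fintype.ofFinite A
  have h1 : ∀ a, ψ a ≠ 1 → (ψ a : ℂ).re < 1 := by
    intro a ha
    have h2 := norm_char_eq_one ψ a
    rcases lt_or_eq_of_le ((Complex.re_le_norm (ψ a : ℂ)).trans h2.le) with h3 | h3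
    · exact h3
    · exfalso
      apply ha
      apply Units.ext
      have h4 : (ψ a : ℂ).re ^ 2 + (ψ a : ℂ).im ^ 2 = 1 := by
        have h5 := Complex.sq_norm (ψ a : ℂ)
        rw [h2, Complex.normSq_apply] at h5
        nlinarith
      rw [h3] at h4
      have h5 : (ψ a : ℂ).im = 0 := by nlinarith
      apply Complex.ext
      · rw [h3]; simp
      · rw [h5]; simp
  by_cases hne : (Finset.univ.filter fun a : A => ψ a ≠ 1).Nonempty
  · obtain ⟨b, hb, hb'⟩ := Finset.exists_max_image _ (fun a => (ψ a : ℂ).re) hne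
    refine ⟨max 0 (ψ b : ℂ).re, le_max_left _ _, max_lt one_pos (h1 b (Finset.mem_filter.1 hb).2),
      fun a ha => ?_⟩
    exact (hb' a (Finset.mem_filter.2 ⟨Finset.mem_univ _, ha⟩)).trans (le_max_right _ _)
  · refine ⟨0, le_rfl, one_pos, fun a ha => ?_⟩
    exact absurd ⟨a, Finset.mem_filter.2 ⟨Finset.mem_univ _, ha⟩⟩ hne

theorem aa_re_nonneg (H : Subgroup (L ≃ₐ[ℚ] L)) (p : Nat.Primes) :
    0 ≤ (S.aa H p).re ∧ (S.aa H p).im = 0 := by
  unfold aa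
  split_ifs <;> simp

theorem log_nonneg' {s : ℝ} (hs : 1 < s) (hs2 : s ≤ 2) : 0 ≤ Real.log (1 / (s - 1)) := by
  apply Real.log_nonneg
  rw [le_div_iff₀ (by linarith)]
  linarith

/-- Upper bound on the growth of the prime sums. -/
theorem growth (H : Subgroup (L ≃ₐ[ℚ] L)) (ψ : A →* ℂˣ) (hne : S.restr H ψ.ker ≠ H) :
    ∃ δ C : ℝ, 0 < δ ∧ ∀ s : ℝ, 1 < s → s ≤ 2 →
      (SS (fixedF H) (S.chi ψ) s).re ≤ (1 - δ) * Real.log (1 / (s - 1)) + C := by
  classical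
  obtain ⟨c, hc0, hc1, hc⟩ := exists_re_le ψ
  obtain ⟨C₁, hC₁⟩ := S.Bd_aa (S.restr H ψ.ker)
  obtain ⟨C₂, hC₂⟩ := S.Bd_aa H
  set r : ℝ := (Nat.card (S.restr H ψ.ker) : ℝ) / Nat.card H with hr
  have hH : (0 : ℝ) < Nat.card H := by exact_mod_cast Nat.card_pos
  have hr0 : 0 ≤ r := by positivity
  have hr2 : r ≤ 1 / 2 := by
    have hle : S.restr H ψ.ker ≤ H := inf_le_left
    obtain ⟨k, hk⟩ := Subgroup.card_dvd_of_le hle
    have hk1 : k ≠ 1 := by
      rintro rfl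
      rw [mul_one] at hk
      exact hne (Subgroup.eq_of_le_of_card_ge hle hk.le)
    have hk0 : k ≠ 0 := by
      rintro rfl
      rw [mul_zero] at hk
      exact absurd hk Nat.card_pos.ne'
    have hk2 : 2 ≤ k := by omega
    rw [hr, div_le_iff₀ hH]
    have h1 : (Nat.card H : ℝ) = Nat.card (S.restr H ψ.ker) * k := by exact_mod_cast hk
    have h2 : (2 : ℝ) ≤ k := by exact_mod_cast hk2
    have h3 : (0 : ℝ) ≤ Nat.card (S.restr H ψ.ker) := by positivity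
    rw [h1]
    nlinarith
  refine ⟨(1 - c) / 2, (1 - c) * r * C₁ + c * C₂, by linarith, fun s hs hs2 => ?_⟩
  have hl := log_nonneg' hs hs2
  set B : ℝ := ((Nat.card (L ≃ₐ[ℚ] L) : ℕ) : ℝ) with hB
  have hb1 : ∀ p, ‖S.aa H p * (ψ (S.t p) : ℂ)‖ ≤ B := fun p => by
    rw [norm_mul, norm_char_eq_one, mul_one]; exact S.norm_aa_le H p
  have hb2 : ∀ p, ‖(((1 - c : ℝ) : ℂ)) * (if S.t p ∈ ψ.ker then S.aa H p else 0)‖ ≤ B := fun p => by
    rw [norm_mul, Complex.norm_real, Real.norm_of_nonneg (by linarith)]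
    have h1 : ‖(if S.t p ∈ ψ.ker then S.aa H p else 0 : ℂ)‖ ≤ B := by
      split_ifs
      · exact S.norm_aa_le H p
      · rw [norm_zero]; positivity
    have h2 : 0 ≤ ‖(if S.t p ∈ ψ.ker then S.aa H p else 0 : ℂ)‖ := norm_nonneg _
    nlinarith
  have hb3 : ∀ p, ‖((c : ℝ) : ℂ) * S.aa H p‖ ≤ B := fun p => by
    rw [norm_mul, Complex.norm_real, Real.norm_of_nonneg hc0]
    have h1 := S.norm_aa_le H p
    have h2 : 0 ≤ ‖S.aa H p‖ := norm_nonneg _
    nlinarith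
  have hb4 : ∀ p, ‖(((1 - c : ℝ) : ℂ)) * (if S.t p ∈ ψ.ker then S.aa H p else 0) +
      ((c : ℝ) : ℂ) * S.aa H p‖ ≤ B + B := fun p =>
    (norm_add_le _ _).trans (add_le_add (hb2 p) (hb3 p))
  have h1 : (SS (fixedF H) (S.chi ψ) s).re ≤ (psum (fun p => (((1 - c : ℝ) : ℂ)) *
      (if S.t p ∈ ψ.ker then S.aa H p else 0) + ((c : ℝ) : ℂ) * S.aa H p) s).re := by
    rw [SS_eq]
    refine psum_re_le hb1 hb4 hs fun p => ?_
    obtain ⟨h2, h3⟩ := S.aa_re_nonneg H p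
    rw [Complex.mul_re, h3, zero_mul, sub_zero, Complex.add_re, Complex.re_ofReal_mul,
      Complex.re_ofReal_mul]
    split_ifs with h4
    · rw [MonoidHom.mem_ker] at h4
      rw [h4, Units.val_one, Complex.one_re]
      linarith
    · have h5 := hc (S.t p) h4
      rw [Complex.zero_re, mul_zero, zero_add]
      nlinarith
  rw [psum_add hb2 hb3 hs, psum_const_mul, psum_const_mul, psum_restr, Complex.add_re,
    Complex.re_ofReal_mul, Complex.re_ofReal_mul] at h1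
  have h2 : ((Nat.card (S.restr H ψ.ker) : ℂ) / Nat.card H) = ((r : ℝ) : ℂ) := by
    rw [hr]; push_cast; rfl
  rw [h2, Complex.re_ofReal_mul] at h1
  have h3 := (Complex.re_le_norm _).trans (hC₁ s hs hs2)
  have h4 := (Complex.re_le_norm _).trans (hC₂ s hs hs2)
  rw [Complex.sub_re] at h3 h4
  unfold lg at h3 h4
  rw [Complex.ofReal_re] at h3 h4
  set l := Real.log (1 / (s - 1)) with hldef
  have h5 : (1 - c) * (r * (psum (S.aa (S.restr H ψ.ker)) s).re) ≤ (1 - c) * (r * (l + C₁)) := by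
    apply mul_le_mul_of_nonneg_left _ (by linarith)
    apply mul_le_mul_of_nonneg_left _ hr0
    linarith
  have h6 : c * (psum (S.aa H) s).re ≤ c * (l + C₂) :=
    mul_le_mul_of_nonneg_left (by linarith) hc0
  have h7 : (1 - c) * (r * l) ≤ (1 - c) * (1 / 2 * l) :=
    mul_le_mul_of_nonneg_left (mul_le_mul_of_nonneg_right hr2 hl) (by linarith)
  have h8 : (1 - c) * (r * (l + C₁)) = (1 - c) * (r * l) + (1 - c) * r * C₁ := by ring
  have h9 : (1 - (1 - c) / 2) * l = (1 - c) * (1 / 2 * l) + c * l := by ring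
  rw [h9]
  linarith

/-- Prime sums are constant multiples of `log` plus bounded. -/
theorem psum_aa_const (H : Subgroup (L ≃ₐ[ℚ] L)) (a : ℂ) :
    Bd (fun s => a * psum (S.aa H) s - a * lg s) := by
  refine ((S.Bd_aa H).const_mul a).congr fun s _ _ => by ring

variable {σ : G} {τ : A}

/-- The cyclic subgroup. -/
def cyc (σ : G) (τ : A) : Subgroup (L ≃ₐ[ℚ] L) := (Subgroup.zpowers (σ, τ)).comap S.π

theorem card_cyc (hd : orderOf σ ∣ orderOf τ) :
    Nat.card (S.cyc σ τ) = Nat.card S.π.ker * orderOf τ :=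
  natCard_comap_zpowers S.π S.surj hd

theorem restr_bot (hd : orderOf σ ∣ orderOf τ) : S.restr (S.cyc σ τ) ⊥ = S.π.ker := by
  ext x
  rw [mem_restr, Subgroup.mem_bot, MonoidHom.mem_ker]
  constructor
  · rintro ⟨h1, h2⟩
    obtain ⟨k, hk⟩ := Subgroup.mem_zpowers_iff.1 (Subgroup.mem_comap.1 h1)
    have h3 : τ ^ k = 1 := by
      have := congrArg Prod.snd hk
      rw [h2] at this
      exact this
    have h4 : (orderOf σ : ℤ) ∣ k :=
      (Int.natCast_dvd_natCast.2 hd).trans (orderOf_dvd_iff_zpow_eq_one.2 h3)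
    have h5 : σ ^ k = 1 := orderOf_dvd_iff_zpow_eq_one.1 h4
    rw [← hk]
    exact Prod.ext h5 h3
  · intro h
    refine ⟨?_, by rw [h]; rfl⟩
    rw [cyc, Subgroup.mem_comap, h]
    exact Subgroup.one_mem _

theorem restr_ker_ne (ψ : A →* ℂˣ) (hψ : ψ τ ≠ 1) :
    S.restr (S.cyc σ τ) ψ.ker ≠ S.cyc σ τ := by
  intro h
  obtain ⟨x, hx⟩ := S.surj (σ, τ)
  have h1 : x ∈ S.cyc σ τ := by
    rw [cyc, Subgroup.mem_comap, hx]
    exact Subgroup.mem_zpowers _
  rw [← h, mem_restr, hx] at h1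
  exact hψ h1.2

/-- The value of `aa` where the abelian component is `τ`. -/
theorem aa_cyc (hd : orderOf σ ∣ orderOf τ) {p : Nat.Primes} (hp : ¬ (p : ℕ) ∣ S.m)
    (ht : S.t p = τ) :
    S.aa (S.cyc σ τ) p * orderOf τ = conjCount (S.π (Fr L p)).1 σ * Nat.card A := by
  have h1 := S.card_mul_aa (S.cyc σ τ) hp
  have h2 : Nat.card {x : L ≃ₐ[ℚ] L // x * Fr L p * x⁻¹ ∈ S.cyc σ τ} =
      Nat.card S.π.ker * (conjCount (S.π (Fr L p)).1 σ * Nat.card A) :=
    card_conj_comap S.π S.surj hd (Fr L p) ht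
  rw [S.card_cyc hd, h2] at h1
  have h3 : (Nat.card S.π.ker : ℂ) ≠ 0 := card_ne _
  apply mul_left_cancel₀ h3
  push_cast at h1
  rw [← h1]
  ring

theorem aa_mul_of_apply_eq_one (ψ : A →* ℂˣ) (hψ : ψ τ = 1) (p : Nat.Primes) :
    S.aa (S.cyc σ τ) p * (ψ (S.t p) : ℂ) = S.aa (S.cyc σ τ) p := by
  by_cases hp : (p : ℕ) ∣ S.m
  · simp [aa, hp]
  by_cases h : ψ (S.t p) = 1
  · rw [h]; simp
  · have h1 := S.card_mul_aa (S.cyc σ τ) hp
    have : IsEmpty {x : L ≃ₐ[ℚ] L // x * Fr L p * x⁻¹ ∈ S.cyc σ τ} := by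
      refine ⟨fun x => h ?_⟩
      have h2 : S.π (x.1 * Fr L p * x.1⁻¹) ∈ Subgroup.zpowers (σ, τ) := x.2
      obtain ⟨k, hk⟩ := Subgroup.mem_zpowers_iff.1 h2
      have h3 : τ ^ k = S.t p := by
        have h4 := congrArg Prod.snd hk
        rw [snd_conj] at h4
        exact h4
      rw [← h3, map_zpow, hψ, one_zpow]
    have h5 : Nat.card {x : L ≃ₐ[ℚ] L // x * Fr L p * x⁻¹ ∈ S.cyc σ τ} = 0 :=
      Nat.card_of_isEmpty
    rw [h5, Nat.cast_zero, mul_eq_zero] at h1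
    rcases h1 with h1 | h1
    · exact absurd h1 (card_ne _)
    · rw [h1, zero_mul]

/-- The sum of all prime sums. -/
theorem sum_SS (hd : orderOf σ ∣ orderOf τ) :
    Bd (fun s => ∑ ψ : A →* ℂˣ, SS (fixedF (S.cyc σ τ)) (S.chi ψ) s -
      (Nat.card A / orderOf τ : ℂ) * lg s) := by
  classical
  have h0 : (orderOf τ : ℂ) ≠ 0 := by
    have : orderOf τ ≠ 0 := (orderOf_pos τ).ne'
    exact_mod_cast this
  refine (S.psum_aa_const S.π.ker (Nat.card A / orderOf τ : ℂ)).congr fun s hs hs2 => ?_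
  congr 1
  simp_rw [SS_eq]
  rw [← psum_sum (B := fun _ => (Nat.card (L ≃ₐ[ℚ] L) : ℝ)) Finset.univ (fun ψ _ p => by
    rw [norm_mul, norm_char_eq_one, mul_one]; exact S.norm_aa_le _ p) hs]
  have h1 : (fun p => ∑ ψ : A →* ℂˣ, S.aa (S.cyc σ τ) p * (ψ (S.t p) : ℂ)) =
      fun p => (Nat.card A : ℂ) * (if S.t p ∈ (⊥ : Subgroup A) then S.aa (S.cyc σ τ) p else 0) := by
    funext p
    rw [← Finset.mul_sum, sum_char, Subgroup.mem_bot]
    split_ifs <;> ring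
  rw [h1, psum_const_mul, psum_restr, S.restr_bot hd, S.card_cyc hd]
  have h3 : (Nat.card S.π.ker : ℂ) ≠ 0 := card_ne _
  push_cast
  field_simp

theorem card_filter_mul (τ : A) [DecidablePred fun ψ : A →* ℂˣ => ψ τ = 1] :
    ((Finset.univ.filter fun ψ : A →* ℂˣ => ψ τ = 1).card : ℂ) * orderOf τ = Nat.card A := by
  have h1 := card_trivial τ
  have h2 : (Finset.univ.filter fun ψ : A →* ℂˣ => ψ τ = 1).card =
      Nat.card {ψ : A →* ℂˣ // ψ τ = 1} := by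
    rw [Nat.card_eq_fintype_card, Fintype.card_subtype]
  rw [h2]
  exact_mod_cast h1

theorem bd_SS (hd : orderOf σ ∣ orderOf τ) (ψ : A →* ℂˣ) (hψ : ψ τ ≠ 1) :
    Bd (fun s => SS (fixedF (S.cyc σ τ)) (S.chi ψ) s) := by
  classical
  set H := S.cyc σ τ with hH
  have hdich : ∀ φ : A →* ℂˣ, φ τ ≠ 1 →
      (∃ C₁ : ℝ, ∀ s : ℝ, 1 < s → s ≤ 2 → (SS (fixedF H) (S.chi φ) s).re ≤ C₁) ∧
      ∀ C₂ : ℝ, (∀ s : ℝ, 1 < s → s ≤ 2 → -C₂ ≤ (SS (fixedF H) (S.chi φ) s).re) →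
      ∃ C₃ : ℝ, ∀ s : ℝ, 1 < s → s ≤ 2 → ‖SS (fixedF H) (S.chi φ) s‖ ≤ C₃ := by
    intro φ hφ
    obtain ⟨δ, C, hδ, hup⟩ := S.growth H φ (S.restr_ker_ne φ hφ)
    exact dichotomy S.m_ne (S.good H) (S.chi φ) (S.chi_neg φ) hδ hup
  -- the sum over the nontrivial ones is bounded
  have hsum : Bd (fun s => ∑ φ ∈ Finset.univ.filter (fun φ : A →* ℂˣ => ¬ φ τ = 1),
      SS (fixedF H) (S.chi φ) s) := by
    have h1 := S.sum_SS (σ := σ) (τ := τ) hd
    have h2 : Bd (fun s => ∑ φ ∈ Finset.univ.filter (fun φ : A →* ℂˣ => φ τ = 1),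
        (psum (S.aa H) s - lg s)) := Bd.sum _ fun _ _ => S.Bd_aa H
    refine (h1.sub h2).congr fun s hs hs2 => ?_
    have h3 := Finset.sum_filter_add_sum_filter_not Finset.univ (fun φ : A →* ℂˣ => φ τ = 1)
      (fun φ => SS (fixedF H) (S.chi φ) s)
    have h4 : ∑ φ ∈ Finset.univ.filter (fun φ : A →* ℂˣ => φ τ = 1),
        SS (fixedF H) (S.chi φ) s = ∑ φ ∈ Finset.univ.filter (fun φ : A →* ℂˣ => φ τ = 1),
        psum (S.aa H) s := by
      refine Finset.sum_congr rfl fun φ hφ => ?_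
      rw [SS_eq]
      congr 1
      funext p
      exact S.aa_mul_of_apply_eq_one φ (Finset.mem_filter.1 hφ).2 p
    have h5 := card_filter_mul τ
    have h0 : (orderOf τ : ℂ) ≠ 0 := by
      have : orderOf τ ≠ 0 := (orderOf_pos τ).ne'
      exact_mod_cast this
    have h6 : (Nat.card A / orderOf τ : ℂ) =
        ((Finset.univ.filter fun ψ : A →* ℂˣ => ψ τ = 1).card : ℂ) := by
      rw [← h5]; field_simp
    rw [← h3, h4, Finset.sum_sub_distrib, h6]
    simp only [Finset.sum_const, nsmul_eq_mul]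
    ring
  choose! C₁ hC₁ using fun φ hφ => (hdich φ hφ).1
  obtain ⟨D, hD⟩ := hsum
  refine (hdich ψ hψ).2 (D + ∑ φ ∈ (Finset.univ.filter (fun φ : A →* ℂˣ => ¬ φ τ = 1)).erase ψ,
    C₁ φ) fun s hs hs2 => ?_
  have hmem : ψ ∈ Finset.univ.filter (fun φ : A →* ℂˣ => ¬ φ τ = 1) :=
    Finset.mem_filter.2 ⟨Finset.mem_univ _, hψ⟩
  have h1 := hD s hs hs2
  beta_reduce at h1
  rw [← Finset.add_sum_erase _ _ hmem] at h1
  have h2 := (Complex.abs_re_le_norm _).trans h1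
  rw [Complex.add_re, Complex.re_sum, abs_le] at h2
  have h3 : ∑ φ ∈ (Finset.univ.filter (fun φ : A →* ℂˣ => ¬ φ τ = 1)).erase ψ,
      (SS (fixedF H) (S.chi φ) s).re ≤
      ∑ φ ∈ (Finset.univ.filter (fun φ : A →* ℂˣ => ¬ φ τ = 1)).erase ψ, C₁ φ := by
    refine Finset.sum_le_sum fun φ hφ => ?_
    exact hC₁ φ (Finset.mem_filter.1 (Finset.mem_of_mem_erase hφ)).2 s hs hs2
  linarith [h2.1]

/-- **The density theorem** for pairs `(σ, τ)` with `orderOf σ ∣ orderOf τ`. -/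
theorem density_pair [DecidableEq A] (hd : orderOf σ ∣ orderOf τ) :
    Bd (fun s => psum (fun p => if (p : ℕ) ∣ S.m then 0 else if S.t p = τ then
      (conjCount (S.π (Fr L p)).1 σ : ℂ) else 0) s - (1 / Nat.card A : ℂ) * lg s) := by
  classical
  set H := S.cyc σ τ with hH
  have h0 : (orderOf τ : ℂ) ≠ 0 := by
    have : orderOf τ ≠ 0 := (orderOf_pos τ).ne'
    exact_mod_cast this
  have hA : (Nat.card A : ℂ) ≠ 0 := by
    have : Nat.card A ≠ 0 := Nat.card_pos.ne'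
    exact_mod_cast this
  have key : ∀ p : Nat.Primes, (if (p : ℕ) ∣ S.m then 0 else if S.t p = τ then
      (conjCount (S.π (Fr L p)).1 σ : ℂ) else 0) =
      ∑ ψ : A →* ℂˣ, (orderOf τ / (Nat.card A : ℂ) ^ 2 * (ψ τ⁻¹ : ℂ)) *
        (S.aa H p * (ψ (S.t p) : ℂ)) := by
    intro p
    have h1 : ∑ ψ : A →* ℂˣ, (orderOf τ / (Nat.card A : ℂ) ^ 2 * (ψ τ⁻¹ : ℂ)) *
        (S.aa H p * (ψ (S.t p) : ℂ)) =
        (orderOf τ / (Nat.card A : ℂ) ^ 2 * S.aa H p) *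
          ∑ ψ : A →* ℂˣ, (ψ (τ⁻¹ * S.t p) : ℂ) := by
      rw [Finset.mul_sum]
      refine Finset.sum_congr rfl fun ψ _ => ?_
      rw [map_mul, Units.val_mul]
      ring
    rw [h1, sum_char]
    by_cases hp : (p : ℕ) ∣ S.m
    · simp [aa, hp]
    · rw [if_neg hp]
      by_cases ht : S.t p = τ
      · rw [if_pos ht, if_pos (by rw [ht]; exact inv_mul_cancel τ)]
        have h2 := S.aa_cyc hd hp ht
        have h3 : (conjCount (S.π (Fr L p)).1 σ : ℂ) = S.aa H p * orderOf τ / Nat.card A := by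
          rw [eq_div_iff hA, ← h2]
        rw [h3]
        field_simp
      · rw [if_neg ht, if_neg (fun h => ht (inv_mul_eq_one.1 h).symm), mul_zero]
  have hB : ∀ ψ : A →* ℂˣ, ∀ p, ‖(orderOf τ / (Nat.card A : ℂ) ^ 2 * (ψ τ⁻¹ : ℂ)) *
        (S.aa H p * (ψ (S.t p) : ℂ))‖ ≤
        ‖(orderOf τ / (Nat.card A : ℂ) ^ 2)‖ * Nat.card (L ≃ₐ[ℚ] L) := by
    intro ψ p
    rw [norm_mul, norm_mul, norm_char_eq_one, mul_one, norm_mul, norm_char_eq_one, mul_one]
    exact mul_le_mul_of_nonneg_left (S.norm_aa_le H p) (norm_nonneg _)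
  have h1 : Bd (fun s => ∑ ψ ∈ Finset.univ.filter (fun ψ : A →* ℂˣ => ¬ ψ τ = 1),
      (orderOf τ / (Nat.card A : ℂ) ^ 2 * (ψ τ⁻¹ : ℂ)) * SS (fixedF H) (S.chi ψ) s) :=
    Bd.sum _ fun ψ hψ => (S.bd_SS hd ψ (Finset.mem_filter.1 hψ).2).const_mul _
  have h2 : Bd (fun s => ∑ ψ ∈ Finset.univ.filter (fun ψ : A →* ℂˣ => ψ τ = 1),
      (orderOf τ / (Nat.card A : ℂ) ^ 2 * (psum (S.aa H) s - lg s))) :=
    Bd.sum _ fun ψ _ => (S.Bd_aa H).const_mul _
  refine (h1.add h2).congr fun s hs hs2 => ?_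
  simp_rw [key]
  rw [psum_sum (B := fun _ => ‖(orderOf τ / (Nat.card A : ℂ) ^ 2)‖ * Nat.card (L ≃ₐ[ℚ] L))
    Finset.univ (fun ψ _ p => hB ψ p) hs]
  simp_rw [psum_const_mul, ← SS_eq]
  rw [← Finset.sum_filter_add_sum_filter_not Finset.univ (fun φ : A →* ℂˣ => φ τ = 1)]
  have h4 : ∑ φ ∈ Finset.univ.filter (fun φ : A →* ℂˣ => φ τ = 1),
      (orderOf τ / (Nat.card A : ℂ) ^ 2 * (φ τ⁻¹ : ℂ)) * SS (fixedF H) (S.chi φ) s =
      ∑ φ ∈ Finset.univ.filter (fun φ : A →* ℂˣ => φ τ = 1),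
      (orderOf τ / (Nat.card A : ℂ) ^ 2) * psum (S.aa H) s := by
    refine Finset.sum_congr rfl fun φ hφ => ?_
    have hφ' : φ τ = 1 := (Finset.mem_filter.1 hφ).2
    rw [SS_eq, map_inv, hφ']
    have h5 : (fun p => S.aa H p * (φ (S.t p) : ℂ)) = S.aa H := by
      funext p
      exact S.aa_mul_of_apply_eq_one φ hφ' p
    rw [h5]
    simp
  have h5 := card_filter_mul τ
  rw [h4]
  simp only [Finset.sum_const, nsmul_eq_mul]
  have h6 : (1 / Nat.card A : ℂ) =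
      ((Finset.univ.filter fun ψ : A →* ℂˣ => ψ τ = 1).card : ℂ) *
        (orderOf τ / (Nat.card A : ℂ) ^ 2) := by
    rw [← mul_div_assoc, h5]
    field_simp
  rw [h6]
  ring

end Setup

end

end Fermat.Agent.Cheb
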