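import Fermat.Agent.Cheb.Main2

/-!
The abstract form of the density theorem, third part.
-/

set_option autoImplicit false
set_option linter.style.haveILetI false
set_option linter.unusedSectionVars false

open NumberField Filter Topology

namespace Fermat.Agent.Cheb

open Fermat.Agent.FrobDensity

noncomputable section

theorem sum_conjCount {G : Type*} [Group G] [Finite G] [DecidableEq G] (C : Finset G)
    (hC : ∀ g ∈ C, ∀ y, y * g * y⁻¹ ∈ C) (f : G) :
    ∑ σ ∈ C, conjCount f σ = if f ∈ C then Nat.card G else 0 := by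
  classical
  haveI : Fintype G := Fintype.ofFinite G
  have h1 : ∀ σ, conjCount f σ = ∑ y : G, if y * f * y⁻¹ = σ then 1 else 0 := by
    intro σ
    unfold conjCount
    rw [Nat.card_eq_fintype_card, Fintype.card_subtype, Finset.card_filter]
  simp_rw [h1]
  rw [Finset.sum_comm]
  have h2 : ∀ y : G, (∑ σ ∈ C, if y * f * y⁻¹ = σ then 1 else 0) = if f ∈ C then 1 else 0 := by
    intro y
    rw [Finset.sum_ite_eq]
    have h3 : y * f * y⁻¹ ∈ C ↔ f ∈ C := by
      constructor
      · intro h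
        have := hC _ h y⁻¹
        simpa [mul_assoc] using this
      · exact fun h => hC f h y
    simp only [h3]
  simp_rw [h2]
  rw [Finset.sum_const, Finset.card_univ, Nat.card_eq_fintype_card]
  split_ifs <;> simp

namespace Setup

variable {L : Type*} [Field L] [NumberField L] [IsGalois ℚ L] {G A : Type*} [Group G] [CommGroup A]
  [Finite G] [Finite A] (S : Setup L G A)

theorem density_set [DecidableEq G] [DecidableEq A] (C : Finset G)
    (hC : ∀ g ∈ C, ∀ y, y * g * y⁻¹ ∈ C) (T : Finset A)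
    (hT : ∀ τ ∈ T, Nat.card G ∣ orderOf τ) :
    Bd (fun s => psum (fun p => if (p : ℕ) ∣ S.m then 0 else
      if S.t p ∈ T ∧ (S.π (Fr L p)).1 ∈ C then 1 else 0) s -
        (T.card * C.card / (Nat.card A * Nat.card G) : ℂ) * lg s) := by
  classical
  have hG : (Nat.card G : ℂ) ≠ 0 := by
    have : Nat.card G ≠ 0 := Nat.card_pos.ne'
    exact_mod_cast this
  have hA : (Nat.card A : ℂ) ≠ 0 := by
    have : Nat.card A ≠ 0 := Nat.card_pos.ne'
    exact_mod_cast this
  let f : A → G → Nat.Primes → ℂ := fun τ σ p => (1 / (Nat.card G : ℂ)) *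
    (if (p : ℕ) ∣ S.m then 0 else if S.t p = τ then (conjCount (S.π (Fr L p)).1 σ : ℂ) else 0)
  have key : ∀ p : Nat.Primes, (if (p : ℕ) ∣ S.m then (0 : ℂ) else
      if S.t p ∈ T ∧ (S.π (Fr L p)).1 ∈ C then 1 else 0) =
      ∑ x ∈ T ×ˢ C, f x.1 x.2 p := by
    intro p
    rw [Finset.sum_product]
    simp only [f]
    by_cases hp : (p : ℕ) ∣ S.m
    · simp [hp]
    · simp only [hp, if_false]
      have h1 : ∀ τ : A, ∑ σ ∈ C, (1 / (Nat.card G : ℂ)) *
          (if S.t p = τ then (conjCount (S.π (Fr L p)).1 σ : ℂ) else 0) =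
          if S.t p = τ then (if (S.π (Fr L p)).1 ∈ C then 1 else 0) else 0 := by
        intro τ
        rw [← Finset.mul_sum]
        by_cases h2 : S.t p = τ
        · simp only [h2, if_true]
          have h3 := congrArg (Nat.cast : ℕ → ℂ) (sum_conjCount C hC (S.π (Fr L p)).1)
          push_cast at h3
          rw [h3]
          split_ifs
          · field_simp
          · simp
        · simp [h2]
      simp_rw [h1]
      rw [Finset.sum_ite_eq]
      split_ifs <;> simp_all
  have hcc : ∀ a b : G, conjCount a b ≤ Nat.card G := by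
    intro a b
    exact Nat.card_le_card_of_injective _ Subtype.val_injective
  have hB : ∀ x ∈ T ×ˢ C, ∀ p, ‖f x.1 x.2 p‖ ≤ (1 : ℝ) := by
    intro x _ p
    simp only [f]
    rw [norm_mul, norm_div, norm_one, Complex.norm_natCast]
    have hG0 : (0 : ℝ) < Nat.card G := by exact_mod_cast Nat.card_pos
    have h1 : ‖(if (p : ℕ) ∣ S.m then (0 : ℂ) else if S.t p = x.1 then
        (conjCount (S.π (Fr L p)).1 x.2 : ℂ) else 0)‖ ≤ Nat.card G := by
      split_ifs
      · rw [norm_zero]; exact hG0.le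
      · rw [Complex.norm_natCast]; exact_mod_cast hcc _ _
      · rw [norm_zero]; exact hG0.le
    rw [div_mul_eq_mul_div, one_mul, div_le_one hG0]
    exact h1
  let g : A × G → ℝ → ℂ := fun x s => (1 / (Nat.card G : ℂ)) *
      (psum (fun p => if (p : ℕ) ∣ S.m then 0 else if S.t p = x.1 then
      (conjCount (S.π (Fr L p)).1 x.2 : ℂ) else 0) s - (1 / Nat.card A : ℂ) * lg s)
  have hg : ∀ x ∈ T ×ˢ C, Bd (g x) := by
    intro x hx
    have h1 : orderOf x.2 ∣ orderOf x.1 :=
      (orderOf_dvd_natCard x.2).trans (hT x.1 (Finset.mem_product.1 hx).1)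
    exact (S.density_pair h1).const_mul (1 / (Nat.card G : ℂ))
  have h1 : Bd (fun s => ∑ x ∈ T ×ˢ C, g x s) := Bd.sum (T ×ˢ C) hg
  refine h1.congr fun s hs hs2 => ?_
  simp only [g]
  simp_rw [key]
  rw [psum_sum (B := fun _ => (1 : ℝ)) (T ×ˢ C) hB hs]
  simp only [f, psum_const_mul, mul_sub, Finset.sum_sub_distrib, Finset.sum_const, nsmul_eq_mul,
    Finset.card_product]
  congr 1
  push_cast
  field_simp

/-- **The lower bound** for the density of primes with Frobenius in `C`. -/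
theorem lower_bound [DecidableEq G] (C : Finset G)
    (hC : ∀ g ∈ C, ∀ y, y * g * y⁻¹ ∈ C) (T : Finset A)
    (hT : ∀ τ ∈ T, Nat.card G ∣ orderOf τ) :
    ∃ D : ℝ, ∀ s : ℝ, 1 < s → s ≤ 2 →
      (T.card * C.card / (Nat.card A * Nat.card G) : ℝ) * Real.log (1 / (s - 1)) - D ≤
      ∑' p : Nat.Primes, if ¬ (p : ℕ) ∣ S.m ∧ (S.π (Fr L p)).1 ∈ C then
        (((p : ℕ) : ℝ)) ^ (-s) else 0 := by
  classical
  obtain ⟨D, hD⟩ := S.density_set C hC T hT
  refine ⟨D, fun s hs hs2 => ?_⟩
  have h1 := (Complex.abs_re_le_norm _).trans (hD s hs hs2)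
  beta_reduce at h1
  rw [Complex.sub_re, abs_le] at h1
  have h2 : ((T.card * C.card / (Nat.card A * Nat.card G) : ℂ) * lg s).re =
      (T.card * C.card / (Nat.card A * Nat.card G) : ℝ) * Real.log (1 / (s - 1)) := by
    have h3 : ((T.card * C.card / (Nat.card A * Nat.card G) : ℂ)) =
        (((T.card * C.card / (Nat.card A * Nat.card G) : ℝ)) : ℂ) := by push_cast; rfl
    rw [h3, Complex.re_ofReal_mul]
    rfl
  rw [h2] at h1
  have hb1 : ∀ p : Nat.Primes, ‖(if (p : ℕ) ∣ S.m then (0 : ℂ) else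
      if S.t p ∈ T ∧ (S.π (Fr L p)).1 ∈ C then 1 else 0)‖ ≤ (1 : ℝ) := by
    intro p; split_ifs <;> simp
  have hb2 : ∀ p : Nat.Primes, ‖(if ¬ (p : ℕ) ∣ S.m ∧ (S.π (Fr L p)).1 ∈ C then
      (1 : ℂ) else 0)‖ ≤ (1 : ℝ) := by
    intro p; split_ifs <;> simp
  have h3 : (psum (fun p => if (p : ℕ) ∣ S.m then (0 : ℂ) else
      if S.t p ∈ T ∧ (S.π (Fr L p)).1 ∈ C then 1 else 0) s).re ≤
      (psum (fun p => if ¬ (p : ℕ) ∣ S.m ∧ (S.π (Fr L p)).1 ∈ C then (1 : ℂ) else 0) s).re := by
    refine psum_re_le hb1 hb2 hs fun p => ?_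
    split_ifs <;> simp_all
  have h4 : (psum (fun p => if ¬ (p : ℕ) ∣ S.m ∧ (S.π (Fr L p)).1 ∈ C then (1 : ℂ) else 0) s).re =
      ∑' p : Nat.Primes, if ¬ (p : ℕ) ∣ S.m ∧ (S.π (Fr L p)).1 ∈ C then
        (((p : ℕ) : ℝ)) ^ (-s) else 0 := by
    unfold psum
    rw [Complex.re_tsum (summable_psum hb2 hs)]
    refine tsum_congr fun p => ?_
    split_ifs
    · rw [one_mul, Complex.ofReal_re]
    · rw [zero_mul, Complex.zero_re]
  rw [← h4]
  linarith [h1.1]

end Setup

end

end Fermat.Agent.Cheb
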